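/-
Package Q of the S30/S29 route (helper7614): the "quadratic algebra" lemma.
If a subalgebra `B` of `End_k(W)` acts irreducibly on `W` and every element of `B` satisfies a monic
quadratic equation with scalar coefficients, then either every nonzero element of `B` is injective,
or `dim_k W = 2`.  This replaces Burnside's theorem in the construction of 2-dimensional Galois
representations from the Eichler-Shimura relation.  Characteristic free.
-/
import Mathlib.LinearAlgebra.FiniteDimensional.Lemmas
import Mathlib.LinearAlgebra.Dimension.Finrank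
import Mathlib.Algebra.Algebra.Subalgebra.Basic

set_option autoImplicit false

namespace Fermat.Agent.S30.QuadAlg

variable {k : Type*} [Field k] {W : Type*} [AddCommGroup W] [Module k W]

/-- `B` acts irreducibly: every nonzero vector can be moved to any vector by an element of `B`. -/
def ActsSimply (B : Subalgebra k (Module.End k W)) : Prop :=
  ∀ w : W, w ≠ 0 → ∀ w' : W, ∃ x ∈ B, x w = w'

/-- Every element of `B` satisfies a monic quadratic equation with scalar coefficients. -/
def IsQuadratic (B : Subalgebra k (Module.End k W)) : Prop :=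
  ∀ x ∈ B, ∃ s n : k, x * x = s • x - n • (1 : Module.End k W)

variable {B : Subalgebra k (Module.End k W)}

/-- A non-injective element of a quadratic algebra satisfies `x² = s x`. -/
theorem exists_sq_eq_smul (hq : IsQuadratic B) {x : Module.End k W} (hx : x ∈ B)
    (hker : ∃ w, w ≠ 0 ∧ x w = 0) : ∃ s : k, x * x = s • x := by
  obtain ⟨s, n, h⟩ := hq x hx
  obtain ⟨w, hw, hxw⟩ := hker
  have h1 : (x * x) w = (s • x - n • (1 : Module.End k W)) w := by rw [h]
  rw [Module.End.mul_apply, hxw, map_zero, LinearMap.sub_apply, LinearMap.smul_apply, hxw,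
    smul_zero, LinearMap.smul_apply, Module.End.one_apply, zero_sub] at h1
  have hn : n = 0 := by
    by_contra hn
    have h2 : n • w = 0 := by
      have := h1.symm
      rwa [neg_eq_zero] at this
    exact hw ((smul_eq_zero.mp h2).resolve_left hn)
  exact ⟨s, by rw [h, hn, zero_smul, sub_zero]⟩

/-- If `u * v = 0` with `u ≠ 0`, then `v² = s v` in a quadratic algebra. -/
theorem exists_sq_eq_smul_of_mul_eq_zero (hq : IsQuadratic B) {u v : Module.End k W}
    (hv : v ∈ B) (hu0 : u ≠ 0) (huv : u * v = 0) : ∃ s : k, v * v = s • v := by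
  obtain ⟨s, n, h⟩ := hq v hv
  have h1 : u * (v * v) = u * (s • v - n • (1 : Module.End k W)) := by rw [h]
  rw [← mul_assoc, huv, zero_mul, mul_sub, mul_smul_comm, huv, smul_zero, zero_sub,
    mul_smul_comm, mul_one] at h1
  have hn : n = 0 := by
    by_contra hn
    have h2 : n • u = 0 := by
      have := h1.symm
      rwa [neg_eq_zero] at this
    exact hu0 ((smul_eq_zero.mp h2).resolve_left hn)
  exact ⟨s, by rw [h, hn, zero_smul, sub_zero]⟩

/-- From `x² = s x` with `s ≠ 0`, the element `s⁻¹ x` is idempotent. -/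
theorem idempotent_of_sq_eq_smul {x : Module.End k W} {s : k} (hs : s ≠ 0) (h : x * x = s • x) :
    (s⁻¹ • x) * (s⁻¹ • x) = s⁻¹ • x := by
  rw [smul_mul_smul_comm, h, smul_smul, mul_assoc, inv_mul_cancel₀ hs, mul_one]

/-- Key step: in a quadratic algebra acting irreducibly, a nonzero element `u` with `u² = 0`
produces an idempotent of the form `u * x`. -/
theorem exists_idempotent_of_sq_zero (hs : ActsSimply B) (hq : IsQuadratic B)
    {u : Module.End k W} (hu : u ∈ B) (hu0 : u ≠ 0) (huu : u * u = 0) :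
    ∃ x ∈ B, (u * x) * (u * x) = u * x ∧ ∃ w, u w ≠ 0 ∧ (u * x) (u w) = u w := by
  obtain ⟨w, hw⟩ : ∃ w, u w ≠ 0 := by
    by_contra hcon
    push Not at hcon
    exact hu0 (LinearMap.ext fun w => by rw [hcon w, LinearMap.zero_apply])
  obtain ⟨x, hx, hxw⟩ := hs (u w) hw w
  have hv : u * x ∈ B := B.mul_mem hu hx
  have hfix : (u * x) (u w) = u w := by rw [Module.End.mul_apply, hxw]
  obtain ⟨s, hsq⟩ := exists_sq_eq_smul_of_mul_eq_zero hq hv hu0
    (by rw [← mul_assoc, huu, zero_mul])
  have h1 : (u * x * (u * x)) (u w) = (s • (u * x)) (u w) := by rw [hsq]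
  rw [Module.End.mul_apply, hfix, hfix, LinearMap.smul_apply, hfix] at h1
  have hs1 : s = 1 := by
    by_contra hne
    have h2 : (1 - s) • u w = 0 := by rw [sub_smul, one_smul, ← h1, sub_self]
    exact hw ((smul_eq_zero.mp h2).resolve_left (sub_ne_zero.mpr (Ne.symm hne)))
  exact ⟨x, hx, by rw [hsq, hs1, one_smul], w, hw, hfix⟩

/-- Scalar action on the range of an idempotent `e ≠ 1` (more precisely: `e` kills some nonzero
vector): every `e z e` with `z ∈ B` acts on `e W` as a scalar. -/
theorem exists_smul_of_idempotent (hs : ActsSimply B) (hq : IsQuadratic B)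
    {e : Module.End k W} (he : e ∈ B) (hee : e * e = e) (hker : ∃ w, w ≠ 0 ∧ e w = 0)
    {z : Module.End k W} (hz : z ∈ B) : ∃ c : k, e * z * e = c • e := by
  by_contra hcon
  push Not at hcon
  obtain ⟨w₀, hw₀, hew₀⟩ := hker
  set z₀ : Module.End k W := e * z * e with hz₀
  have hz₀B : z₀ ∈ B := B.mul_mem (B.mul_mem he hz) he
  have hez₀ : e * z₀ = z₀ := by rw [hz₀, ← mul_assoc, ← mul_assoc, hee]
  have hz₀e : z₀ * e = z₀ := by rw [hz₀, mul_assoc, hee]
  -- every element of the form `y * e` kills `w₀`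
  have hkill : ∀ y : Module.End k W, ∃ w, w ≠ 0 ∧ (y * e) w = 0 := fun y =>
    ⟨w₀, hw₀, by rw [Module.End.mul_apply, hew₀, map_zero]⟩
  have hz₀ne : z₀ ≠ 0 := fun h0 => hcon 0 (by rw [h0, zero_smul])
  -- an idempotent `f` with `e f = f = f e`, `f ≠ 0`, `f ≠ e`
  obtain ⟨f, hfB, hff, hef, hfe, hf0, hfne⟩ : ∃ f ∈ B, f * f = f ∧ e * f = f ∧ f * e = f ∧
      f ≠ 0 ∧ f ≠ e := by
    obtain ⟨s, hsq⟩ := exists_sq_eq_smul hq hz₀B (by rw [← hz₀e]; exact hkill z₀)
    by_cases hs0 : s = 0
    · rw [hs0, zero_smul] at hsq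
      obtain ⟨x, hx, hidem, w, hw, hfix⟩ := exists_idempotent_of_sq_zero hs hq hz₀B hz₀ne hsq
      refine ⟨z₀ * x * e, B.mul_mem (B.mul_mem hz₀B hx) he, ?_, ?_, ?_, ?_, ?_⟩
      · -- (z₀ x e)(z₀ x e) = z₀ x (e z₀) x e = (z₀ x z₀ x) e = z₀ x e
        calc z₀ * x * e * (z₀ * x * e) = z₀ * x * (e * z₀) * x * e := by
              simp only [mul_assoc]
          _ = (z₀ * x * (z₀ * x)) * e := by rw [hez₀]; simp only [mul_assoc]
          _ = z₀ * x * e := by rw [hidem]
      · rw [← mul_assoc, ← mul_assoc, hez₀]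
      · rw [mul_assoc, hee]
      · intro h0
        have h1 : (z₀ * x * e) (z₀ w) = 0 := by rw [h0, LinearMap.zero_apply]
        have h2 : (z₀ * x * e) (z₀ w) = z₀ w := by
          have h3 : e (z₀ w) = z₀ w := by
            rw [← Module.End.mul_apply, hez₀]
          rw [Module.End.mul_apply, h3]
          exact hfix
        exact hw (h2 ▸ h1)
      · intro h0
        -- e = z₀ x e, so z₀ = z₀ e = z₀ z₀ x e = 0
        apply hz₀ne
        calc z₀ = z₀ * e := hz₀e.symm
          _ = z₀ * (z₀ * x * e) := by rw [h0]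
          _ = (z₀ * z₀) * x * e := by simp only [mul_assoc]
          _ = 0 := by rw [hsq, zero_mul, zero_mul]
    · refine ⟨s⁻¹ • z₀, B.smul_mem hz₀B _, idempotent_of_sq_eq_smul hs0 hsq, ?_, ?_, ?_, ?_⟩
      · rw [mul_smul_comm, hez₀]
      · rw [smul_mul_assoc, hz₀e]
      · intro h0
        exact hz₀ne ((smul_eq_zero.mp h0).resolve_left (inv_ne_zero hs0))
      · intro h0
        apply hcon s
        rw [← h0, smul_smul, mul_inv_cancel₀ hs0, one_smul]
  -- the complementary idempotent inside `e`
  set g : Module.End k W := e - f with hg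
  have hgB : g ∈ B := B.sub_mem he hfB
  have hfg : f * g = 0 := by rw [hg, mul_sub, hfe, hff, sub_self]
  have hgf : g * f = 0 := by rw [hg, sub_mul, hef, hff, sub_self]
  have hge : g * e = g := by rw [hg, sub_mul, hee, hfe]
  have hg0 : g ≠ 0 := fun h0 => hfne (sub_eq_zero.mp h0).symm
  obtain ⟨v₀, hv₀⟩ : ∃ v₀, f v₀ ≠ 0 := by
    by_contra hc
    push Not at hc
    exact hf0 (LinearMap.ext fun w => by rw [hc w, LinearMap.zero_apply])
  obtain ⟨v₀', hv₀'⟩ : ∃ v₀', g v₀' ≠ 0 := by
    by_contra hc
    push Not at hc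
    exact hg0 (LinearMap.ext fun w => by rw [hc w, LinearMap.zero_apply])
  set v : W := f v₀ with hv
  set v' : W := g v₀' with hv'
  have hfv : f v = v := by rw [hv, ← Module.End.mul_apply, hff]
  have hgv' : g v' = v' := by
    rw [hv', ← Module.End.mul_apply]
    congr 1
    rw [hg, sub_mul, mul_sub, mul_sub, hee, hfe, hef, hff, sub_self, sub_zero]
  have hgv : g v = 0 := by rw [hv, ← Module.End.mul_apply, hgf, LinearMap.zero_apply]
  have hfv' : f v' = 0 := by rw [hv', ← Module.End.mul_apply, hfg, LinearMap.zero_apply]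
  obtain ⟨x, hx, hxv⟩ := hs v hv₀ v'
  obtain ⟨x', hx', hxv'⟩ := hs v' hv₀' v
  set y : Module.End k W := g * x * f + f * x' * g with hy
  have hyB : y ∈ B :=
    B.add_mem (B.mul_mem (B.mul_mem hgB hx) hfB) (B.mul_mem (B.mul_mem hfB hx') hgB)
  have hyv : y v = v' := by
    rw [hy, LinearMap.add_apply, Module.End.mul_apply, Module.End.mul_apply, hfv, hxv, hgv',
      Module.End.mul_apply, Module.End.mul_apply, hgv, map_zero, map_zero, add_zero]
  have hyv' : y v' = v := by
    rw [hy, LinearMap.add_apply, Module.End.mul_apply, Module.End.mul_apply, hfv', map_zero,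
      map_zero, zero_add, Module.End.mul_apply, Module.End.mul_apply, hgv', hxv', hfv]
  have hye : y * e = y := by
    rw [hy, add_mul, mul_assoc, hfe, mul_assoc (f * x') g e, hge]
  obtain ⟨s, hsq⟩ := exists_sq_eq_smul hq hyB (by rw [← hye]; exact hkill y)
  have h1 : (y * y) v = (s • y) v := by rw [hsq]
  rw [Module.End.mul_apply, hyv, hyv', LinearMap.smul_apply, hyv] at h1
  -- v = s • v'; apply f
  have h2 : f v = f (s • v') := by rw [← h1]
  rw [hfv, map_smul, hfv', smul_zero] at h2
  exact hv₀ h2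

/-- The range of an idempotent `e ∈ B`, `e ≠ 0`, killing a nonzero vector, is a line. -/
theorem finrank_range_idempotent (hs : ActsSimply B) (hq : IsQuadratic B)
    {e : Module.End k W} (he : e ∈ B) (hee : e * e = e) (he0 : e ≠ 0)
    (hker : ∃ w, w ≠ 0 ∧ e w = 0) : Module.finrank k (LinearMap.range e) = 1 := by
  obtain ⟨v₀, hv₀⟩ : ∃ v₀, e v₀ ≠ 0 := by
    by_contra hc
    push Not at hc
    exact he0 (LinearMap.ext fun w => by rw [hc w, LinearMap.zero_apply])
  have hev : e (e v₀) = e v₀ := by rw [← Module.End.mul_apply, hee]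
  rw [finrank_eq_one_iff']
  refine ⟨⟨e v₀, LinearMap.mem_range_self e v₀⟩, fun h0 => hv₀ (congrArg Subtype.val h0), ?_⟩
  rintro ⟨w, w₀, rfl⟩
  obtain ⟨x, hx, hxw⟩ := hs (e v₀) hv₀ (e w₀)
  obtain ⟨c, hc⟩ := exists_smul_of_idempotent hs hq he hee hker hx
  refine ⟨c, Subtype.ext ?_⟩
  have h1 : (e * x * e) v₀ = (c • e) v₀ := by rw [hc]
  rw [Module.End.mul_apply, Module.End.mul_apply, hxw, ← Module.End.mul_apply, hee,
    LinearMap.smul_apply] at h1
  simp only [SetLike.val_smul]
  exact h1.symm

/-- **Quadratic algebra lemma.**  If `B` acts irreducibly on the finite-dimensional space `W`, every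
element of `B` is quadratic over `k`, and some nonzero element of `B` is not injective, then
`dim W = 2`. -/
theorem finrank_eq_two [FiniteDimensional k W] (hs : ActsSimply B) (hq : IsQuadratic B)
    {u : Module.End k W} (hu : u ∈ B) (hu0 : u ≠ 0) (hker : ∃ w, w ≠ 0 ∧ u w = 0) :
    Module.finrank k W = 2 := by
  -- a nontrivial idempotent
  obtain ⟨e, heB, hee, he0, w₁, hw₁, hew₁⟩ : ∃ e ∈ B, e * e = e ∧ e ≠ 0 ∧ ∃ w, w ≠ 0 ∧ e w = 0 := by
    obtain ⟨s, hsq⟩ := exists_sq_eq_smul hq hu hker
    by_cases hs0 : s = 0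
    · rw [hs0, zero_smul] at hsq
      obtain ⟨x, hx, hidem, w, hw, hfix⟩ := exists_idempotent_of_sq_zero hs hq hu hu0 hsq
      refine ⟨u * x, B.mul_mem hu hx, hidem, ?_, ?_⟩
      · intro h0
        rw [h0, LinearMap.zero_apply] at hfix
        exact hw hfix.symm
      · -- u * (u x) = 0, and u ≠ 0: some vector in the range of `1 - u x` is nonzero and killed
        by_contra hc
        push Not at hc
        -- then `u x` is injective; but (u x)(w - (u x) w) = 0 for all w, so u x = 1, so u = u u x = 0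
        have h1 : ∀ w, (u * x) w = w := by
          intro w
          by_contra hne
          have h2 : (u * x) (w - (u * x) w) = 0 := by
            rw [map_sub, ← Module.End.mul_apply (u * x) (u * x), hidem, sub_self]
          exact hc (w - (u * x) w) (sub_ne_zero.mpr (Ne.symm hne)) h2
        apply hu0
        ext w
        have h3 : u w = u ((u * x) w) := by rw [h1 w]
        rw [h3, Module.End.mul_apply, ← Module.End.mul_apply u u, hsq, LinearMap.zero_apply,
          LinearMap.zero_apply]
    · obtain ⟨w, hw, huw⟩ := hker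
      refine ⟨s⁻¹ • u, B.smul_mem hu _, idempotent_of_sq_eq_smul hs0 hsq, ?_, w, hw, ?_⟩
      · intro h0
        exact hu0 ((smul_eq_zero.mp h0).resolve_left (inv_ne_zero hs0))
      · rw [LinearMap.smul_apply, huw, smul_zero]
  -- the complementary idempotent
  have h1e : (1 - e) * (1 - e) = 1 - e := by
    rw [mul_sub, sub_mul, sub_mul, one_mul, mul_one, one_mul, hee, sub_self, sub_zero]
  have h1eB : (1 - e) ∈ B := B.sub_mem B.one_mem heB
  have h1e0 : (1 - e) ≠ 0 := by
    intro h0
    have : (1 - e) w₁ = 0 := by rw [h0, LinearMap.zero_apply]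
    rw [LinearMap.sub_apply, Module.End.one_apply, hew₁, sub_zero] at this
    exact hw₁ this
  obtain ⟨v₀, hv₀⟩ : ∃ v₀, e v₀ ≠ 0 := by
    by_contra hc
    push Not at hc
    exact he0 (LinearMap.ext fun w => by rw [hc w, LinearMap.zero_apply])
  have h1eker : ∃ w, w ≠ 0 ∧ (1 - e) w = 0 :=
    ⟨e v₀, hv₀, by
      rw [LinearMap.sub_apply, Module.End.one_apply, ← Module.End.mul_apply, hee, sub_self]⟩
  have hr1 := finrank_range_idempotent hs hq heB hee he0 ⟨w₁, hw₁, hew₁⟩
  have hr2 := finrank_range_idempotent hs hq h1eB h1e h1e0 h1eker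
  have hker_eq : LinearMap.ker e = LinearMap.range (1 - e) := by
    ext w
    constructor
    · intro hw
      rw [LinearMap.mem_ker] at hw
      exact ⟨w, by rw [LinearMap.sub_apply, Module.End.one_apply, hw, sub_zero]⟩
    · rintro ⟨w', rfl⟩
      rw [LinearMap.mem_ker, LinearMap.sub_apply, Module.End.one_apply, map_sub,
        ← Module.End.mul_apply, hee, sub_self]
  have := LinearMap.finrank_range_add_finrank_ker e
  rw [hker_eq, hr1, hr2] at this
  exact this.symm

end Fermat.Agent.S30.QuadAlg
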