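/-
Package A2 of the S30/S29 route (helper7614).
If a group `G` acts on `W` by `ρ` and every `ρ σ` satisfies `ρ σ ^ 2 - c σ • ρ σ + ε σ = 0` with
`ε : G →* k` multiplicative, then EVERY element of the `k`-span of `ρ G` satisfies a monic quadratic
equation with scalar coefficients (so the quadratic algebra lemma of `QuadAlg.lean` applies).
Characteristic free (no division by 2).
-/
import Fermat.Agent.S30.QuadAlg
import Mathlib.LinearAlgebra.Finsupp.LinearCombination
import Mathlib.Algebra.Algebra.Subalgebra.Lattice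

set_option autoImplicit false

namespace Fermat.Agent.S30.QuadAlg

variable {k : Type*} [Field k] {W : Type*} [AddCommGroup W] [Module k W]
variable {G : Type*} [Group G] (ρ : G →* Module.End k W) (ε : G →* k) (c : G → k)

/-- The scalar endomorphisms, as a submodule. -/
def scalarSubmodule (k : Type*) [Field k] (W : Type*) [AddCommGroup W] [Module k W] :
    Submodule k (Module.End k W) :=
  LinearMap.range (Algebra.linearMap k (Module.End k W))

theorem smul_one_mem_scalarSubmodule (a : k) :
    a • (1 : Module.End k W) ∈ scalarSubmodule k W :=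
  ⟨a, by rw [Algebra.linearMap_apply, Algebra.algebraMap_eq_smul_one]⟩

theorem mem_scalarSubmodule_iff {x : Module.End k W} :
    x ∈ scalarSubmodule k W ↔ ∃ a : k, x = a • (1 : Module.End k W) := by
  constructor
  · rintro ⟨a, rfl⟩
    exact ⟨a, by rw [Algebra.linearMap_apply, Algebra.algebraMap_eq_smul_one]⟩
  · rintro ⟨a, rfl⟩
    exact smul_one_mem_scalarSubmodule a

/-- `l ↦ ∑ l(g) ρ(g)`. -/
noncomputable def spanMap : (G →₀ k) →ₗ[k] Module.End k W :=
  Finsupp.linearCombination k (fun g => ρ g)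

/-- `l ↦ ∑ l(g) ε(g) ρ(g⁻¹)`: the formal "adjoint". -/
noncomputable def adjMap : (G →₀ k) →ₗ[k] Module.End k W :=
  Finsupp.linearCombination k (fun g => ε g • ρ g⁻¹)

@[simp] theorem spanMap_single (g : G) (a : k) :
    spanMap ρ (Finsupp.single g a) = a • ρ g := by
  rw [spanMap, Finsupp.linearCombination_single]

@[simp] theorem adjMap_single (g : G) (a : k) :
    adjMap ρ ε (Finsupp.single g a) = a • (ε g • ρ g⁻¹) := by
  rw [adjMap, Finsupp.linearCombination_single]

variable {ρ ε c}

/-- `ρ g + ε(g) ρ(g⁻¹) = c(g)`. -/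
theorem add_adj_eq (h : ∀ σ : G, ρ σ * ρ σ - c σ • ρ σ + ε σ • (1 : Module.End k W) = 0) (g : G) :
    ρ g + ε g • ρ g⁻¹ = c g • (1 : Module.End k W) := by
  have h1 : ρ g * ρ g⁻¹ = 1 := by rw [← map_mul, mul_inv_cancel, map_one]
  have h2 : (ρ g * ρ g - c g • ρ g + ε g • (1 : Module.End k W)) * ρ g⁻¹ = 0 := by
    rw [h g, zero_mul]
  rw [add_mul, sub_mul, mul_assoc, h1, mul_one, smul_mul_assoc, h1, smul_mul_assoc, one_mul] at h2
  rw [← sub_eq_zero, ← h2]
  abel

theorem spanMap_add_adjMap_mem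
    (h : ∀ σ : G, ρ σ * ρ σ - c σ • ρ σ + ε σ • (1 : Module.End k W) = 0) (l : G →₀ k) :
    spanMap ρ l + adjMap ρ ε l ∈ scalarSubmodule k W := by
  induction l using Finsupp.induction_linear with
  | zero => rw [map_zero, map_zero, add_zero]; exact Submodule.zero_mem _
  | add l₁ l₂ h₁ h₂ =>
    rw [map_add, map_add, add_add_add_comm]
    exact Submodule.add_mem _ h₁ h₂
  | single g a =>
    rw [spanMap_single, adjMap_single, ← smul_add, add_adj_eq h g, smul_smul]
    exact smul_one_mem_scalarSubmodule _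

theorem cross_single_single
    (h : ∀ σ : G, ρ σ * ρ σ - c σ • ρ σ + ε σ • (1 : Module.End k W) = 0) (g g' : G) (a b : k) :
    spanMap ρ (Finsupp.single g a) * adjMap ρ ε (Finsupp.single g' b)
      + spanMap ρ (Finsupp.single g' b) * adjMap ρ ε (Finsupp.single g a)
        ∈ scalarSubmodule k W := by
  have key : ρ g * ρ g'⁻¹ + ε (g * g'⁻¹) • ρ g' * ρ g⁻¹ = c (g * g'⁻¹) • (1 : Module.End k W) := by
    have := add_adj_eq h (g * g'⁻¹)
    rw [mul_inv_rev, inv_inv, map_mul, map_mul ρ g'] at this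
    rw [smul_mul_assoc]
    exact this
  have hε : ε g = ε g' * ε (g * g'⁻¹) := by
    rw [mul_comm, ← map_mul, inv_mul_cancel_right]
  have e1 : (a • ρ g) * (b • (ε g' • ρ g'⁻¹)) = (a * b * ε g') • (ρ g * ρ g'⁻¹) := by
    rw [smul_mul_smul_comm, mul_smul_comm, smul_smul]
  have e2 : (b • ρ g') * (a • (ε g • ρ g⁻¹))
      = (a * b * ε g') • (ε (g * g'⁻¹) • ρ g' * ρ g⁻¹) := by
    rw [smul_mul_smul_comm, mul_smul_comm, smul_smul, hε, smul_mul_assoc, smul_smul]
    congr 1
    ring
  have e : spanMap ρ (Finsupp.single g a) * adjMap ρ ε (Finsupp.single g' b)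
      + spanMap ρ (Finsupp.single g' b) * adjMap ρ ε (Finsupp.single g a)
      = (a * b * ε g' * c (g * g'⁻¹)) • (1 : Module.End k W) := by
    rw [spanMap_single, adjMap_single, spanMap_single, adjMap_single, e1, e2, ← smul_add, key,
      smul_smul]
  rw [e]
  exact smul_one_mem_scalarSubmodule _

theorem cross_mem
    (h : ∀ σ : G, ρ σ * ρ σ - c σ • ρ σ + ε σ • (1 : Module.End k W) = 0) (l₁ l₂ : G →₀ k) :
    spanMap ρ l₁ * adjMap ρ ε l₂ + spanMap ρ l₂ * adjMap ρ ε l₁ ∈ scalarSubmodule k W := by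
  induction l₁ using Finsupp.induction_linear with
  | zero =>
    rw [map_zero, map_zero, zero_mul, mul_zero, add_zero]; exact Submodule.zero_mem _
  | add m₁ m₂ h₁ h₂ =>
    rw [map_add, map_add, add_mul, mul_add, add_add_add_comm]
    exact Submodule.add_mem _ h₁ h₂
  | single g a =>
    induction l₂ using Finsupp.induction_linear with
    | zero =>
      rw [map_zero, map_zero, zero_mul, mul_zero, add_zero]; exact Submodule.zero_mem _
    | add m₁ m₂ h₁ h₂ =>
      rw [map_add, map_add, add_mul, mul_add, add_add_add_comm]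
      exact Submodule.add_mem _ h₁ h₂
    | single g' b => exact cross_single_single h g g' a b

theorem spanMap_mul_adjMap_mem
    (h : ∀ σ : G, ρ σ * ρ σ - c σ • ρ σ + ε σ • (1 : Module.End k W) = 0) (l : G →₀ k) :
    spanMap ρ l * adjMap ρ ε l ∈ scalarSubmodule k W := by
  induction l using Finsupp.induction_linear with
  | zero => rw [map_zero, zero_mul]; exact Submodule.zero_mem _
  | add l₁ l₂ h₁ h₂ =>
    have e : spanMap ρ (l₁ + l₂) * adjMap ρ ε (l₁ + l₂)
        = spanMap ρ l₁ * adjMap ρ ε l₁ + spanMap ρ l₂ * adjMap ρ ε l₂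
          + (spanMap ρ l₁ * adjMap ρ ε l₂ + spanMap ρ l₂ * adjMap ρ ε l₁) := by
      rw [map_add, map_add, add_mul, mul_add, mul_add]
      abel
    rw [e]
    exact Submodule.add_mem _ (Submodule.add_mem _ h₁ h₂) (cross_mem h l₁ l₂)
  | single g a =>
    have h1 : ρ g * ρ g⁻¹ = 1 := by rw [← map_mul, mul_inv_cancel, map_one]
    have e : spanMap ρ (Finsupp.single g a) * adjMap ρ ε (Finsupp.single g a)
        = (a * a * ε g) • (1 : Module.End k W) := by
      rw [spanMap_single, adjMap_single, smul_mul_smul_comm, mul_smul_comm, h1, smul_smul]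
    rw [e]
    exact smul_one_mem_scalarSubmodule _

/-- Every element of the span of `ρ G` is quadratic over `k`. -/
theorem sq_eq_of_mem_span
    (h : ∀ σ : G, ρ σ * ρ σ - c σ • ρ σ + ε σ • (1 : Module.End k W) = 0)
    {x : Module.End k W} (hx : x ∈ Submodule.span k (Set.range ρ)) :
    ∃ s n : k, x * x = s • x - n • (1 : Module.End k W) := by
  obtain ⟨l, rfl⟩ := (Finsupp.mem_span_range_iff_exists_finsupp).mp hx
  have hx' : (l.sum fun i a => a • ρ i) = spanMap ρ l := by
    rw [spanMap, Finsupp.linearCombination_apply]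
  rw [hx']
  obtain ⟨s, hs⟩ := mem_scalarSubmodule_iff.mp (spanMap_add_adjMap_mem h l)
  obtain ⟨n, hn⟩ := mem_scalarSubmodule_iff.mp (spanMap_mul_adjMap_mem h l)
  refine ⟨s, n, ?_⟩
  have hy : adjMap ρ ε l = s • (1 : Module.End k W) - spanMap ρ l := by
    rw [← hs]; abel
  rw [hy, mul_sub, mul_smul_comm, mul_one] at hn
  rw [← hn]
  abel

/-- The algebra generated by `ρ G` is the span of `ρ G`. -/
theorem adjoin_range_eq_span :
    (Algebra.adjoin k (Set.range ρ) : Subalgebra k (Module.End k W)).toSubmodule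
      = Submodule.span k (Set.range ρ) := by
  rw [Algebra.adjoin_eq_span]
  congr 1
  have : (Submonoid.closure (Set.range ρ) : Set (Module.End k W)) = Set.range ρ := by
    have h2 : (MonoidHom.mrange ρ : Set (Module.End k W)) = Set.range ρ := MonoidHom.coe_mrange ρ
    rw [← h2, Submonoid.closure_eq]
  exact this

/-- **A2.** The algebra generated by `ρ G` is a quadratic algebra. -/
theorem isQuadratic_adjoin
    (h : ∀ σ : G, ρ σ * ρ σ - c σ • ρ σ + ε σ • (1 : Module.End k W) = 0) :
    IsQuadratic (Algebra.adjoin k (Set.range ρ)) := by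
  intro x hx
  have hx' : x ∈ (Algebra.adjoin k (Set.range ρ) : Subalgebra k (Module.End k W)).toSubmodule := hx
  rw [adjoin_range_eq_span] at hx'
  exact sq_eq_of_mem_span h hx'

end Fermat.Agent.S30.QuadAlg
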