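/-
Package QF of the S29 route (helper7614): residual extraction in ANY positive characteristic
(in particular p = 2, where the complex-conjugation idempotents (1 ± c)/2 do not exist) and over ANY
field of characteristic p (no root hypothesis on the quadratics, no algebraic closure).

If `ρ : G →* End_K V` is irreducible with finite image, `char K = p > 0`, and every `ρ g` satisfies
`ρ g ^ 2 = t g • ρ g - d g • 1` with `d` multiplicative, then `dim_K V ≤ 2`.

Proof: the span `B` of `ρ G` is a quadratic algebra (`QuadGroup.lean`).  If `B` has a nonzero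
non-injective element, `dim V = 2` by the quadratic algebra lemma (`QuadAlg.lean`).  Otherwise the
subring generated by `ρ G` is a finite domain, hence a field (little Wedderburn) with cyclic unit
group generated by some `γ`; `γ` is quadratic over `K`, so `ρ G ⊆ K + K γ` and `V = K v + K γ v`.
(The statement is false in characteristic 0: the quaternion group acting on the Hamilton
quaternions over the reals.)
-/
import Fermat.Agent.S30.QuadGroup
import Mathlib.RingTheory.LittleWedderburn
import Mathlib.RingTheory.IntegralDomain
import Mathlib.GroupTheory.FiniteAbelian.Basic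
import Mathlib.Algebra.CharP.Algebra

set_option autoImplicit false

namespace Fermat.Agent.S30.QuadAlg

variable {K : Type*} [Field K] {V : Type*} [AddCommGroup V] [Module K V]
variable {G : Type*} [Group G]

/-- Irreducibility in submodule form gives the transitive form for the generated algebra. -/
theorem actsSimply_adjoin (ρ : G →* Module.End K V)
    (hirr : ∀ U : Submodule K V, (∀ g, ∀ u ∈ U, ρ g u ∈ U) → U = ⊥ ∨ U = ⊤) :
    ActsSimply (Algebra.adjoin K (Set.range ρ)) := by
  intro w hw w'
  set B := Algebra.adjoin K (Set.range ρ) with hB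
  -- the submodule `B w`
  let U : Submodule K V :=
    { carrier := {u | ∃ x ∈ B, x w = u}
      add_mem' := by
        rintro _ _ ⟨x, hx, rfl⟩ ⟨y, hy, rfl⟩
        exact ⟨x + y, B.add_mem hx hy, LinearMap.add_apply x y w⟩
      zero_mem' := ⟨0, B.zero_mem, LinearMap.zero_apply w⟩
      smul_mem' := by
        rintro a _ ⟨x, hx, rfl⟩
        exact ⟨a • x, B.smul_mem hx a, LinearMap.smul_apply a x w⟩ }
  have hU : U = ⊥ ∨ U = ⊤ := by
    refine hirr U ?_
    rintro g _ ⟨x, hx, rfl⟩
    exact ⟨ρ g * x, B.mul_mem (Algebra.subset_adjoin ⟨g, rfl⟩) hx, rfl⟩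
  have hwU : w ∈ U := ⟨1, B.one_mem, rfl⟩
  rcases hU with h | h
  · rw [h, Submodule.mem_bot] at hwU
    exact absurd hwU hw
  · have : w' ∈ U := by rw [h]; exact Submodule.mem_top
    exact this

/-- **QF.** Irreducible, finite image, positive characteristic, quadratic relation: `dim ≤ 2`. -/
theorem finrank_le_two_of_finite_range (p : ℕ) [Fact p.Prime] [CharP K p]
    [FiniteDimensional K V] [Nontrivial V]
    (ρ : G →* Module.End K V) (d : G →* K) (t : G → K)
    (hQ : ∀ g, ρ g * ρ g = t g • ρ g - d g • (1 : Module.End K V))
    (hirr : ∀ U : Submodule K V, (∀ g, ∀ u ∈ U, ρ g u ∈ U) → U = ⊥ ∨ U = ⊤)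
    (hfin : (Set.range ρ).Finite) : Module.finrank K V ≤ 2 := by
  classical
  set B := Algebra.adjoin K (Set.range ρ) with hB
  have hQ' : ∀ σ : G, ρ σ * ρ σ - t σ • ρ σ + d σ • (1 : Module.End K V) = 0 := by
    intro σ
    rw [hQ σ]
    abel
  have hquad : IsQuadratic B := isQuadratic_adjoin hQ'
  have hsimple : ActsSimply B := actsSimply_adjoin ρ hirr
  by_cases hA : ∃ u ∈ B, u ≠ 0 ∧ ∃ w, w ≠ 0 ∧ u w = 0
  · obtain ⟨u, hu, hu0, hker⟩ := hA
    exact (finrank_eq_two hsimple hquad hu hu0 hker).le
  · push Not at hA
    -- every nonzero element of `B` is injective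
    have hinj : ∀ u ∈ B, u ≠ 0 → ∀ w, w ≠ 0 → u w ≠ 0 := hA
    -- the subring generated by the image
    set F := Subring.closure (Set.range (ρ : G → Module.End K V)) with hF
    have hFB : ∀ x ∈ F, x ∈ B := by
      intro x hx
      have hle : F ≤ B.toSubring := Subring.closure_le.mpr (fun y hy => Algebra.subset_adjoin hy)
      exact hle hx
    -- finiteness of `F`
    have hmon : (Submonoid.closure (Set.range (ρ : G → Module.End K V)) : Set (Module.End K V))
        = Set.range ρ := by
      have h2 : (MonoidHom.mrange ρ : Set (Module.End K V)) = Set.range ρ := MonoidHom.coe_mrange ρ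
      rw [← h2, Submonoid.closure_eq]
    set A := AddSubgroup.closure (Set.range (ρ : G → Module.End K V)) with hAdef
    have hFA : ∀ x, x ∈ F → x ∈ A := by
      intro x hx
      have := Subring.mem_closure_iff.mp hx
      rwa [hmon] at this
    have hAfg : AddGroup.FG A := by
      rw [AddGroup.fg_iff_addSubgroup_fg]
      exact ⟨hfin.toFinset, by rw [Set.Finite.coe_toFinset]⟩
    have hAtors : IsAddTorsion A := by
      intro x
      rw [isOfFinAddOrder_iff_nsmul_eq_zero]
      refine ⟨p, (Fact.out : p.Prime).pos, Subtype.ext ?_⟩
      have h1 : (p : K) = 0 := CharP.cast_eq_zero K p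
      have h2 : p • (x : Module.End K V) = (p : K) • (x : Module.End K V) := by
        rw [Nat.cast_smul_eq_nsmul]
      rw [AddSubgroup.coe_nsmul, h2, h1, zero_smul]
      rfl
    have hAfin : Finite A := AddCommGroup.finite_of_fg_isAddTorsion A hAtors
    have hFfin : Finite F := by
      have hs : (F : Set (Module.End K V)).Finite :=
        Set.Finite.subset (Set.finite_coe_iff.mp hAfin) (fun x hx => hFA x hx)
      exact Set.finite_coe_iff.mpr hs
    -- `F` is a domain
    have hnzd : NoZeroDivisors F := by
      refine ⟨fun {x y} hxy => ?_⟩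
      by_contra hcon
      push Not at hcon
      obtain ⟨hx, hy⟩ := hcon
      have hx' : (x : Module.End K V) ≠ 0 := fun h => hx (Subtype.ext h)
      apply hy
      apply Subtype.ext
      ext w
      by_contra hw
      have h1 : (x : Module.End K V) ((y : Module.End K V) w) = 0 := by
        have := congrArg (fun z : F => (z : Module.End K V) w) hxy
        simpa using this
      exact hinj _ (hFB _ x.2) hx' _ hw h1
    have hnt : Nontrivial F := by
      refine ⟨⟨0, 1, fun h => ?_⟩⟩
      have h1 : (0 : Module.End K V) = 1 := congrArg Subtype.val h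
      obtain ⟨v, hv⟩ := exists_ne (0 : V)
      have h2 : (0 : Module.End K V) v = (1 : Module.End K V) v := by rw [h1]
      rw [LinearMap.zero_apply, Module.End.one_apply] at h2
      exact hv h2.symm
    have hdom : IsDomain F := NoZeroDivisors.to_isDomain F
    have hfield : IsField F := Finite.isDomain_to_isField F
    let _ : CommRing F := { (inferInstance : Ring F) with mul_comm := hfield.mul_comm }
    have : IsDomain F := hdom
    obtain ⟨γ, hγ⟩ := IsCyclic.exists_monoid_generator (α := Fˣ)
    set c : Module.End K V := ((γ : F) : Module.End K V) with hc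
    have hcB : c ∈ B := hFB _ (γ : F).2
    obtain ⟨s, m, hcc⟩ := hquad c hcB
    -- the plane `K + K c`
    set P : Submodule K (Module.End K V) := Submodule.span K {1, c} with hP
    have h1P : (1 : Module.End K V) ∈ P := Submodule.subset_span (by simp)
    have hcP : c ∈ P := Submodule.subset_span (by simp)
    have hmulP : ∀ y ∈ P, y * c ∈ P := by
      intro y hy
      induction hy using Submodule.span_induction with
      | mem x hx =>
        rcases hx with rfl | rfl
        · rw [one_mul]; exact hcP
        · rw [hcc]
          exact Submodule.sub_mem _ (Submodule.smul_mem _ _ hcP) (Submodule.smul_mem _ _ h1P)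
      | zero => rw [zero_mul]; exact Submodule.zero_mem _
      | add x y _ _ hx hy => rw [add_mul]; exact Submodule.add_mem _ hx hy
      | smul a x _ hx => rw [smul_mul_assoc]; exact Submodule.smul_mem _ _ hx
    have hpowP : ∀ n : ℕ, c ^ n ∈ P := by
      intro n
      induction n with
      | zero => rw [pow_zero]; exact h1P
      | succ n ih => rw [pow_succ]; exact hmulP _ ih
    have hρP : ∀ g, ρ g ∈ P := by
      intro g
      -- the unit of `F` attached to `g`
      have hg : ρ g ∈ F := Subring.subset_closure ⟨g, rfl⟩
      have hg' : ρ g⁻¹ ∈ F := Subring.subset_closure ⟨g⁻¹, rfl⟩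
      let u : Fˣ :=
        { val := ⟨ρ g, hg⟩
          inv := ⟨ρ g⁻¹, hg'⟩
          val_inv := Subtype.ext (by
            show ρ g * ρ g⁻¹ = 1
            rw [← map_mul, mul_inv_cancel, map_one])
          inv_val := Subtype.ext (by
            show ρ g⁻¹ * ρ g = 1
            rw [← map_mul, inv_mul_cancel, map_one]) }
      obtain ⟨n, hn⟩ := hγ u
      have h1 : ((γ ^ n : Fˣ) : F) = (u : F) := by
        have h0 : γ ^ n = u := hn
        rw [h0]
      have h2 : c ^ n = ρ g := by
        have h3 := congrArg (fun z : F => (z : Module.End K V)) h1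
        simpa [hc] using h3
      rw [← h2]
      exact hpowP n
    have hBP : ∀ x ∈ B, x ∈ P := by
      intro x hx
      have hx' : x ∈ (Algebra.adjoin K (Set.range ρ) : Subalgebra K (Module.End K V)).toSubmodule :=
        hx
      rw [adjoin_range_eq_span] at hx'
      exact (Submodule.span_le.mpr (by rintro _ ⟨g, rfl⟩; exact hρP g)) hx'
    -- conclusion
    obtain ⟨v, hv⟩ := exists_ne (0 : V)
    set U : Submodule K V := Submodule.span K {v, c v} with hU
    have hPU : ∀ y ∈ P, y v ∈ U := by
      intro y hy
      induction hy using Submodule.span_induction with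
      | mem x hx =>
        rcases hx with rfl | rfl
        · rw [Module.End.one_apply]; exact Submodule.subset_span (by simp)
        · exact Submodule.subset_span (by simp)
      | zero => rw [LinearMap.zero_apply]; exact Submodule.zero_mem _
      | add x y _ _ hx hy => rw [LinearMap.add_apply]; exact Submodule.add_mem _ hx hy
      | smul a x _ hx => rw [LinearMap.smul_apply]; exact Submodule.smul_mem _ _ hx
    have hUtop : U = ⊤ := by
      rw [eq_top_iff]
      intro w' _
      obtain ⟨x, hx, hxw⟩ := hsimple v hv w'
      rw [← hxw]
      exact hPU x (hBP x hx)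
    have hfr : Module.finrank K U ≤ 2 := by
      have h1 : ({v, c v} : Set V) = (({v, c v} : Finset V) : Set V) := by simp
      rw [hU, h1]
      exact (finrank_span_finset_le_card _).trans Finset.card_le_two
    have : Module.finrank K V = Module.finrank K U := by
      rw [hUtop, finrank_top]
    omega

end Fermat.Agent.S30.QuadAlg
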