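import Fermat.Agent.S30.OddQuadratic

/-!
# The odd quadratic lemma in the exact form of the leaf `exists_adic_of_quadratic`
(leaf QA-ADIC of the GALREP skeleton `Fermat/Agent/GalRep/Skeleton5140.lean` on origin/helper5140;
the statement below is verbatim that leaf).
-/

set_option autoImplicit false

namespace Fermat.Agent.S30.OddQ

open Polynomial

theorem exists_adic_of_quadratic (𝒪 : Type) [CommRing 𝒪] [IsDomain 𝒪] [IsDiscreteValuationRing 𝒪]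
    [CharZero 𝒪] {G : Type} [Group G]
    (Λ : Type) [AddCommGroup Λ] [Module 𝒪 Λ] [Module.Free 𝒪 Λ] [Module.Finite 𝒪 Λ] [Nontrivial Λ]
    (ρ : G →* Module.End 𝒪 Λ) (τ : G → 𝒪) (d : G →* 𝒪ˣ)
    (hquad : ∀ (g : G) (v : Λ), ρ g (ρ g v) - τ g • ρ g v + (d g : 𝒪) • v = 0)
    (c : G) (hc : c * c = 1) (hdc : (d c : 𝒪) = -1) :
    ∃ (V : Type) (_ : AddCommGroup V) (_ : Module 𝒪 V) (_ : Module.Free 𝒪 V)
      (_ : Module.Finite 𝒪 V) (ρ' : G →* Module.End 𝒪 V),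
      Module.finrank 𝒪 V = 2 ∧
      (∀ g : G, LinearMap.charpoly (ρ' g) = X ^ 2 - C (τ g) * X + C ((d g : 𝒪))) ∧
      (∀ (n : ℕ) (g : G),
        (∀ v : Λ, ρ g v - v ∈ (IsLocalRing.maximalIdeal 𝒪 ^ n) • (⊤ : Submodule 𝒪 Λ)) →
        ((d g : 𝒪) - 1 ∈ IsLocalRing.maximalIdeal 𝒪 ^ n) →
        ∀ v : V, ρ' g v - v ∈ (IsLocalRing.maximalIdeal 𝒪 ^ n) • (⊤ : Submodule 𝒪 V)) ∧
      (∀ g : G, ρ g = 1 → d g = 1 → ρ' g = 1) := by
  have H : IsOddQuad ρ d τ c := by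
    refine ⟨fun g x => ?_, fun x => ?_, hdc⟩
    · linear_combination (norm := module) hquad g x
    · rw [← rho_mul_apply, hc, map_one]; rfl
  obtain ⟨V, i1, i2, i3, i4, ρ', hrk, hchar, htrans⟩ := oddQuadratic H two_ne_zero
  refine ⟨V, i1, i2, i3, i4, ρ', hrk, hchar, ?_, ?_⟩
  · intro n g hρ hd v
    obtain ⟨ϖ, hϖ⟩ := IsDiscreteValuationRing.exists_irreducible 𝒪
    have hm : IsLocalRing.maximalIdeal 𝒪 ^ n = Ideal.span {ϖ ^ n} := by
      rw [hϖ.maximalIdeal_eq, Ideal.span_singleton_pow]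
    have h1 : ∀ x : Λ, ∃ y : Λ, ρ g x - x = ϖ ^ n • y := by
      intro x
      have h := hρ x
      rw [hm, Submodule.ideal_span_singleton_smul,
        Submodule.mem_smul_pointwise_iff_exists] at h
      obtain ⟨y, -, hy⟩ := h
      exact ⟨y, hy.symm⟩
    have h2 : ϖ ^ n ∣ ((d g : 𝒪ˣ) : 𝒪) - 1 := by
      rwa [hm, Ideal.mem_span_singleton] at hd
    obtain ⟨y, hy⟩ := htrans g (ϖ ^ n) h1 h2 v
    rw [hy, hm]
    exact Submodule.smul_mem_smul (Ideal.mem_span_singleton_self _) Submodule.mem_top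
  · intro g hg hdg
    have h1 : ∀ x : Λ, ∃ y : Λ, ρ g x - x = (0 : 𝒪) • y := by
      intro x
      refine ⟨0, ?_⟩
      rw [hg]
      simp
    have h2 : (0 : 𝒪) ∣ ((d g : 𝒪ˣ) : 𝒪) - 1 := by
      rw [hdg]
      simp
    ext x
    obtain ⟨y, hy⟩ := htrans g 0 h1 h2 x
    rw [zero_smul, sub_eq_zero] at hy
    rw [hy]
    rfl

end Fermat.Agent.S30.OddQ
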