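import Mathlib
import Fermat.Prelude.Def_GaloisRep_Adic
import Fermat.Prelude.Def_GaloisRep_ComplexConjugation
import Fermat.Prelude.Def_EllipticCurve_FrobeniusTrace

/-!
# GALREP leaf CYCLO (helper1060)

The `p`-adic cyclotomic character of `Gal(ℚ̄/ℚ)` with values in the units of an arbitrary
commutative ring `R` that is `I`-adically complete for an ideal `I ∋ p`
(e.g. a complete DVR of residue characteristic `p` and `I` its maximal ideal).

Main results (all for `ε := adicCyclo p I hp`):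
* `adicCyclo_sub_natCast_mem` : if `σ μ = μ ^ a` on all `p^n`-th roots of unity then
  `ε σ - a ∈ span {p^n}` (the shape used by the Prelude's `DetIsCyclotomic`);
* `adicCyclo_isAdicContinuous` : `∀ n, ∃ L` finite over `ℚ`, `σ|L = 1 → ε σ - 1 ∈ I ^ n`;
* `adicCyclo_frobenius` : `ε σ = ℓ` for every Frobenius element `σ` at a prime `ℓ ≠ p`
  (Prelude notion `ValuationSubring.IsFrobeniusAt`);
* `adicCyclo_inertia` : `ε σ = 1` for `σ` in the inertia group of any `P` over `q ≠ p`;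
* `adicCyclo_complexConjugation` : `ε complexConjugation = -1`.
-/

set_option autoImplicit false

namespace Fermat.Agent.S30.Cyclo1060

open IsLocalRing

/-- The absolute Galois group of `ℚ` (local abbreviation). -/
abbrev GQ : Type := AlgebraicClosure ℚ ≃ₐ[ℚ] AlgebraicClosure ℚ

/-! ### A ring homomorphism `ℤ_p → R` -/

/-- Existence of a ring homomorphism `ℤ_p → R` for an `I`-adically complete ring with `p ∈ I`. -/
theorem exists_padicInt_ringHom (p : ℕ) [Fact p.Prime] {R : Type*} [CommRing R] (I : Ideal R)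
    [IsAdicComplete I R] (hp : (p : R) ∈ I) : Nonempty (ℤ_[p] →+* R) := by
  have hker : ∀ n : ℕ, ∀ a ∈ Ideal.span {((p ^ n : ℕ) : ℤ)},
      Int.castRingHom (R ⧸ I ^ n) a = 0 := by
    intro n a ha
    obtain ⟨b, rfl⟩ := Ideal.mem_span_singleton.mp ha
    have : (p : R ⧸ I ^ n) ^ n = 0 := by
      rw [← map_natCast (Ideal.Quotient.mk (I ^ n)), ← map_pow,
        Ideal.Quotient.eq_zero_iff_mem]
      exact Ideal.pow_mem_pow hp n
    simp [this]
  let g : ∀ n : ℕ, ZMod (p ^ n) →+* R ⧸ I ^ n := fun n =>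
    (Ideal.Quotient.lift _ (Int.castRingHom (R ⧸ I ^ n)) (hker n)).comp
      (Int.quotientSpanNatEquivZMod (p ^ n)).symm.toRingHom
  let f : ∀ n : ℕ, ℤ_[p] →+* R ⧸ I ^ n := fun n => (g n).comp (PadicInt.toZModPow n)
  refine ⟨IsAdicComplete.liftRingHom I f ?_⟩
  intro m n hle
  have h1 : (Ideal.Quotient.factorPow I hle).comp (g n) =
      (g m).comp (ZMod.castHom (pow_dvd_pow p hle) (ZMod (p ^ m))) :=
    RingHom.ext_zmod _ _
  rw [show f m = (g m).comp (PadicInt.toZModPow m) from rfl,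
    ← PadicInt.zmod_cast_comp_toZModPow m n hle, ← RingHom.comp_assoc, h1, RingHom.comp_assoc]

/-- A ring homomorphism `ℤ_p → R` (unique, but we do not need this). -/
noncomputable def padicIntHom (p : ℕ) [Fact p.Prime] {R : Type*} [CommRing R] (I : Ideal R)
    [IsAdicComplete I R] (hp : (p : R) ∈ I) : ℤ_[p] →+* R :=
  (exists_padicInt_ringHom p I hp).some

/-! ### The character -/

/-- The `p`-adic cyclotomic character of `Gal(ℚ̄/ℚ)` with values in `ℤ_pˣ`. -/
noncomputable def padicCyclo (p : ℕ) [Fact p.Prime] : GQ →* ℤ_[p]ˣ :=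
  (cyclotomicCharacter (AlgebraicClosure ℚ) p).comp
    (MulSemiringAction.toRingAut GQ (AlgebraicClosure ℚ))

/-- The `p`-adic cyclotomic character with values in the units of an `I`-adically complete
ring `R` with `p ∈ I`. -/
noncomputable def adicCyclo (p : ℕ) [Fact p.Prime] {R : Type*} [CommRing R] (I : Ideal R)
    [IsAdicComplete I R] (hp : (p : R) ∈ I) : GQ →* Rˣ :=
  (Units.map (padicIntHom p I hp : ℤ_[p] →* R)).comp (padicCyclo p)

theorem adicCyclo_coe (p : ℕ) [Fact p.Prime] {R : Type*} [CommRing R] (I : Ideal R)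
    [IsAdicComplete I R] (hp : (p : R) ∈ I) (σ : GQ) :
    ((adicCyclo p I hp σ : Rˣ) : R) = padicIntHom p I hp ((padicCyclo p σ : ℤ_[p]ˣ) : ℤ_[p]) :=
  rfl

/-- The characterising congruence of the `p`-adic cyclotomic character. -/
theorem padicCyclo_toZModPow (p : ℕ) [Fact p.Prime] (n : ℕ) (σ : GQ) (a : ℕ)
    (h : ∀ μ : AlgebraicClosure ℚ, μ ^ p ^ n = 1 → σ μ = μ ^ a) :
    PadicInt.toZModPow n ((padicCyclo p σ : ℤ_[p]ˣ) : ℤ_[p]) = (a : ZMod (p ^ n)) := by
  rw [padicCyclo, MonoidHom.comp_apply]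
  erw [cyclotomicCharacter.toZModPow]
  symm
  refine modularCyclotomicCharacter.unique (AlgebraicClosure ℚ) _ _ ?_
  intro t ht
  have ht' : (t : AlgebraicClosure ℚ) ^ p ^ n = 1 := by
    have := (mem_rootsOfUnity _ _).mp ht
    rw [← Units.val_pow_eq_pow_val, this, Units.val_one]
  rw [ZMod.val_natCast, ← pow_eq_pow_mod a ht']
  exact h _ ht'

/-- If `σ μ = μ ^ a` on all `p`-power roots of unity (same `a` for all levels), then the
cyclotomic character of `σ` is `a`. -/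
theorem padicCyclo_eq_natCast (p : ℕ) [Fact p.Prime] (σ : GQ) (a : ℕ)
    (h : ∀ (n : ℕ) (μ : AlgebraicClosure ℚ), μ ^ p ^ n = 1 → σ μ = μ ^ a) :
    ((padicCyclo p σ : ℤ_[p]ˣ) : ℤ_[p]) = (a : ℤ_[p]) := by
  refine PadicInt.ext_of_toZModPow.mp fun n => ?_
  rw [padicCyclo_toZModPow p n σ a (h n), map_natCast]

/-! ### Roots of unity and residue fields -/

/-- Roots of unity whose order is invertible in the residue field of a local domain are
determined by their residue classes. -/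
theorem eq_of_residue_eq {A : Type*} [CommRing A] [IsDomain A] [IsLocalRing A] {m : ℕ}
    (hm : (m : ResidueField A) ≠ 0) {x y : A} (hx : x ^ m = 1) (hy : y ^ m = 1)
    (h : residue A x = residue A y) : x = y := by
  have key : ∀ z : A, z ^ m = 1 → residue A z = 1 → z = 1 := by
    intro z hz hz1
    by_contra hne
    have hsum : ∑ i ∈ Finset.range m, z ^ i = 0 := by
      have := mul_geom_sum z m
      rw [hz, sub_self] at this
      exact (mul_eq_zero.mp this).resolve_left (sub_ne_zero.mpr hne)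
    have := congrArg (residue A) hsum
    rw [map_sum, map_zero] at this
    simp only [map_pow, hz1, one_pow, Finset.sum_const, Finset.card_range, nsmul_eq_mul,
      mul_one] at this
    exact hm this
  have hm0 : 0 < m := by
    rcases Nat.eq_zero_or_pos m with rfl | h0
    · simp at hm
    · exact h0
  have hxy : x * y ^ (m - 1) = 1 := by
    refine key _ ?_ ?_
    · rw [mul_pow, hx, one_mul, ← pow_mul, mul_comm, pow_mul, hy, one_pow]
    · rw [map_mul, map_pow, h, ← pow_succ', Nat.sub_add_cancel hm0, ← map_pow, hy, map_one]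
  calc x = x * y ^ m := by rw [hy, mul_one]
    _ = x * y ^ (m - 1) * y := by rw [mul_assoc, ← pow_succ, Nat.sub_add_cancel hm0]
    _ = y := by rw [hxy, one_mul]

/-- Roots of unity lie in every valuation subring. -/
theorem mem_of_pow_eq_one {L : Type*} [Field L] (A : ValuationSubring L) {μ : L} {m : ℕ}
    (hm : m ≠ 0) (h : μ ^ m = 1) : μ ∈ A := by
  rcases A.mem_or_inv_mem μ with h1 | h1
  · exact h1
  · have hμ0 : μ ≠ 0 := by
      rintro rfl
      rw [zero_pow hm] at h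
      exact zero_ne_one h
    have : μ = (μ⁻¹) ^ (m - 1) := by
      have h2 : μ⁻¹ * (μ⁻¹) ^ (m - 1) = 1 := by
        rw [← pow_succ', Nat.sub_add_cancel (Nat.pos_of_ne_zero hm), inv_pow, h, inv_one]
      rw [← inv_eq_of_mul_eq_one_right h2, inv_inv]
    rw [this]
    exact pow_mem h1 _

/-- If `A` lies over `ℓ` and `p ≠ ℓ` are primes, then `p ^ n` is invertible in the residue
field of `A`. -/
theorem natCast_residue_ne_zero {L : Type*} [Field L] (A : ValuationSubring L) {ℓ p : ℕ}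
    (hℓ : ℓ.Prime) (hp : p.Prime) (hne : ℓ ≠ p) (hA : A.LiesOverPrime ℓ) (n : ℕ) :
    ((p ^ n : ℕ) : ResidueField A) ≠ 0 := by
  have hℓ0 : (ℓ : ResidueField A) = 0 := by
    obtain ⟨ha, hmem⟩ := A.mem_nonunits_iff_exists_mem_maximalIdeal.mp hA
    have h1 : (⟨(ℓ : L), ha⟩ : A) = ((ℓ : ℕ) : A) := Subtype.ext (by simp)
    rw [h1] at hmem
    have := (residue_eq_zero_iff _).mpr hmem
    rwa [map_natCast] at this
  have hcop : IsCoprime (p : ℤ) (ℓ : ℤ) :=
    Nat.isCoprime_iff_coprime.mpr ((Nat.coprime_primes hp hℓ).mpr hne.symm)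
  obtain ⟨u, v, huv⟩ := hcop
  intro h0
  rw [Nat.cast_pow] at h0
  have hn0 : n ≠ 0 := by
    rintro rfl
    simp at h0
  have hp0 : (p : ResidueField A) = 0 := (pow_eq_zero_iff hn0).mp h0
  have := congrArg (Int.cast : ℤ → ResidueField A) huv
  simp [hp0, hℓ0] at this

/-- A Frobenius element at `ℓ ≠ p` raises `p`-power roots of unity to the `ℓ`-th power. -/
theorem frobenius_apply_rootOfUnity {p ℓ : ℕ} (hp : p.Prime) (hℓ : ℓ.Prime) (hne : ℓ ≠ p)
    (A : ValuationSubring (AlgebraicClosure ℚ)) (hA : A.LiesOverPrime ℓ) (σ : GQ)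
    (hσ : A.IsFrobeniusAt σ ℓ) (n : ℕ) (μ : AlgebraicClosure ℚ) (hμ : μ ^ p ^ n = 1) :
    σ μ = μ ^ ℓ := by
  obtain ⟨hdec, hfrob⟩ := hσ
  have hμA : μ ∈ A := mem_of_pow_eq_one A (pow_ne_zero n hp.ne_zero) hμ
  set m : A := ⟨μ, hμA⟩ with hm_def
  have hm : m ^ p ^ n = 1 := Subtype.ext (by simpa [hm_def] using hμ)
  set τ : A.decompositionSubgroup ℚ := ⟨σ, hdec⟩ with hτ_def
  have h1 : (τ • m) ^ p ^ n = 1 := by rw [← smul_pow', hm, smul_one]
  have h2 : (m ^ ℓ) ^ p ^ n = 1 := by rw [← pow_mul, mul_comm, pow_mul, hm, one_pow]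
  have h3 : residue A (τ • m) = residue A (m ^ ℓ) := by
    rw [ResidueField.residue_smul, map_pow]
    exact hfrob _
  have := eq_of_residue_eq (natCast_residue_ne_zero A hℓ hp hne hA n) h1 h2 h3
  exact congrArg Subtype.val this

/-- Inertia at `q ≠ p` fixes `p`-power roots of unity. -/
theorem inertia_apply_rootOfUnity {p q : ℕ} (hp : p.Prime) (hq : q.Prime) (hne : q ≠ p)
    (P : ValuationSubring (AlgebraicClosure ℚ)) (hP : P.LiesOverPrime q) (σ : GQ)
    (hσ : σ ∈ P.inertiaSubgroupIn ℚ) (n : ℕ) (μ : AlgebraicClosure ℚ) (hμ : μ ^ p ^ n = 1) :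
    σ μ = μ := by
  obtain ⟨τ, hτ, rfl⟩ := Subgroup.mem_map.mp hσ
  have hτ' : ∀ x : ResidueField P, τ • x = x := by
    intro x
    have := MonoidHom.mem_ker.mp hτ
    exact congrArg (fun f : RingAut (ResidueField P) => f x) this
  have hμP : μ ∈ P := mem_of_pow_eq_one P (pow_ne_zero n hp.ne_zero) hμ
  set m : P := ⟨μ, hμP⟩ with hm_def
  have hm : m ^ p ^ n = 1 := Subtype.ext (by simpa [hm_def] using hμ)
  have h1 : (τ • m) ^ p ^ n = 1 := by rw [← smul_pow', hm, smul_one]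
  have h3 : residue P (τ • m) = residue P m := by
    rw [ResidueField.residue_smul]
    exact hτ' _
  have := eq_of_residue_eq (natCast_residue_ne_zero P hq hp hne hP n) h1 hm h3
  exact congrArg Subtype.val this

/-- Complex conjugation inverts roots of unity. -/
theorem complexConjugation_apply_rootOfUnity {m : ℕ} (hm : m ≠ 0) (μ : AlgebraicClosure ℚ)
    (hμ : μ ^ m = 1) : complexConjugation μ = μ ^ (m - 1) := by
  apply complexEmbedding.toRingHom.injective
  change complexEmbedding (complexConjugation μ) = complexEmbedding (μ ^ (m - 1))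
  rw [complexEmbedding_complexConjugation, map_pow]
  set z := complexEmbedding μ with hz_def
  have hz : z ^ m = 1 := by rw [hz_def, ← map_pow, hμ, map_one]
  have hnorm : ‖z‖ = 1 := Complex.norm_eq_one_of_pow_eq_one hz hm
  have h1 : z * starRingEnd ℂ z = 1 := by
    rw [Complex.mul_conj, Complex.normSq_eq_norm_sq, hnorm]
    simp
  have h2 : z * z ^ (m - 1) = 1 := by
    rw [← pow_succ', Nat.sub_add_cancel (Nat.pos_of_ne_zero hm), hz]
  have hz0 : z ≠ 0 := by
    rintro h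
    rw [h] at hnorm
    simp at hnorm
  exact mul_left_cancel₀ hz0 (h1.trans h2.symm)

/-! ### Main statements -/

section Statements

variable (p : ℕ) [Fact p.Prime] {R : Type*} [CommRing R] (I : Ideal R)
  [IsAdicComplete I R] (hp : (p : R) ∈ I)

theorem adicCyclo_sub_natCast_mem (n : ℕ) (σ : GQ) (a : ℕ)
    (h : ∀ μ : AlgebraicClosure ℚ, μ ^ p ^ n = 1 → σ μ = μ ^ a) :
    ((adicCyclo p I hp σ : Rˣ) : R) - (a : R) ∈ Ideal.span {((p ^ n : ℕ) : R)} := by
  have h1 : ((padicCyclo p σ : ℤ_[p]ˣ) : ℤ_[p]) - (a : ℤ_[p]) ∈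
      Ideal.span {(p : ℤ_[p]) ^ n} := by
    rw [← PadicInt.ker_toZModPow, RingHom.mem_ker, map_sub, padicCyclo_toZModPow p n σ a h,
      map_natCast, sub_self]
  obtain ⟨y, hy⟩ := Ideal.mem_span_singleton.mp h1
  rw [adicCyclo_coe, Ideal.mem_span_singleton]
  refine ⟨padicIntHom p I hp y, ?_⟩
  have := congrArg (padicIntHom p I hp) hy
  rw [map_sub, map_natCast, map_mul, map_pow, map_natCast] at this
  rw [this, Nat.cast_pow]

theorem adicCyclo_isAdicContinuous (n : ℕ) :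
    ∃ L : IntermediateField ℚ (AlgebraicClosure ℚ), FiniteDimensional ℚ L ∧
      ∀ σ : GQ, (∀ x ∈ L, σ x = x) → ((adicCyclo p I hp σ : Rˣ) : R) - 1 ∈ I ^ n := by
  obtain ⟨ζ, hζ⟩ := HasEnoughRootsOfUnity.exists_primitiveRoot (AlgebraicClosure ℚ) (p ^ n)
  have hpn : 0 < p ^ n := pow_pos (Fact.out : p.Prime).pos n
  refine ⟨IntermediateField.adjoin ℚ {ζ}, ?_, ?_⟩
  · have : Algebra.IsAlgebraic ℚ (AlgebraicClosure ℚ) := AlgebraicClosure.isAlgebraic ℚ
    exact IntermediateField.adjoin.finiteDimensional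
      (Algebra.IsIntegral.isIntegral ζ)
  · intro σ hσ
    have hfix : ∀ μ : AlgebraicClosure ℚ, μ ^ p ^ n = 1 → σ μ = μ ^ 1 := by
      intro μ hμ
      obtain ⟨i, -, rfl⟩ := hζ.eq_pow_of_pow_eq_one hμ
      rw [pow_one, map_pow, hσ ζ (IntermediateField.mem_adjoin_simple_self ℚ ζ)]
    have h1 := adicCyclo_sub_natCast_mem p I hp n σ 1 hfix
    rw [Nat.cast_one] at h1
    obtain ⟨y, hy⟩ := Ideal.mem_span_singleton.mp h1
    rw [hy, Nat.cast_pow]
    exact Ideal.mul_mem_right _ _ (Ideal.pow_mem_pow hp n)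

theorem adicCyclo_frobenius (ℓ : ℕ) (hℓ : ℓ.Prime) (hℓp : ℓ ≠ p)
    (A : ValuationSubring (AlgebraicClosure ℚ)) (hA : A.LiesOverPrime ℓ)
    (σ : GQ) (hσ : A.IsFrobeniusAt σ ℓ) :
    ((adicCyclo p I hp σ : Rˣ) : R) = (ℓ : R) := by
  rw [adicCyclo_coe, padicCyclo_eq_natCast p σ ℓ
    (frobenius_apply_rootOfUnity (Fact.out : p.Prime) hℓ hℓp A hA σ hσ), map_natCast]

theorem adicCyclo_inertia (q : ℕ) (hq : q.Prime) (hqp : q ≠ p)
    (P : ValuationSubring (AlgebraicClosure ℚ)) (hP : P.LiesOverPrime q)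
    (σ : GQ) (hσ : σ ∈ P.inertiaSubgroupIn ℚ) :
    adicCyclo p I hp σ = 1 := by
  apply Units.ext
  rw [adicCyclo_coe, padicCyclo_eq_natCast p σ 1 (fun n μ hμ => by
    rw [pow_one]
    exact inertia_apply_rootOfUnity (Fact.out : p.Prime) hq hqp P hP σ hσ n μ hμ),
    Nat.cast_one, map_one, Units.val_one]

theorem adicCyclo_complexConjugation :
    adicCyclo p I hp complexConjugation = -1 := by
  apply Units.ext
  have hpp : p.Prime := Fact.out
  have h : ((padicCyclo p complexConjugation : ℤ_[p]ˣ) : ℤ_[p]) = -1 := by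
    refine PadicInt.ext_of_toZModPow.mp fun n => ?_
    rw [padicCyclo_toZModPow p n complexConjugation (p ^ n - 1) (fun μ hμ =>
      complexConjugation_apply_rootOfUnity (pow_ne_zero n hpp.ne_zero) μ hμ),
      Nat.cast_sub (Nat.one_le_pow _ _ hpp.pos), ZMod.natCast_self, map_neg, map_one]
    simp
  rw [adicCyclo_coe, h, map_neg, map_one, Units.val_neg, Units.val_one]

end Statements

/-- CYCLO, packaged as one existence statement in the shape of the GALREP interface. -/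
theorem exists_adicCyclotomicCharacter (p : ℕ) [Fact p.Prime] (𝒪 : Type) [CommRing 𝒪]
    [IsLocalRing 𝒪] [IsAdicComplete (maximalIdeal 𝒪) 𝒪] (hp : (p : 𝒪) ∈ maximalIdeal 𝒪) :
    ∃ ε : GQ →* 𝒪ˣ,
      (∀ n : ℕ, ∃ L : IntermediateField ℚ (AlgebraicClosure ℚ), FiniteDimensional ℚ L ∧
        ∀ σ : GQ, (∀ x ∈ L, σ x = x) → ((ε σ : 𝒪ˣ) : 𝒪) - 1 ∈ maximalIdeal 𝒪 ^ n) ∧
      (∀ (ℓ : ℕ), ℓ.Prime → ℓ ≠ p → ∀ A : ValuationSubring (AlgebraicClosure ℚ),
        A.LiesOverPrime ℓ → ∀ σ : GQ, A.IsFrobeniusAt σ ℓ → ((ε σ : 𝒪ˣ) : 𝒪) = (ℓ : 𝒪)) ∧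
      (∀ (q : ℕ), q.Prime → q ≠ p → ∀ P : ValuationSubring (AlgebraicClosure ℚ),
        P.LiesOverPrime q → ∀ σ ∈ P.inertiaSubgroupIn ℚ, ε σ = 1) ∧
      ε complexConjugation = -1 ∧
      (∀ (n : ℕ) (σ : GQ) (a : ℕ),
        (∀ μ : AlgebraicClosure ℚ, μ ^ p ^ n = 1 → σ μ = μ ^ a) →
          ((ε σ : 𝒪ˣ) : 𝒪) - (a : 𝒪) ∈ Ideal.span {((p ^ n : ℕ) : 𝒪)}) :=
  ⟨adicCyclo p _ hp, adicCyclo_isAdicContinuous p _ hp, adicCyclo_frobenius p _ hp,
    adicCyclo_inertia p _ hp, adicCyclo_complexConjugation p _ hp,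
    adicCyclo_sub_natCast_mem p _ hp⟩

end Fermat.Agent.S30.Cyclo1060
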