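import Fermat.Agent.S30.EndgameDefs
import Fermat.Prelude.Def_ModularCurve_HeckeModule

/-!
# GALREP / S30 : frozen finite-level geometric interface (BOARD of helper100, interim deputy)

Everything here is a definition (`Prop` or structure); nothing is proved and nothing is assumed.
The finite-level statements are those of helper5200 (`IfaceH5200.lean`), the top interface
`EigenLattice` is that of helper8380 (`EndgameDefs.lean`).

The six geometric leaves are
* `OpenStabilizers N`                    (HK4)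
* `GaloisHeckeCommute N p`               (HK3)
* `UnramifiedTorsion N p`                (U)
* `FrobeniusRelation N p`                (ES)
* `TorsionFinite N p`                    (FIN)
* `Nonempty (BettiKummer N p)`           (BK)

and the algebraic bridge `TATE` turns them into an `EigenLattice` (see `GeoTree.lean`).
-/

set_option autoImplicit false

open scoped TensorProduct

namespace Fermat.Agent.S30

/-- The absolute Galois group, as everywhere in the Prelude. -/
abbrev GQ : Type := AlgebraicClosure ℚ ≃ₐ[ℚ] AlgebraicClosure ℚ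

/-- (HK4) Every point of `J₀(N)(ℚ̄)` is fixed by the absolute Galois group of a number field. -/
def OpenStabilizers (N : ℕ) : Prop :=
  ∀ x : ModularCurve.JZero N, ∃ L : IntermediateField ℚ (AlgebraicClosure ℚ),
    FiniteDimensional ℚ L ∧ ∀ σ : GQ, (∀ y ∈ L, σ y = y) → σ • x = x

/-- (HK3) Galois commutes with the Prelude Hecke operators `T_ℓ`, `ℓ ∤ N p`. -/
def GaloisHeckeCommute (N p : ℕ) [NeZero N] : Prop :=
  ∀ (ℓ : Nat.Primes), ¬ (ℓ : ℕ) ∣ N * p → ∀ (σ : GQ) (x : ModularCurve.JZero N),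
    ModularCurve.heckeOperatorBar N ℓ (σ • x) = σ • ModularCurve.heckeOperatorBar N ℓ x

/-- (U) Inertia at `ℓ ∤ N p` fixes the `p`-power torsion of `J₀(N)(ℚ̄)`. -/
def UnramifiedTorsion (N p : ℕ) : Prop :=
  ∀ ℓ : ℕ, ℓ.Prime → ¬ ℓ ∣ N * p →
    ∀ A : ValuationSubring (AlgebraicClosure ℚ), A.LiesOverPrime ℓ →
      ∀ σ ∈ A.inertiaSubgroupIn ℚ, ∀ x : ModularCurve.JZero N,
        (∃ n : ℕ, p ^ n • x = 0) → σ • x = x

/-- (ES) Eichler–Shimura relation `Frob² - T_ℓ Frob + ℓ = 0` on the `p`-power torsion, for the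
Prelude operator `T_ℓ`, `ℓ ∤ N p`, and every Frobenius element at `ℓ`. -/
def FrobeniusRelation (N p : ℕ) [NeZero N] : Prop :=
  ∀ (ℓ : ℕ) (hℓ : ℓ.Prime), ¬ ℓ ∣ N * p →
    ∀ A : ValuationSubring (AlgebraicClosure ℚ), A.LiesOverPrime ℓ →
      ∀ σ : GQ, A.IsFrobeniusAt σ ℓ → ∀ x : ModularCurve.JZero N,
        (∃ n : ℕ, p ^ n • x = 0) →
          σ • σ • x - ModularCurve.heckeOperatorBar N ⟨ℓ, hℓ⟩ (σ • x) + ℓ • x = 0

/-- (FIN) The `p`-torsion of `J₀(N)(ℚ̄)` is finite. -/
def TorsionFinite (N p : ℕ) : Prop :=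
  {x : ModularCurve.JZero N | p • x = 0}.Finite

/-- (BK) A Betti lattice `H` (in practice `Hom_par(Γ₀(N), ℤ)`) with Hecke operators, compatible
Hecke-equivariant maps `θ k : H → J₀(N)(ℚ̄)[p^k]` whose kernels are `p^k H` up to a bounded
defect (Kummer bridge; NO surjectivity onto `J[p^k]` is required), and the support property
(every eigen-system of the Hecke algebra of `S₂(Γ₀(N))` occurs in `R ⊗ H`; from S21). -/
structure BettiKummer (N p : ℕ) [NeZero N] : Type 1 where
  H : Type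
  [instAddCommGroup : AddCommGroup H]
  [instFree : Module.Free ℤ H]
  [instFinite : Module.Finite ℤ H]
  hecke : Nat.Primes → Module.End ℤ H
  θ : ℕ → H →+ ModularCurve.JZero N
  θ_compat : ∀ (k : ℕ) (x : H), p • θ (k + 1) x = θ k x
  θ_zero : ∀ x : H, θ 0 x = 0
  /-- kernel control with a bounded defect `m` (`m = 0`: `ker θ k = p^k H`; a positive defect
  is allowed so that a finite-index comparison `T_p J ↪ H ⊗ ℤ_p` can also be used) -/
  θ_ker : ∃ m : ℕ, ∀ (k : ℕ) (x : H), θ (k + m) x = 0 → ∃ y : H, x = (p ^ k : ℤ) • y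
  θ_hecke : ∀ (ℓ : Nat.Primes), ¬ (ℓ : ℕ) ∣ N * p → ∀ (k : ℕ) (x : H),
    θ k (hecke ℓ x) = ModularCurve.heckeOperatorBar N ℓ (θ k x)
  support : ∀ (S : Finset ℕ) (_hNS : ∀ q : ℕ, q.Prime → q ∣ N → q ∈ S)
    (R : Type) [Field R] [CharZero R]
    (χ : CuspForm.heckeAlgebra N 2 (↑S : Set ℕ) →+* R),
    ∃ v : R ⊗[ℤ] H, v ≠ 0 ∧
      ∀ (ℓ : ℕ) (hℓ : ℓ.Prime) (hℓN : ¬ ℓ ∣ N) (hℓS : ℓ ∉ (↑S : Set ℕ)),
        (hecke ⟨ℓ, hℓ⟩).baseChange R v = χ (CuspForm.heckeAlgebra.T hℓ hℓN hℓS) • v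

attribute [instance] BettiKummer.instAddCommGroup BettiKummer.instFree BettiKummer.instFinite

end Fermat.Agent.S30
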