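import Mathlib

set_option autoImplicit false
set_option linter.style.haveILetI false

namespace Fermat.Agent.S30

open TensorProduct

section JointKernel

variable {R : Type*} [Field R]

/-- A commuting family of nilpotent endomorphisms of a nonzero finite-dimensional space has a
common kernel vector. -/
theorem supp_engel {ι : Type*} (n : ℕ) :
    ∀ (W : Type*) [AddCommGroup W] [Module R W] [FiniteDimensional R W] [Nontrivial W]
      (f : ι → Module.End R W), Module.finrank R W = n →
      (∀ i j, Commute (f i) (f j)) → (∀ i, IsNilpotent (f i)) →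
      ∃ w : W, w ≠ 0 ∧ ∀ i, f i w = 0 := by
  induction n using Nat.strong_induction_on with
  | _ n ih =>
    intro W _ _ _ _ f hn hcomm hnil
    by_cases hall : ∀ i, f i = 0
    · obtain ⟨w, hw⟩ := exists_ne (0 : W)
      exact ⟨w, hw, fun i => by rw [hall i]; rfl⟩
    · obtain ⟨i₀, hi₀⟩ := not_forall.mp hall
      set W' : Submodule R W := LinearMap.ker (f i₀) with hW'
      have hstab : ∀ i, ∀ x ∈ W', f i x ∈ W' := by
        intro i x hx
        rw [hW', LinearMap.mem_ker] at hx ⊢
        have := congrArg (fun g : Module.End R W => g x) (hcomm i₀ i).eq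
        simp only [Module.End.mul_apply] at this
        rw [this, hx, map_zero]
      have hne_top : W' ≠ ⊤ := by
        intro h
        apply hi₀
        rw [hW', LinearMap.ker_eq_top] at h
        exact h
      have hne_bot : W' ≠ ⊥ := by
        intro h
        rw [hW', LinearMap.ker_eq_bot] at h
        obtain ⟨k, hk⟩ := hnil i₀
        have hinj : Function.Injective ((f i₀) ^ k) := by
          rw [Module.End.coe_pow]
          exact Function.Injective.iterate h k
        obtain ⟨w, hw⟩ := exists_ne (0 : W)
        apply hw
        apply hinj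
        rw [hk]
        simp
      haveI : Nontrivial W' := Submodule.nontrivial_iff_ne_bot.mpr hne_bot
      have hlt : Module.finrank R W' < n := hn ▸ Submodule.finrank_lt hne_top
      obtain ⟨w', hw', hker⟩ := ih (Module.finrank R W') hlt W'
        (fun i => (f i).restrict (hstab i)) rfl
        (by
          intro i j
          apply LinearMap.ext
          intro x
          apply Subtype.ext
          have := congrArg (fun g : Module.End R W => g (x : W)) (hcomm i j).eq
          simpa [Module.End.mul_apply, LinearMap.restrict_apply] using this)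
        (by
          intro i
          obtain ⟨k, hk⟩ := hnil i
          refine ⟨k, ?_⟩
          apply LinearMap.ext
          intro x
          apply Subtype.ext
          have h1 : ∀ m : ℕ, ∀ y : W', ((((f i).restrict (hstab i)) ^ m) y : W) = ((f i) ^ m) (y : W) := by
            intro m
            induction m with
            | zero => intro y; simp
            | succ m ihm =>
              intro y
              rw [pow_succ, pow_succ, Module.End.mul_apply, Module.End.mul_apply, ihm]
              rfl
          rw [h1, hk]
          simp)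
      refine ⟨(w' : W), fun h => hw' (Subtype.ext h), fun i => ?_⟩
      have := congrArg (fun y : W' => (y : W)) (hker i)
      simpa [LinearMap.restrict_apply] using this

/-- A commuting family of endomorphisms of a finite-dimensional space whose ranges are all
killed by a nonzero linear functional has a common kernel vector. -/
theorem supp_joint_kernel {ι : Type*} (n : ℕ) :
    ∀ (W : Type*) [AddCommGroup W] [Module R W] [FiniteDimensional R W]
      (f : ι → Module.End R W) (Φ : Module.Dual R W), Module.finrank R W = n →
      (∀ i j, Commute (f i) (f j)) → Φ ≠ 0 → (∀ i w, Φ (f i w) = 0) →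
      ∃ w : W, w ≠ 0 ∧ ∀ i, f i w = 0 := by
  induction n using Nat.strong_induction_on with
  | _ n ih =>
    intro W _ _ _ f Φ hn hcomm hΦ hΦf
    haveI : Nontrivial W := by
      by_contra h
      rw [not_nontrivial_iff_subsingleton] at h
      apply hΦ
      apply LinearMap.ext
      intro w
      rw [Subsingleton.elim w 0]
      simp
    by_cases hall : ∀ i, IsNilpotent (f i)
    · exact supp_engel n W f hn hcomm hall
    · obtain ⟨i₀, hi₀⟩ := not_forall.mp hall
      obtain ⟨k, hk⟩ := (Filter.eventually_atTop.mp
        ((f i₀).eventually_isCompl_ker_pow_range_pow))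
      have hk1 : IsCompl (LinearMap.ker ((f i₀) ^ (k + 1))) (LinearMap.range ((f i₀) ^ (k + 1))) :=
        hk (k + 1) (by omega)
      set g : Module.End R W := (f i₀) ^ (k + 1) with hg
      set W' : Submodule R W := LinearMap.ker g with hW'
      have hcg : ∀ i, Commute g (f i) := fun i => (hcomm i₀ i).pow_left (k + 1)
      have hstab : ∀ i, ∀ x ∈ W', f i x ∈ W' := by
        intro i x hx
        rw [hW', LinearMap.mem_ker] at hx ⊢
        have := congrArg (fun h : Module.End R W => h x) (hcg i).eq
        simp only [Module.End.mul_apply] at this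
        rw [this, hx, map_zero]
      have hne_top : W' ≠ ⊤ := by
        intro h
        apply hi₀
        rw [hW', LinearMap.ker_eq_top] at h
        exact ⟨k + 1, h⟩
      have hrange : ∀ y ∈ LinearMap.range g, Φ y = 0 := by
        rintro y ⟨x, rfl⟩
        have : g x = f i₀ (((f i₀) ^ k) x) := by
          rw [hg, pow_succ', Module.End.mul_apply]
        rw [this]
        exact hΦf i₀ _
      have hΦ' : Φ.comp W'.subtype ≠ 0 := by
        intro h
        apply hΦ
        apply LinearMap.ext
        intro w
        have hw : w ∈ (⊤ : Submodule R W) := Submodule.mem_top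
        rw [← hk1.sup_eq_top, Submodule.mem_sup] at hw
        obtain ⟨a, ha, b, hb, rfl⟩ := hw
        have h1 : Φ a = 0 := by
          have := congrArg (fun φ : W' →ₗ[R] R => φ ⟨a, ha⟩) h
          simpa using this
        rw [map_add, h1, hrange b hb]
        simp
      have hlt : Module.finrank R W' < n := hn ▸ Submodule.finrank_lt hne_top
      obtain ⟨w', hw', hker⟩ := ih (Module.finrank R W') hlt W'
        (fun i => (f i).restrict (hstab i)) (Φ.comp W'.subtype) rfl
        (by
          intro i j
          apply LinearMap.ext
          intro x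
          apply Subtype.ext
          have := congrArg (fun h : Module.End R W => h (x : W)) (hcomm i j).eq
          simpa [Module.End.mul_apply, LinearMap.restrict_apply] using this)
        hΦ'
        (by
          intro i w
          simpa [LinearMap.restrict_apply] using hΦf i (w : W))
      refine ⟨(w' : W), fun h => hw' (Subtype.ext h), fun i => ?_⟩
      have := congrArg (fun y : W' => (y : W)) (hker i)
      simpa [LinearMap.restrict_apply] using this

end JointKernel

section Functional

/-- A finitely generated faithful module over a commutative ring has a nonzero functional with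
values in any field, semilinear along any given ring homomorphism to that field. -/
theorem supp_exists_functional {A : Type*} [CommRing A] {M : Type*} [AddCommGroup M] [Module A M]
    [Module.Finite A M] (hfaith : ∀ a : A, (∀ m : M, a • m = 0) → a = 0)
    {R : Type*} [Field R] (lam : A →+* R) :
    ∃ φ : M →+ R, φ ≠ 0 ∧ ∀ (a : A) (m : M), φ (a • m) = lam a * φ m := by
  haveI hprime : (RingHom.ker lam).IsPrime := RingHom.ker_isPrime lam
  let p : PrimeSpectrum A := ⟨RingHom.ker lam, hprime⟩
  have hann : Module.annihilator A M = ⊥ := by
    rw [eq_bot_iff]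
    intro a ha
    rw [Module.mem_annihilator] at ha
    exact (Submodule.mem_bot A).mpr (hfaith a ha)
  have hp : p ∈ Module.support A M := by
    rw [Module.support_eq_zeroLocus, hann]
    simp
  have hnt : Nontrivial (p.asIdeal.ResidueField ⊗[A] M) :=
    (Module.mem_support_iff_nontrivial_residueField_tensorProduct p).mp hp
  obtain ⟨v, hv⟩ := exists_ne (0 : p.asIdeal.ResidueField ⊗[A] M)
  obtain ⟨ψ, hψ⟩ : ∃ ψ : Module.Dual p.asIdeal.ResidueField (p.asIdeal.ResidueField ⊗[A] M),
      ψ v ≠ 0 := by
    by_contra h
    push Not at h
    exact hv ((Module.forall_dual_apply_eq_zero_iff p.asIdeal.ResidueField v).mp h)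
  let ι : p.asIdeal.ResidueField →+* R :=
    Ideal.ResidueField.lift p.asIdeal lam (le_refl _) (by
      intro a ha
      have : lam a ≠ 0 := fun h => ha (RingHom.mem_ker.mpr h)
      exact (isUnit_iff_ne_zero.mpr this))
  have hι : ∀ a : A, ι (algebraMap A p.asIdeal.ResidueField a) = lam a := fun a =>
    Ideal.ResidueField.lift_algebraMap _ _ _ _ a
  let φ : M →+ R :=
    { toFun := fun m => ι (ψ ((1 : p.asIdeal.ResidueField) ⊗ₜ[A] m))
      map_zero' := by simp
      map_add' := fun m m' => by simp [TensorProduct.tmul_add] }
  refine ⟨φ, ?_, ?_⟩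
  · intro h
    apply hψ
    have h0 : ∀ m : M, ψ ((1 : p.asIdeal.ResidueField) ⊗ₜ[A] m) = 0 := by
      intro m
      have := congrArg (fun g : M →+ R => g m) h
      exact ι.injective (by simpa [φ] using this)
    have hψ0 : ψ = 0 := by
      apply LinearMap.ext
      intro w
      induction w using TensorProduct.induction_on with
      | zero => simp
      | tmul c m =>
        have : c ⊗ₜ[A] m = c • ((1 : p.asIdeal.ResidueField) ⊗ₜ[A] m) := by
          rw [TensorProduct.smul_tmul', smul_eq_mul, mul_one]
        rw [this, map_smul, h0 m]
        simp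
      | add x y hx hy => rw [map_add, hx, hy]; simp
    rw [hψ0]
    simp
  · intro a m
    show ι (ψ ((1 : p.asIdeal.ResidueField) ⊗ₜ[A] (a • m))) =
      lam a * ι (ψ ((1 : p.asIdeal.ResidueField) ⊗ₜ[A] m))
    have : (1 : p.asIdeal.ResidueField) ⊗ₜ[A] (a • m) =
        (algebraMap A p.asIdeal.ResidueField a) • ((1 : p.asIdeal.ResidueField) ⊗ₜ[A] m) := by
      calc (1 : p.asIdeal.ResidueField) ⊗ₜ[A] (a • m)
          = a • ((1 : p.asIdeal.ResidueField) ⊗ₜ[A] m) := TensorProduct.tmul_smul a 1 m
        _ = (a • (1 : p.asIdeal.ResidueField)) ⊗ₜ[A] m := TensorProduct.smul_tmul' a 1 m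
        _ = (algebraMap A p.asIdeal.ResidueField a) ⊗ₜ[A] m := by
            rw [Algebra.algebraMap_eq_smul_one]
        _ = (algebraMap A p.asIdeal.ResidueField a) • ((1 : p.asIdeal.ResidueField) ⊗ₜ[A] m) := by
            rw [TensorProduct.smul_tmul', smul_eq_mul, mul_one]
    rw [this, map_smul, smul_eq_mul, map_mul, hι]

end Functional

section Main

/-- **Support lemma.**  Let `A` be a commutative ring acting faithfully on a finitely generated
abelian group `H`.  For every ring homomorphism `lam` from `A` to a field `R` there is a nonzero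
vector of `R ⊗ H` on which every `a : A` acts through the scalar `lam a`. -/
theorem supp_exists_eigenvector {A : Type*} [CommRing A] {H : Type*} [AddCommGroup H]
    [Module.Finite ℤ H] (ρ : A →+* Module.End ℤ H) (hρ : Function.Injective ρ)
    {R : Type*} [Field R] (lam : A →+* R) :
    ∃ v : R ⊗[ℤ] H, v ≠ 0 ∧ ∀ a : A, (ρ a).baseChange R v = lam a • v := by
  letI : Module A H := Module.compHom H ρ
  have hsmul : ∀ (a : A) (h : H), a • h = ρ a h := fun a h => rfl
  haveI : IsScalarTower ℤ A H := ⟨fun n a h => by
    rw [hsmul, hsmul, map_zsmul, LinearMap.smul_apply]⟩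
  haveI : Module.Finite A H := Module.Finite.of_restrictScalars_finite ℤ A H
  obtain ⟨φ, hφ, hφa⟩ := supp_exists_functional (A := A) (M := H) (by
    intro a ha
    apply hρ
    rw [map_zero]
    apply LinearMap.ext
    intro h
    exact ha h) lam
  let Φ : Module.Dual R (R ⊗[ℤ] H) := (φ.toIntLinearMap).liftBaseChange R
  have hΦ1 : ∀ (r : R) (h : H), Φ (r ⊗ₜ[ℤ] h) = r * φ h := fun r h => by
    simp [Φ]
  have hΦ : Φ ≠ 0 := by
    intro h0
    apply hφ
    ext h
    have := hΦ1 1 h
    rw [h0] at this
    simpa using this.symm
  let f : A → Module.End R (R ⊗[ℤ] H) := fun a => (ρ a).baseChange R - lam a • 1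
  have hcomm : ∀ a b, Commute (f a) (f b) := by
    intro a b
    have h1 : Commute ((ρ a).baseChange R) ((ρ b).baseChange R) := by
      show (ρ a).baseChange R * (ρ b).baseChange R = (ρ b).baseChange R * (ρ a).baseChange R
      rw [Module.End.mul_eq_comp, Module.End.mul_eq_comp, ← LinearMap.baseChange_comp,
        ← LinearMap.baseChange_comp, ← Module.End.mul_eq_comp, ← Module.End.mul_eq_comp,
        ← map_mul, ← map_mul, mul_comm]
    have h2 : ∀ (c : R) (g : Module.End R (R ⊗[ℤ] H)), Commute g (c • (1 : Module.End R (R ⊗[ℤ] H))) :=
      fun c g => ((Commute.one_right g).smul_right c)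
    exact (h1.sub_right (h2 _ _)).sub_left ((h2 _ _).symm.sub_right (h2 _ _))
  have hΦf : ∀ a w, Φ (f a w) = 0 := by
    intro a w
    induction w using TensorProduct.induction_on with
    | zero => simp
    | tmul r h =>
      show Φ ((ρ a).baseChange R (r ⊗ₜ[ℤ] h) - (lam a • (1 : Module.End R (R ⊗[ℤ] H))) (r ⊗ₜ[ℤ] h)) = 0
      rw [LinearMap.baseChange_tmul, LinearMap.smul_apply, Module.End.one_apply, map_sub,
        map_smul, hΦ1, hΦ1, ← hsmul, hφa, smul_eq_mul]
      ring
    | add x y hx hy => rw [map_add, map_add, hx, hy, add_zero]
  obtain ⟨w, hw, hker⟩ := supp_joint_kernel (R := R) (Module.finrank R (R ⊗[ℤ] H)) (R ⊗[ℤ] H)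
    f Φ rfl hcomm hΦ hΦf
  refine ⟨w, hw, fun a => ?_⟩
  have := hker a
  simp only [f, LinearMap.sub_apply, LinearMap.smul_apply, Module.End.one_apply] at this
  exact sub_eq_zero.mp this

end Main

end Fermat.Agent.S30
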