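import Fermat.Agent.S30.KumSpine5154
import Fermat.Agent.S30.BK8261.Main
import Fermat.Agent.S30.Gen.Main
import Fermat.Agent.S27

/-!
# GALREP leaf BK, unconditional (helper5154): `Nonempty (BettiKummer N p)`

`exists_bettiKummer (N p : ℕ) [NeZero N] (hp : p.Prime) : Nonempty (BettiKummer N p)` — LITERALLY
the leaf `exists_bettiKummer` of `Fermat/Agent/S30/GeoTree.lean` (origin/helper100), with no
hypotheses left.  Integration by compilation of

* (K) the unconditional Kummer family `kappa N p k : J₀(N) → Hom(Γ₀(N), ℤ/p^k)` built from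
  `KumZ5154.kummerZ` (additive, injective, parabolic, level-compatible) and `KumSpine5154.kummerZ_hecke`
  (Hecke clause);
* (C) the count `#J₀(N)[p^k] = p^(2 g k)`, `g = genusFF ℚ̄ ℚ̄(X₀(N))`: the LANDED `S27.result`, with the
  instances `IsCurveOver`, `EssFiniteType` from the landed S24 library;
* GEN `dim S₂(Γ₀(N)) ≤ g`: helper3774/helper8200 `Gen.genusFF_ge`;
* the finite-level assembly of helper8261 `BK8261.nonempty_bettiKummer_of_kummer_of_card`
  (Betti lattice + support: helper2381, helper1614).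
-/

set_option autoImplicit false
set_option linter.unusedSectionVars false

noncomputable section

open ModularCurve AlgebraicCurve CongruenceSubgroup IntermediateField KaehlerDifferential
open scoped MatrixGroups

namespace Fermat.Agent.S30.BK5154

open Fermat.Agent.S24 Fermat.Agent.S30.KumZ5154 Fermat.Agent.S30.KumSpine5154

variable (N : ℕ) [NeZero N]

/-! ### The modular function field is a curve in the sense of the Prelude -/

theorem isCurveOver_bar : IsCurveOver (AlgebraicClosure ℚ) ↥(modularFunctionFieldBar N) := by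
  classical
  have hfd := finiteDimensional_jBar N
  have hx := jBar_transcendental N
  refine
    { toHasPrincipalDivisors := ⟨fun f _ => ?_⟩
      finiteResidue := fun v => ?_
      kaehler_free_rank_one := ⟨Module.Free.of_divisionRing _ _, A564.KR.finrank_kaehler (jBar N) hx⟩ }
  · obtain ⟨T, hT, hsum⟩ := A564.exists_finset_sum_ord_eq_zero (jBar N) hx f
    have happ : ∀ v : Place (AlgebraicClosure ℚ) ↥(modularFunctionFieldBar N),
        (∑ w ∈ T, Finsupp.single w (w.ord f)) v = v.ord f := by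
      intro v
      rw [Finsupp.finsetSum_apply]
      by_cases hv : v ∈ T
      · rw [Finset.sum_eq_single_of_mem v hv (fun w _ hw => Finsupp.single_eq_of_ne hw.symm)]
        exact Finsupp.single_eq_same
      · rw [hT v hv]
        exact Finset.sum_eq_zero fun w hw => Finsupp.single_eq_of_ne (fun h => hv (h ▸ hw))
    refine ⟨∑ w ∈ T, Finsupp.single w (w.ord f), happ, ?_⟩
    rw [map_sum, ← hsum]
    refine Finset.sum_congr rfl fun w _ => ?_
    rw [Divisor.degree_single, A564.deg_eq_one (jBar N) hx w]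
    simp
  · obtain ⟨-, hres⟩ := A564.local_facts (jBar N) hx v
    exact Module.Finite.of_surjective (Algebra.linearMap (AlgebraicClosure ℚ) v.ResidueField) hres

theorem essFiniteType_bar :
    Algebra.EssFiniteType (AlgebraicClosure ℚ) ↥(modularFunctionFieldBar N) := by
  have hfd := finiteDimensional_jBar N
  have : Algebra.EssFiniteType (AlgebraicClosure ℚ) (AlgebraicClosure ℚ)⟮jBar N⟯ :=
    IntermediateField.essFiniteType_iff.mpr ⟨{jBar N}, by simp⟩
  exact Algebra.EssFiniteType.comp (AlgebraicClosure ℚ) (AlgebraicClosure ℚ)⟮jBar N⟯ _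

/-- (C) the count, from the landed S27. -/
theorem card_torsion (p : ℕ) (hp : p.Prime) (k : ℕ) :
    Nat.card (Pic0.torsion (AlgebraicClosure ℚ) ↥(modularFunctionFieldBar N) (p ^ k))
      = p ^ (2 * genusFF (AlgebraicClosure ℚ) ↥(modularFunctionFieldBar N) * k) := by
  have : Fact p.Prime := ⟨hp⟩
  have := isCurveOver_bar N
  have := essFiniteType_bar N
  exact Fermat.Agent.S27.result (AlgebraicClosure ℚ) ↥(modularFunctionFieldBar N) p k

/-! ### The Kummer family in the shape of helper8261's assembly -/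

theorem mem_torsion_iff {n : ℕ} {x : JZero N} :
    x ∈ Pic0.torsion (AlgebraicClosure ℚ) ↥(modularFunctionFieldBar N) n ↔ n • x = 0 := by
  rw [Pic0.mem_torsion, natCast_zsmul]

open Classical in
/-- The Kummer family `κ_k : J₀(N) → Hom(Γ₀(N), ℤ/p^k)` (junk value `0` off `J[p^k]`). -/
def kappa (p k : ℕ) (x : JZero N) : Additive ↥(Gamma0 N) →+ ZMod (p ^ k) :=
  if h : p ^ k ≠ 0 ∧ x ∈ Pic0.torsion (AlgebraicClosure ℚ) ↥(modularFunctionFieldBar N) (p ^ k) then
    kummerZ N h.1 ⟨x, h.2⟩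
  else 0

variable {N}

theorem kappa_eq {p k : ℕ} (hpk : p ^ k ≠ 0) {x : JZero N} (hx : p ^ k • x = 0) :
    kappa N p k x = kummerZ N hpk ⟨x, (mem_torsion_iff N).mpr hx⟩ :=
  dif_pos ⟨hpk, (mem_torsion_iff N).mpr hx⟩

theorem kappa_add {p : ℕ} (hp : p.Prime) (k : ℕ) (x y : JZero N) (hx : p ^ k • x = 0)
    (hy : p ^ k • y = 0) : kappa N p k (x + y) = kappa N p k x + kappa N p k y := by
  have hpk : p ^ k ≠ 0 := pow_ne_zero k hp.ne_zero
  have hxy : p ^ k • (x + y) = 0 := by rw [nsmul_add, hx, hy, add_zero]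
  rw [kappa_eq hpk hx, kappa_eq hpk hy, kappa_eq hpk hxy, ← map_add]
  rfl

theorem kappa_inj {p : ℕ} (hp : p.Prime) (k : ℕ) (x : JZero N) (hx : p ^ k • x = 0)
    (h0 : kappa N p k x = 0) : x = 0 := by
  have hpk : p ^ k ≠ 0 := pow_ne_zero k hp.ne_zero
  rw [kappa_eq hpk hx] at h0
  have h1 := (injective_iff_map_eq_zero (kummerZ N hpk)).mp (kummerZ_injective hpk) _ h0
  exact congrArg Subtype.val h1

theorem kappa_par {p : ℕ} (hp : p.Prime) (k : ℕ) (x : JZero N) (hx : p ^ k • x = 0) :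
    ModularCurve.Period.IsParabolicHom (Gamma0 N) (kappa N p k x) := by
  have hpk : p ^ k ≠ 0 := pow_ne_zero k hp.ne_zero
  rw [kappa_eq hpk hx]
  exact kummerZ_mem_parabolicHoms hpk _

theorem kummerZ_nsmul' {n m n' : ℕ} (hn : n ≠ 0) (hm : m ≠ 0) (e : n' = n * m) (hn' : n' ≠ 0)
    (x : JZero N)
    (hx : x ∈ Pic0.torsion (AlgebraicClosure ℚ) ↥(modularFunctionFieldBar N) n')
    (hmx : m • x ∈ Pic0.torsion (AlgebraicClosure ℚ) ↥(modularFunctionFieldBar N) n)
    (γ : Additive ↥(Gamma0 N)) :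
    kummerZ N hn ⟨m • x, hmx⟩ γ = ((kummerZ N hn' ⟨x, hx⟩ γ : ZMod n').cast : ZMod n) := by
  subst e
  obtain ⟨γ, rfl⟩ := Additive.ofMul.surjective γ
  rw [kummerZ_nsmul hn hm x hx hmx γ, ZMod.castHom_apply]

theorem kappa_compat {p : ℕ} (hp : p.Prime) (k : ℕ) (x : JZero N) (hx : p ^ (k + 1) • x = 0)
    (γ : Additive ↥(Gamma0 N)) :
    kappa N p k (p • x) γ = ((kappa N p (k + 1) x γ : ZMod (p ^ (k + 1))).cast : ZMod (p ^ k)) := by
  have hpk : p ^ k ≠ 0 := pow_ne_zero k hp.ne_zero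
  have hpk1 : p ^ (k + 1) ≠ 0 := pow_ne_zero (k + 1) hp.ne_zero
  have hpx : p ^ k • (p • x) = 0 := by rw [← mul_nsmul, ← pow_succ']; exact hx
  rw [kappa_eq hpk hpx, kappa_eq hpk1 hx]
  exact kummerZ_nsmul' hpk hp.ne_zero (pow_succ p k) hpk1 x _ _ γ

theorem kappa_hecke {p : ℕ} (hp : p.Prime) (ℓ : ℕ) [Fact ℓ.Prime] (hℓ : ℓ.Prime) (hℓN : ¬ ℓ ∣ N)
    (k : ℕ) (x : JZero N) (hx : p ^ k • x = 0) :
    kappa N p k (heckeOperatorBar N ⟨ℓ, hℓ⟩ x)
      = Betti.heckeHom N hℓN (ZMod (p ^ k)) (kappa N p k x) := by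
  have hpk : p ^ k ≠ 0 := pow_ne_zero k hp.ne_zero
  have hTx : p ^ k • heckeOperatorBar N ⟨ℓ, hℓ⟩ x = 0 := by rw [← map_nsmul, hx, map_zero]
  rw [kappa_eq hpk hx, kappa_eq hpk hTx]
  exact kummerZ_hecke hpk hℓ hℓN ⟨x, (mem_torsion_iff N).mpr hx⟩ _

variable (N)

/-- **Leaf BK** of the GALREP tree (`GeoTree.exists_bettiKummer`), unconditional. -/
theorem exists_bettiKummer (p : ℕ) (hp : p.Prime) : Nonempty (BettiKummer N p) :=
  BK8261.nonempty_bettiKummer_of_kummer_of_card N p hp (kappa N p)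
    (fun k x y hx hy => kappa_add hp k x y hx hy)
    (fun k x hx h0 => kappa_inj hp k x hx h0)
    (fun k x hx => kappa_par hp k x hx)
    (fun k x hx γ => kappa_compat hp k x hx γ)
    (fun ℓ _ hℓ hℓN _ k x hx => kappa_hecke hp ℓ hℓ hℓN k x hx)
    (genusFF (AlgebraicClosure ℚ) ↥(modularFunctionFieldBar N))
    (Fermat.Agent.S30.Gen.genusFF_ge N)
    (fun k => card_torsion N p hp k)

/-- **Leaf FIN** (`GeoTree.torsionFinite`), from injectivity of the Kummer map. -/
theorem torsionFinite (p : ℕ) (hp : p.Prime) : TorsionFinite N p :=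
  BK8261.torsionFinite_of_kummer N p hp
    (fun x => (ZMod.ringEquivCongr (pow_one p)).toAddMonoidHom.comp (kappa N p 1 x))
    (fun x y hx hy => by
      rw [kappa_add hp 1 x y (by rwa [pow_one]) (by rwa [pow_one])]
      exact AddMonoidHom.comp_add _ _ _)
    (fun x hx h0 => by
      refine kappa_inj hp 1 x (by rwa [pow_one]) ?_
      refine AddMonoidHom.ext fun γ => ?_
      have h1 := congrArg (fun φ : Additive ↥(Gamma0 N) →+ ZMod p => φ γ) h0
      exact (ZMod.ringEquivCongr (pow_one p)).injective (by simpa using h1))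

end Fermat.Agent.S30.BK5154
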