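import Fermat.Prelude.Def_ModularCurve_HeckeModule
import Fermat.Prelude.Thm_ModularCurve_coeffMap_qExpand

set_option autoImplicit false
set_option linter.style.haveILetI false

noncomputable section

namespace Fermat.Agent.S30.GalHecke9234

open AlgebraicCurve
open scoped Pointwise

section General

variable {K F F' : Type*} [Field K] [Field F] [Field F'] [Algebra K F] [Algebra K F']
variable (φ : F →ₐ[K] F') (hφ : φ.toRingHom.IsIntegral)
variable {g : SemilinearAut K F} {g' : SemilinearAut K F'}

theorem restrictAlong_smul (h : SemilinearAut.IntertwinesAlong φ.toRingHom g g')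
    (w : Place K F') :
    (g' • w).restrictAlong φ hφ = g • w.restrictAlong φ hφ := by
  letI := algebraAlong φ
  haveI := isScalarTower_along φ
  haveI := isIntegral_along φ hφ
  apply Place.ext
  ext x
  show x ∈ ((g' • w).restrict F).toValuationSubring ↔
    x ∈ (g • (w.restrict F)).toValuationSubring
  rw [Place.mem_restrict_iff, SemilinearAut.smul_toValuationSubring,
    SemilinearAut.smul_toValuationSubring,
    ValuationSubring.mem_pointwise_smul_iff_inv_smul_mem,
    ValuationSubring.mem_pointwise_smul_iff_inv_smul_mem, Place.mem_restrict_iff]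
  have hx : g'⁻¹ • φ.toRingHom x = φ.toRingHom (g⁻¹ • x) := h.inv x
  show g'⁻¹ • φ.toRingHom x ∈ _ ↔ φ.toRingHom (g⁻¹ • x) ∈ _
  rw [hx]

theorem ord_smul_apply (h : SemilinearAut.IntertwinesAlong φ.toRingHom g g')
    (w : Place K F') (f : F) :
    (g' • w).ord (φ f) = w.ord (φ (g⁻¹ • f)) := by
  have hx : g'⁻¹ • φ.toRingHom f = φ.toRingHom (g⁻¹ • f) := h.inv f
  have h1 := SemilinearAut.ord_smul g' w (g'⁻¹ • φ.toRingHom f)
  rw [smul_inv_smul, hx] at h1
  exact h1

theorem ramificationIndexAlong_smul (h : SemilinearAut.IntertwinesAlong φ.toRingHom g g')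
    (w : Place K F') :
    (g' • w).ramificationIndexAlong φ = w.ramificationIndexAlong φ := by
  letI := algebraAlong φ
  show sInf {n : ℕ | 0 < n ∧ ∃ f : F, f ≠ 0 ∧ (g' • w).ord (algebraMap F F' f) = n} =
    sInf {n : ℕ | 0 < n ∧ ∃ f : F, f ≠ 0 ∧ w.ord (algebraMap F F' f) = n}
  congr 1
  ext n
  simp only [Set.mem_ofPred_eq]
  refine and_congr_right fun _ => ⟨?_, ?_⟩
  · rintro ⟨f, hf, hn⟩
    refine ⟨g⁻¹ • f, by simpa using hf, ?_⟩
    rw [← hn]
    exact (ord_smul_apply φ h w f).symm
  · rintro ⟨f, hf, hn⟩
    refine ⟨g • f, by simpa using hf, ?_⟩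
    rw [← hn]
    have := ord_smul_apply φ h w (g • f)
    rw [inv_smul_smul] at this
    exact this

end General

section Inertia

variable {K F F' : Type*} [Field K] [Field F] [Field F'] [Algebra K F] [Algebra K F']
  [Algebra F F'] [IsScalarTower K F F'] [Algebra.IsIntegral F F']
variable {g : SemilinearAut K F} {g' : SemilinearAut K F'}

/-- `x ↦ g • x` between the restricted valuation rings of `w` and `g' • w`. -/
def resEquiv (h : ∀ x : F, g' • algebraMap F F' x = algebraMap F F' (g • x)) (w : Place K F') :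
    (w.restrict F).toValuationSubring ≃+* ((g' • w).restrict F).toValuationSubring where
  toFun a := ⟨g • (a : F), by
    rw [Place.mem_restrict_iff, ← h]
    exact ValuationSubring.smul_mem_pointwise_smul g' _ _ ((Place.mem_restrict_iff w).mp a.2)⟩
  invFun b := ⟨g⁻¹ • (b : F), by
    rw [Place.mem_restrict_iff]
    have hb : algebraMap F F' (b : F) ∈ g' • w.toValuationSubring :=
      (Place.mem_restrict_iff (g' • w)).mp b.2
    rw [ValuationSubring.mem_pointwise_smul_iff_inv_smul_mem] at hb
    have h2 : g'⁻¹ • algebraMap F F' (b : F) = algebraMap F F' (g⁻¹ • (b : F)) := by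
      have := h (g⁻¹ • (b : F))
      rw [smul_inv_smul] at this
      rw [← this, inv_smul_smul]
    rwa [h2] at hb⟩
  left_inv a := Subtype.ext (inv_smul_smul g (a : F))
  right_inv b := Subtype.ext (smul_inv_smul g (b : F))
  map_mul' a b := Subtype.ext (smul_mul' g (a : F) (b : F))
  map_add' a b := Subtype.ext (smul_add g (a : F) (b : F))

theorem inertiaDeg_smul_inst (h : ∀ x : F, g' • algebraMap F F' x = algebraMap F F' (g • x))
    (w : Place K F') : (g' • w).inertiaDeg F = w.inertiaDeg F := by
  symm
  refine Algebra.finrank_eq_of_equiv_equiv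
    (IsLocalRing.ResidueField.mapEquiv (resEquiv h w))
    (SemilinearAut.smulResidueRingEquiv g' w) ?_
  refine RingHom.ext fun x => ?_
  obtain ⟨a, rfl⟩ := IsLocalRing.residue_surjective x
  show algebraMap ((g' • w).restrict F).ResidueField (g' • w).ResidueField
      (IsLocalRing.ResidueField.mapEquiv (resEquiv h w) (IsLocalRing.residue _ a)) =
    SemilinearAut.smulResidueRingEquiv g' w
      (algebraMap (w.restrict F).ResidueField w.ResidueField (IsLocalRing.residue _ a))
  rw [IsLocalRing.ResidueField.mapEquiv_apply, IsLocalRing.ResidueField.map_residue,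
    Place.algebraMap_residueField_eq, Place.algebraMap_residueField_eq,
    Place.restrictResidueMap_residue, Place.restrictResidueMap_residue]
  show _ = IsLocalRing.ResidueField.mapEquiv _ (IsLocalRing.residue _ _)
  rw [IsLocalRing.ResidueField.mapEquiv_apply, IsLocalRing.ResidueField.map_residue]
  refine congrArg _ (Subtype.ext ?_)
  exact (h (a : F)).symm

end Inertia

section Divisors

variable {K F F' : Type*} [Field K] [Field F] [Field F'] [Algebra K F] [Algebra K F']
variable (φ : F →ₐ[K] F') (hφ : φ.toRingHom.IsIntegral)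
variable {g : SemilinearAut K F} {g' : SemilinearAut K F'}

theorem inertiaDegAlong_smul (h : SemilinearAut.IntertwinesAlong φ.toRingHom g g')
    (w : Place K F') :
    (g' • w).inertiaDegAlong φ hφ = w.inertiaDegAlong φ hφ := by
  letI := algebraAlong φ
  haveI := isScalarTower_along φ
  haveI := isIntegral_along φ hφ
  exact inertiaDeg_smul_inst (F := F) h w

theorem pushforwardAlong_smul (h : SemilinearAut.IntertwinesAlong φ.toRingHom g g')
    (D : Divisor K F') :
    Divisor.pushforwardAlong φ hφ (g' • D) = g • Divisor.pushforwardAlong φ hφ D := by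
  induction D using Finsupp.induction_linear with
  | zero => rw [smul_zero, map_zero, smul_zero]
  | add D E hD hE => rw [smul_add, map_add, map_add, smul_add, hD, hE]
  | single w n =>
    rw [SemilinearAut.smul_single, Divisor.pushforwardAlong_single,
      Divisor.pushforwardAlong_single, SemilinearAut.smul_single, restrictAlong_smul φ hφ h,
      inertiaDegAlong_smul φ hφ h]

theorem pullbackAlong_smul [HasPrincipalDivisors K F']
    (h : SemilinearAut.IntertwinesAlong φ.toRingHom g g') (D : Divisor K F) :
    Divisor.pullbackAlong φ hφ (g • D) = g' • Divisor.pullbackAlong φ hφ D := by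
  ext w
  rw [Divisor.pullbackAlong_apply, SemilinearAut.divisor_smul_apply,
    SemilinearAut.divisor_smul_apply, Divisor.pullbackAlong_apply,
    restrictAlong_smul φ hφ h.inv, ramificationIndexAlong_smul φ h.inv]

variable (ψ : F →ₐ[K] F') (hψ : ψ.toRingHom.IsIntegral)

theorem correspondence_smul [HasPrincipalDivisors K F']
    (h : SemilinearAut.IntertwinesAlong φ.toRingHom g g')
    (h' : SemilinearAut.IntertwinesAlong ψ.toRingHom g g') (D : Divisor K F) :
    Divisor.correspondence φ ψ hφ hψ (g • D) = g • Divisor.correspondence φ ψ hφ hψ D := by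
  rw [Divisor.correspondence_apply, Divisor.correspondence_apply, pullbackAlong_smul φ hφ h,
    pushforwardAlong_smul ψ hψ h']

theorem pic0_correspondence_smul [HasPrincipalDivisors K F']
    (hFI : FundamentalIdentityAlong K φ hφ)
    (hfin : FiniteAlong K ψ) (hN : NormFormulaAlong K ψ hfin)
    (h : SemilinearAut.IntertwinesAlong φ.toRingHom g g')
    (h' : SemilinearAut.IntertwinesAlong ψ.toRingHom g g') (x : Pic0 K F) :
    Pic0.correspondence φ ψ hφ hψ hFI hfin hN (g • x) =
      g • Pic0.correspondence φ ψ hφ hψ hFI hfin hN x := by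
  obtain ⟨D, rfl⟩ := Pic0.mk_surjective x
  rw [SemilinearAut.pic0_smul_mk, Pic0.correspondence_mk, Pic0.correspondence_mk,
    SemilinearAut.pic0_smul_mk]
  refine congrArg Pic0.mk (Subtype.ext ?_)
  rw [Pic0.coe_degZeroCorrespondence, SemilinearAut.coe_degZeroSMulHom,
    SemilinearAut.coe_degZeroSMulHom, Pic0.coe_degZeroCorrespondence]
  exact correspondence_smul φ hφ ψ hψ h h' _

end Divisors

section Modular

open ModularCurve

variable {L : Type*} [Field L] [Algebra ℚ L]
variable (N ℓ : ℕ) [NeZero N] [NeZero ℓ]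

theorem intertwines_alpha (σ : L ≃ₐ[ℚ] L) :
    SemilinearAut.IntertwinesAlong (heckeAlphaBar L N ℓ).toRingHom
      (arithmeticGalois (modularFunctionFieldFull N) σ)
      (arithmeticGalois (modularFunctionFieldFull (N * ℓ)) σ) := by
  intro x
  apply Subtype.ext
  show coeffMap (σ : L →+* L) ((heckeAlphaBar L N ℓ x :
      laurentBaseChange L (modularFunctionFieldFull (N * ℓ))) : LaurentSeries L) =
    ((heckeAlphaBar L N ℓ (arithmeticGalois (modularFunctionFieldFull N) σ • x) :
      laurentBaseChange L (modularFunctionFieldFull (N * ℓ))) : LaurentSeries L)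
  rw [coe_heckeAlphaBar, coe_heckeAlphaBar, coe_arithmeticGalois_smul]

omit [NeZero N] in
theorem intertwines_beta (σ : L ≃ₐ[ℚ] L) :
    SemilinearAut.IntertwinesAlong (heckeBetaBar L N ℓ).toRingHom
      (arithmeticGalois (modularFunctionFieldFull N) σ)
      (arithmeticGalois (modularFunctionFieldFull (N * ℓ)) σ) := by
  intro x
  apply Subtype.ext
  show coeffMap (σ : L →+* L) ((heckeBetaBar L N ℓ x :
      laurentBaseChange L (modularFunctionFieldFull (N * ℓ))) : LaurentSeries L) =
    ((heckeBetaBar L N ℓ (arithmeticGalois (modularFunctionFieldFull N) σ • x) :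
      laurentBaseChange L (modularFunctionFieldFull (N * ℓ))) : LaurentSeries L)
  rw [coe_heckeBetaBar, coe_heckeBetaBar, coe_arithmeticGalois_smul]
  exact ModularCurve.coeffMap_qExpand _ ℓ _

/-- The Hecke correspondence `T_ℓ` on `Pic⁰` of the level-`N` modular function field over `L`
commutes with the coefficientwise Galois action. -/
theorem heckeOperatorAlong_smul (σ : L ≃ₐ[ℚ] L)
    (x : Pic0 L (laurentBaseChange L (modularFunctionFieldFull N))) :
    heckeOperatorAlong L N ℓ (σ • x) = σ • heckeOperatorAlong L N ℓ x := by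
  by_cases h : HeckeInputsAlong L N ℓ
  · obtain ⟨hα, hβ, hP, hfin, hFI, hN⟩ := h
    haveI := hP
    rw [heckeOperatorAlong_eq hα hβ hFI hfin hN, galois_smul_pic0_def, galois_smul_pic0_def]
    exact pic0_correspondence_smul _ hβ _ hα hFI hfin hN (intertwines_beta N ℓ σ)
      (intertwines_alpha N ℓ σ) x
  · rw [heckeOperatorAlong_of_not h, AddMonoidHom.zero_apply, AddMonoidHom.zero_apply, smul_zero]

end Modular

section Bar

open ModularCurve

variable (N : ℕ) [NeZero N]

theorem heckeOperatorBar_smul (ℓ : Nat.Primes)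
    (σ : AlgebraicClosure ℚ ≃ₐ[ℚ] AlgebraicClosure ℚ) (x : JZero N) :
    heckeOperatorBar N ℓ (σ • x) = σ • heckeOperatorBar N ℓ x := by
  haveI : NeZero (ℓ : ℕ) := ⟨ℓ.2.ne_zero⟩
  rw [heckeOperatorBar_apply, heckeOperatorBar_apply]
  exact heckeOperatorAlong_smul N ℓ σ x

omit [NeZero N] in
theorem galois_smul_zsmul (σ : AlgebraicClosure ℚ ≃ₐ[ℚ] AlgebraicClosure ℚ) (n : ℤ)
    (x : JZero N) : σ • (n • x) = n • (σ • x) :=
  map_zsmul (DistribSMul.toAddMonoidHom (JZero N) σ) n x

theorem adjoin_apply_smul (σ : AlgebraicClosure ℚ ≃ₐ[ℚ] AlgebraicClosure ℚ)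
    {E : Module.End ℤ (JZero N)}
    (hE : E ∈ Algebra.adjoin ℤ (Set.range (heckeOperatorBar N))) (x : JZero N) :
    E (σ • x) = σ • E x := by
  induction hE using Algebra.adjoin_induction generalizing x with
  | mem E hE =>
    obtain ⟨ℓ, rfl⟩ := hE
    exact heckeOperatorBar_smul N ℓ σ x
  | algebraMap n =>
    rw [Module.algebraMap_end_apply, Module.algebraMap_end_apply, galois_smul_zsmul]
  | add E E' _ _ h h' => rw [LinearMap.add_apply, LinearMap.add_apply, h, h', smul_add]
  | mul E E' _ _ h h' => rw [Module.End.mul_apply, Module.End.mul_apply, h', h]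

/-- **Galois–Hecke commutation** on `J₀(N)(ℚ̄)`: the hypothesis of the frozen `S37`, proved
unconditionally. -/
theorem smulCommClass_galois_heckeAlg :
    letI := heckeModuleBar N
    SMulCommClass (AlgebraicClosure ℚ ≃ₐ[ℚ] AlgebraicClosure ℚ) HeckeAlg (JZero N) := by
  letI := heckeModuleBar N
  refine ⟨fun σ t x => ?_⟩
  by_cases h : HeckeOperatorsCommuteBar N
  · rw [heckeModuleBar_smul_def h, heckeModuleBar_smul_def h, heckeEvalBar_apply]
    exact (adjoin_apply_smul N σ (heckeEvalBarAux h t).2 x).symm
  · rw [heckeModuleBar_smul_of_not h, heckeModuleBar_smul_of_not h]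
    exact galois_smul_zsmul N σ _ x

end Bar

end Fermat.Agent.S30.GalHecke9234
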