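import Mathlib
import Fermat.Prelude.Def_EllipticCurve_FrobeniusTrace
import Fermat.Prelude.Def_GaloisRep_ComplexConjugation
import Fermat.Prelude.Def_FLTPrelim_Ramification

set_option autoImplicit false

namespace Fermat.Agent.S30.Cyclo474

open IsLocalRing

section PadicHom

variable (p : ℕ) [Fact p.Prime]

/-- A ring hom out of `ZMod (p ^ n)` into a ring killed by `p ^ n`. -/
noncomputable def zmodTo (R : Type*) [CommRing R] (n : ℕ) (h : (p : R) ^ n = 0) :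
    ZMod (p ^ n) →+* R :=
  (Ideal.Quotient.lift (Ideal.span {((p ^ n : ℕ) : ℤ)}) (Int.castRingHom R) (by
    intro a ha
    obtain ⟨b, rfl⟩ := Ideal.mem_span_singleton.mp ha
    simp [h])).comp
    (Int.quotientSpanNatEquivZMod (p ^ n)).symm.toRingHom

theorem ringHom_zmod_apply {N : ℕ} [NeZero N] {R : Type*} [CommRing R] (φ : ZMod N →+* R)
    (z : ZMod N) : φ z = ((z.val : ℕ) : R) := by
  conv_lhs => rw [← ZMod.natCast_zmod_val z]
  exact map_natCast φ _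

theorem ringHom_padicInt_apply {R : Type*} [CommRing R] (m : ℕ) (h : (p : R) ^ m = 0)
    (g : ℤ_[p] →+* R) (x : ℤ_[p]) :
    g x = (((PadicInt.toZModPow m x).val : ℕ) : R) := by
  have hx : x - (((PadicInt.toZModPow m x).val : ℕ) : ℤ_[p]) ∈
      RingHom.ker (PadicInt.toZModPow (p := p) m) := by
    rw [RingHom.mem_ker, map_sub, map_natCast, ZMod.natCast_zmod_val, sub_self]
  rw [PadicInt.ker_toZModPow, Ideal.mem_span_singleton] at hx
  obtain ⟨y, hy⟩ := hx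
  have hx' : x = (((PadicInt.toZModPow m x).val : ℕ) : ℤ_[p]) + (p : ℤ_[p]) ^ m * y := by
    rw [← hy]; ring
  calc g x = g ((((PadicInt.toZModPow m x).val : ℕ) : ℤ_[p]) + (p : ℤ_[p]) ^ m * y) := by
        rw [← hx']
    _ = (((PadicInt.toZModPow m x).val : ℕ) : R) := by
        rw [map_add, map_mul, map_pow, map_natCast, map_natCast, h, zero_mul, add_zero]

theorem exists_padicInt_ringHom (𝒪 : Type) [CommRing 𝒪] [IsLocalRing 𝒪]
    [IsAdicComplete (maximalIdeal 𝒪) 𝒪] (hp : (p : 𝒪) ∈ maximalIdeal 𝒪) :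
    Nonempty (ℤ_[p] →+* 𝒪) := by
  have h0 : ∀ n : ℕ, ((p : 𝒪 ⧸ maximalIdeal 𝒪 ^ n)) ^ n = 0 := by
    intro n
    have : ((p : 𝒪 ⧸ maximalIdeal 𝒪 ^ n)) ^ n =
        Ideal.Quotient.mk (maximalIdeal 𝒪 ^ n) ((p : 𝒪) ^ n) := by
      simp
    rw [this, Ideal.Quotient.eq_zero_iff_mem]
    exact Ideal.pow_mem_pow hp n
  refine ⟨IsAdicComplete.liftRingHom (maximalIdeal 𝒪)
    (fun n => (zmodTo p (𝒪 ⧸ maximalIdeal 𝒪 ^ n) n (h0 n)).comp (PadicInt.toZModPow n)) ?_⟩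
  intro m n hle
  refine RingHom.ext fun x => ?_
  rw [ringHom_padicInt_apply p m (h0 m)]
  simp only [RingHom.coe_comp, Function.comp_apply]
  exact (ringHom_zmod_apply _ _).symm

end PadicHom

section Char

variable (p : ℕ) [Fact p.Prime]

/-- The `p`-adic cyclotomic character of the absolute Galois group of `ℚ`. -/
noncomputable def chi : (AlgebraicClosure ℚ ≃ₐ[ℚ] AlgebraicClosure ℚ) →* ℤ_[p]ˣ :=
  (cyclotomicCharacter (AlgebraicClosure ℚ) p).comp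
    (MulSemiringAction.toRingAut (AlgebraicClosure ℚ ≃ₐ[ℚ] AlgebraicClosure ℚ) (AlgebraicClosure ℚ))

theorem chi_spec (σ : AlgebraicClosure ℚ ≃ₐ[ℚ] AlgebraicClosure ℚ) (n : ℕ) (ζ : AlgebraicClosure ℚ)
    (hζ : ζ ^ p ^ n = 1) :
    σ ζ = ζ ^ ((PadicInt.toZModPow n ((chi p σ : ℤ_[p]ˣ) : ℤ_[p])).val) :=
  cyclotomicCharacter.spec p
    (MulSemiringAction.toRingAut (AlgebraicClosure ℚ ≃ₐ[ℚ] AlgebraicClosure ℚ) (AlgebraicClosure ℚ) σ)
    ζ hζ

theorem toZModPow_chi_eq (σ : AlgebraicClosure ℚ ≃ₐ[ℚ] AlgebraicClosure ℚ) (n : ℕ) (k : ℕ)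
    (h : ∀ ζ : AlgebraicClosure ℚ, ζ ^ p ^ n = 1 → σ ζ = ζ ^ k) :
    PadicInt.toZModPow n ((chi p σ : ℤ_[p]ˣ) : ℤ_[p]) = (k : ZMod (p ^ n)) := by
  obtain ⟨ζ, hζ⟩ := HasEnoughRootsOfUnity.exists_primitiveRoot (AlgebraicClosure ℚ) (p ^ n)
  have h1 := chi_spec p σ n ζ hζ.pow_eq_one
  rw [h ζ hζ.pow_eq_one] at h1
  have hu : IsUnit ζ := hζ.isUnit (pow_ne_zero n (Fact.out : p.Prime).ne_zero)
  have h1' : hu.unit ^ k = hu.unit ^ ((PadicInt.toZModPow n ((chi p σ : ℤ_[p]ˣ) : ℤ_[p])).val) :=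
    Units.ext (by simpa using h1)
  have h2 := (pow_eq_pow_iff_modEq).mp h1'
  have h3 : orderOf hu.unit = p ^ n := by
    rw [← orderOf_units, IsUnit.unit_spec, ← hζ.eq_orderOf]
  rw [h3] at h2
  rw [(ZMod.natCast_eq_natCast_iff _ _ _).mpr h2, ZMod.natCast_zmod_val]

theorem chi_eq_natCast (σ : AlgebraicClosure ℚ ≃ₐ[ℚ] AlgebraicClosure ℚ) (k : ℕ)
    (h : ∀ n : ℕ, ∀ ζ : AlgebraicClosure ℚ, ζ ^ p ^ n = 1 → σ ζ = ζ ^ k) :
    ((chi p σ : ℤ_[p]ˣ) : ℤ_[p]) = (k : ℤ_[p]) := by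
  refine PadicInt.ext_of_toZModPow.mp fun n => ?_
  rw [toZModPow_chi_eq p σ n k (h n), map_natCast]

end Char

section Val

variable {L : Type*} [Field L] (A : ValuationSubring L)

theorem mem_of_pow_eq_one {ζ : L} {m : ℕ} (hm : 0 < m) (h : ζ ^ m = 1) : ζ ∈ A := by
  rcases A.mem_or_inv_mem ζ with h1 | h1
  · exact h1
  · have h2 : ζ ^ (m - 1) * ζ = 1 := by
      rw [← pow_succ, Nat.sub_add_cancel hm, h]
    have h3 : ζ = (ζ⁻¹) ^ (m - 1) := by
      rw [inv_pow]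
      exact eq_inv_of_mul_eq_one_right h2
    rw [h3]
    exact pow_mem h1 _

/-- Roots of unity of `p`-power order are distinct modulo a valuation ring of residue
characteristic `q ≠ p`. -/
theorem eq_one_of_sub_one_mem_nonunits {p q : ℕ} (hp : p.Prime) (hq : q.Prime) (hpq : q ≠ p)
    (hA : A.LiesOverPrime q) {η : L} {n : ℕ} (hη : η ^ p ^ n = 1) (h : η - 1 ∈ A.nonunits) :
    η = 1 := by
  by_contra hne
  have hN : 0 < p ^ n := pow_pos hp.pos n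
  have hηA : η ∈ A := mem_of_pow_eq_one A hN hη
  -- the geometric sum vanishes
  have hS : ∑ i ∈ Finset.range (p ^ n), η ^ i = 0 := by
    have h1 := mul_geom_sum η (p ^ n)
    rw [hη, sub_self] at h1
    rcases mul_eq_zero.mp h1 with h2 | h2
    · exact absurd (sub_eq_zero.mp h2) hne
    · exact h2
  -- residue of η is 1
  have hres : IsLocalRing.residue A (⟨η, hηA⟩ : A) = 1 := by
    rw [← map_one (IsLocalRing.residue A), ← sub_eq_zero, ← map_sub,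
      IsLocalRing.residue_eq_zero_iff, ← ValuationSubring.coe_mem_nonunits_iff]
    exact h
  have hS' : ∑ i ∈ Finset.range (p ^ n), (⟨η, hηA⟩ : A) ^ i = 0 := by
    apply Subtype.ext
    simpa using hS
  have h3 : ((p ^ n : ℕ) : IsLocalRing.ResidueField A) = 0 := by
    have h4 := congrArg (IsLocalRing.residue A) hS'
    rw [map_sum, map_zero] at h4
    simp only [map_pow, hres, one_pow, Finset.sum_const, Finset.card_range, nsmul_eq_mul,
      mul_one] at h4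
    exact h4
  have hpk : ((p : ℕ) : IsLocalRing.ResidueField A) = 0 := by
    rw [Nat.cast_pow] at h3
    exact pow_eq_zero_iff (n := n) (fun hn => by simp [hn] at h3) |>.mp h3
  have hqk : ((q : ℕ) : IsLocalRing.ResidueField A) = 0 := by
    have hq' : ((q : ℕ) : L) ∈ A.nonunits := hA
    have : ((q : A) : L) ∈ A.nonunits := by simpa using hq'
    rw [ValuationSubring.coe_mem_nonunits_iff, ← IsLocalRing.residue_eq_zero_iff] at this
    simpa using this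
  have hcop : IsCoprime (p : ℤ) (q : ℤ) :=
    Nat.isCoprime_iff_coprime.mpr ((Nat.coprime_primes hp hq).mpr (Ne.symm hpq))
  obtain ⟨a, b, hab⟩ := hcop
  have h5 := congrArg (Int.cast : ℤ → IsLocalRing.ResidueField A) hab
  push_cast at h5
  rw [hpk, hqk, mul_zero, mul_zero, add_zero] at h5
  exact zero_ne_one h5

end Val

section Roots

variable (p : ℕ) [Fact p.Prime]

theorem eq_of_sub_mem_nonunits {q : ℕ} (hq : q.Prime) (hpq : q ≠ p)
    (A : ValuationSubring (AlgebraicClosure ℚ)) (hA : A.LiesOverPrime q)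
    {x y : AlgebraicClosure ℚ} {n : ℕ} (hx : x ^ p ^ n = 1) (hy : y ^ p ^ n = 1)
    (h : x - y ∈ A.nonunits) : x = y := by
  have hp : p.Prime := Fact.out
  have hy0 : y ≠ 0 := by
    rintro rfl
    rw [zero_pow (pow_pos hp.pos n).ne'] at hy
    exact zero_ne_one hy
  have hyi : (y⁻¹) ^ p ^ n = 1 := by rw [inv_pow, hy, inv_one]
  have hyiA : y⁻¹ ∈ A := mem_of_pow_eq_one A (pow_pos hp.pos n) hyi
  have h1 : x * y⁻¹ - 1 ∈ A.nonunits := by
    have e : x * y⁻¹ - 1 = (x - y) * y⁻¹ := by field_simp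
    rw [e, ValuationSubring.mem_nonunits_iff, map_mul]
    calc A.valuation (x - y) * A.valuation y⁻¹ ≤ A.valuation (x - y) * 1 :=
          mul_le_mul' le_rfl ((A.valuation_le_one_iff _).mpr hyiA)
      _ = A.valuation (x - y) := mul_one _
      _ < 1 := (A.mem_nonunits_iff).mp h
  have h2 : x * y⁻¹ = 1 :=
    eq_one_of_sub_one_mem_nonunits A hp hq hpq hA (n := n) (by rw [mul_pow, hx, hyi, one_mul]) h1
  field_simp at h2
  exact h2

theorem frobenius_apply_root {ℓ : ℕ} (hℓ : ℓ.Prime) (hℓp : ℓ ≠ p)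
    (A : ValuationSubring (AlgebraicClosure ℚ)) (hA : A.LiesOverPrime ℓ)
    (σ : AlgebraicClosure ℚ ≃ₐ[ℚ] AlgebraicClosure ℚ) (hσ : A.IsFrobeniusAt σ ℓ)
    {ζ : AlgebraicClosure ℚ} {n : ℕ} (hζ : ζ ^ p ^ n = 1) : σ ζ = ζ ^ ℓ := by
  have hp : p.Prime := Fact.out
  obtain ⟨hd, hx⟩ := hσ
  have hζA : ζ ∈ A := mem_of_pow_eq_one A (pow_pos hp.pos n) hζ
  have h1 := hx (IsLocalRing.residue A ⟨ζ, hζA⟩)
  rw [← IsLocalRing.ResidueField.residue_smul, ← map_pow, ← sub_eq_zero, ← map_sub,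
    IsLocalRing.residue_eq_zero_iff, ← ValuationSubring.coe_mem_nonunits_iff] at h1
  refine eq_of_sub_mem_nonunits p hℓ hℓp A hA (n := n) ?_ ?_ h1
  · rw [← map_pow, hζ, map_one]
  · rw [← pow_mul, mul_comm, pow_mul, hζ, one_pow]

theorem inertia_apply_root {q : ℕ} (hq : q.Prime) (hqp : q ≠ p)
    (P : ValuationSubring (AlgebraicClosure ℚ)) (hP : P.LiesOverPrime q)
    (σ : AlgebraicClosure ℚ ≃ₐ[ℚ] AlgebraicClosure ℚ) (hσ : σ ∈ P.inertiaSubgroupIn ℚ)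
    {ζ : AlgebraicClosure ℚ} {n : ℕ} (hζ : ζ ^ p ^ n = 1) : σ ζ = ζ := by
  have hp : p.Prime := Fact.out
  obtain ⟨τ, hτ, rfl⟩ := hσ
  have hζA : ζ ∈ P := mem_of_pow_eq_one P (pow_pos hp.pos n) hζ
  have h0 : τ • (IsLocalRing.residue P ⟨ζ, hζA⟩) = IsLocalRing.residue P ⟨ζ, hζA⟩ :=
    congrArg (fun f : RingAut (IsLocalRing.ResidueField P) => f (IsLocalRing.residue P ⟨ζ, hζA⟩))
      (MonoidHom.mem_ker.mp hτ)
  rw [← IsLocalRing.ResidueField.residue_smul, ← sub_eq_zero, ← map_sub,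
    IsLocalRing.residue_eq_zero_iff, ← ValuationSubring.coe_mem_nonunits_iff] at h0
  refine eq_of_sub_mem_nonunits p hq hqp P hP (n := n) ?_ hζ h0
  rw [← map_pow]
  exact (congrArg _ hζ).trans (map_one _)

theorem complexConjugation_apply_root {ζ : AlgebraicClosure ℚ} {m : ℕ} (hm : 0 < m)
    (hζ : ζ ^ m = 1) : complexConjugation ζ = ζ⁻¹ := by
  apply complexEmbedding.toRingHom.injective
  show complexEmbedding (complexConjugation ζ) = complexEmbedding ζ⁻¹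
  rw [complexEmbedding_complexConjugation, map_inv₀]
  have hz : (complexEmbedding ζ) ^ m = 1 := by rw [← map_pow, hζ, map_one]
  have hnorm : ‖complexEmbedding ζ‖ = 1 := Complex.norm_eq_one_of_pow_eq_one hz hm.ne'
  exact (Complex.inv_eq_conj hnorm).symm

end Roots

section Main

variable (p : ℕ) [Fact p.Prime]

theorem chi_frobenius {ℓ : ℕ} (hℓ : ℓ.Prime) (hℓp : ℓ ≠ p)
    (A : ValuationSubring (AlgebraicClosure ℚ)) (hA : A.LiesOverPrime ℓ)
    (σ : AlgebraicClosure ℚ ≃ₐ[ℚ] AlgebraicClosure ℚ) (hσ : A.IsFrobeniusAt σ ℓ) :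
    ((chi p σ : ℤ_[p]ˣ) : ℤ_[p]) = (ℓ : ℤ_[p]) :=
  chi_eq_natCast p σ ℓ fun _ _ hζ => frobenius_apply_root p hℓ hℓp A hA σ hσ hζ

theorem chi_inertia {q : ℕ} (hq : q.Prime) (hqp : q ≠ p)
    (P : ValuationSubring (AlgebraicClosure ℚ)) (hP : P.LiesOverPrime q)
    (σ : AlgebraicClosure ℚ ≃ₐ[ℚ] AlgebraicClosure ℚ) (hσ : σ ∈ P.inertiaSubgroupIn ℚ) :
    chi p σ = 1 := by
  apply Units.ext
  have h := chi_eq_natCast p σ 1 fun _ ζ hζ => by
    rw [pow_one]; exact inertia_apply_root p hq hqp P hP σ hσ hζ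
  rw [h]; simp

theorem chi_complexConjugation : chi p complexConjugation = -1 := by
  have hp : p.Prime := Fact.out
  apply Units.ext
  refine PadicInt.ext_of_toZModPow.mp fun n => ?_
  rw [toZModPow_chi_eq p complexConjugation n (p ^ n - 1) (fun ζ hζ => by
    rw [complexConjugation_apply_root (pow_pos hp.pos n) hζ]
    have h1 : ζ ^ (p ^ n - 1) * ζ = 1 := by
      rw [← pow_succ, Nat.sub_add_cancel (pow_pos hp.pos n), hζ]
    exact (eq_inv_of_mul_eq_one_left h1).symm)]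
  rw [Nat.cast_sub (pow_pos hp.pos n), Nat.cast_one]
  simp

/-- If `σ` fixes a primitive `p ^ n`-th root of unity then `chi σ ≡ 1` modulo `p ^ n`. -/
theorem chi_sub_one_mem (σ : AlgebraicClosure ℚ ≃ₐ[ℚ] AlgebraicClosure ℚ) (n : ℕ)
    {ζ : AlgebraicClosure ℚ} (hζ : IsPrimitiveRoot ζ (p ^ n)) (hσ : σ ζ = ζ) :
    ∃ y : ℤ_[p], ((chi p σ : ℤ_[p]ˣ) : ℤ_[p]) - 1 = (p : ℤ_[p]) ^ n * y := by
  have hp : p.Prime := Fact.out
  have : NeZero (p ^ n) := ⟨(pow_pos hp.pos n).ne'⟩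
  have h1 : PadicInt.toZModPow n ((chi p σ : ℤ_[p]ˣ) : ℤ_[p]) = ((1 : ℕ) : ZMod (p ^ n)) := by
    refine toZModPow_chi_eq p σ n 1 fun ξ hξ => ?_
    obtain ⟨i, -, rfl⟩ := hζ.eq_pow_of_pow_eq_one hξ
    rw [map_pow, hσ, pow_one]
  have h2 : ((chi p σ : ℤ_[p]ˣ) : ℤ_[p]) - 1 ∈ RingHom.ker (PadicInt.toZModPow (p := p) n) := by
    rw [RingHom.mem_ker, map_sub, h1, map_one, Nat.cast_one, sub_self]
  rw [PadicInt.ker_toZModPow, Ideal.mem_span_singleton] at h2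
  obtain ⟨y, hy⟩ := h2
  exact ⟨y, hy⟩

/-- **CYCLO**: the cyclotomic character with values in any complete local ring of residue
characteristic `p`. -/
theorem exists_cyclotomicCharacter (𝒪 : Type) [CommRing 𝒪] [IsLocalRing 𝒪]
    [IsAdicComplete (IsLocalRing.maximalIdeal 𝒪) 𝒪] (hp𝒪 : (p : 𝒪) ∈ IsLocalRing.maximalIdeal 𝒪) :
    ∃ ε : (AlgebraicClosure ℚ ≃ₐ[ℚ] AlgebraicClosure ℚ) →* 𝒪ˣ,
      (∀ n : ℕ, ∃ L : IntermediateField ℚ (AlgebraicClosure ℚ), FiniteDimensional ℚ L ∧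
        ∀ σ : AlgebraicClosure ℚ ≃ₐ[ℚ] AlgebraicClosure ℚ, (∀ x ∈ L, σ x = x) →
          ((ε σ : 𝒪ˣ) : 𝒪) - 1 ∈ IsLocalRing.maximalIdeal 𝒪 ^ n) ∧
      (∀ ℓ : ℕ, ℓ.Prime → ℓ ≠ p → ∀ A : ValuationSubring (AlgebraicClosure ℚ),
        A.LiesOverPrime ℓ → ∀ σ : AlgebraicClosure ℚ ≃ₐ[ℚ] AlgebraicClosure ℚ,
          A.IsFrobeniusAt σ ℓ → ((ε σ : 𝒪ˣ) : 𝒪) = (ℓ : 𝒪)) ∧
      (∀ q : ℕ, q.Prime → q ≠ p → ∀ P : ValuationSubring (AlgebraicClosure ℚ),
        P.LiesOverPrime q → ∀ σ ∈ P.inertiaSubgroupIn ℚ, ε σ = 1) ∧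
      ε complexConjugation = -1 := by
  have hp : p.Prime := Fact.out
  obtain ⟨ι⟩ := exists_padicInt_ringHom p 𝒪 hp𝒪
  refine ⟨(Units.map ι.toMonoidHom).comp (chi p), ?_, ?_, ?_, ?_⟩
  · intro n
    obtain ⟨ζ, hζ⟩ := HasEnoughRootsOfUnity.exists_primitiveRoot (AlgebraicClosure ℚ) (p ^ n)
    have hint : IsIntegral ℚ ζ :=
      IsIntegral.of_pow (pow_pos hp.pos n) (by rw [hζ.pow_eq_one]; exact isIntegral_one)
    refine ⟨IntermediateField.adjoin ℚ {ζ}, IntermediateField.adjoin.finiteDimensional hint, ?_⟩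
    intro σ hσ
    obtain ⟨y, hy⟩ := chi_sub_one_mem p σ n hζ
      (hσ ζ (IntermediateField.mem_adjoin_simple_self ℚ ζ))
    have h1 : ((((Units.map ι.toMonoidHom).comp (chi p)) σ : 𝒪ˣ) : 𝒪) - 1 = (p : 𝒪) ^ n * ι y := by
      have := congrArg ι hy
      rw [map_sub, map_one, map_mul, map_pow, map_natCast] at this
      exact this
    rw [h1]
    exact Ideal.mul_mem_right _ _ (Ideal.pow_mem_pow hp𝒪 n)
  · intro ℓ hℓ hℓp A hA σ hσ
    have h1 := congrArg ι (chi_frobenius p hℓ hℓp A hA σ hσ)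
    rw [map_natCast] at h1
    exact h1
  · intro q hq hqp P hP σ hσ
    rw [MonoidHom.comp_apply, chi_inertia p hq hqp P hP σ hσ, map_one]
  · rw [MonoidHom.comp_apply, chi_complexConjugation p]
    apply Units.ext
    simp

end Main

end Fermat.Agent.S30.Cyclo474
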