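import Fermat.Statements.S30

/-!
# S30 endgame interface (helper8380): the abstract "eigen-lattice" that the geometric side
must provide, and the purely algebraic statement that turns it into the Galois representation.
-/

set_option autoImplicit false
open Polynomial

namespace Fermat.Agent.S30

/-- Abstract output of the geometric side for an eigen-system `a` (only the values `a ℓ` at primes
`ℓ ∉ S`, `ℓ ∤ N` matter): a NONZERO finite free `𝒪`-module with an adic-continuous Galois action,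
unramified outside `N p`, on which every Frobenius element `σ` at `ℓ` satisfies
`σ² - a_ℓ σ + ℓ = 0`.  No rank condition, no irreducibility, no determinant. -/
structure EigenLattice (p N : ℕ) (S : Finset ℕ) (𝒪 : Type) [CommRing 𝒪] [IsLocalRing 𝒪]
    (a : ℕ → 𝒪) : Type 1 where
  Λ : Type
  [instAddCommGroup : AddCommGroup Λ]
  [instModule : Module 𝒪 Λ]
  [instFree : Module.Free 𝒪 Λ]
  [instFinite : Module.Finite 𝒪 Λ]
  [instNontrivial : Nontrivial Λ]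
  ρ : (AlgebraicClosure ℚ ≃ₐ[ℚ] AlgebraicClosure ℚ) →* Module.End 𝒪 Λ
  cont : GaloisActionIsAdicContinuous 𝒪 ρ
  frob : ∀ ℓ : ℕ, ℓ.Prime → ¬ ℓ ∣ N → ℓ ∉ S →
    ∀ A : ValuationSubring (AlgebraicClosure ℚ), A.LiesOverPrime ℓ →
      ∀ σ : AlgebraicClosure ℚ ≃ₐ[ℚ] AlgebraicClosure ℚ, A.IsFrobeniusAt σ ℓ →
        ρ σ * ρ σ - a ℓ • ρ σ + (ℓ : 𝒪) • (1 : Module.End 𝒪 Λ) = 0
  unram : ∀ q : ℕ, q.Prime → ¬ q ∣ N → q ≠ p →
    ∀ P : ValuationSubring (AlgebraicClosure ℚ), P.LiesOverPrime q →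
      ∀ σ ∈ P.inertiaSubgroupIn ℚ, ρ σ = 1

attribute [instance] EigenLattice.instAddCommGroup EigenLattice.instModule
  EigenLattice.instFree EigenLattice.instFinite EigenLattice.instNontrivial

/-- The eigen-system of a point `χ` of the Hecke algebra, as a function on all naturals
(zero outside the good primes). -/
noncomputable def eigenSystem {N : ℕ} [NeZero N] {S : Finset ℕ} {𝒪 : Type} [CommRing 𝒪]
    (χ : CuspForm.heckeAlgebra N 2 (↑S : Set ℕ) →+* 𝒪) (ℓ : ℕ) : 𝒪 :=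
  open Classical in
  if h : ℓ.Prime ∧ ¬ ℓ ∣ N ∧ ℓ ∉ (↑S : Set ℕ) then
    χ (CuspForm.heckeAlgebra.T h.1 h.2.1 h.2.2) else 0

theorem eigenSystem_apply {N : ℕ} [NeZero N] {S : Finset ℕ} {𝒪 : Type} [CommRing 𝒪]
    (χ : CuspForm.heckeAlgebra N 2 (↑S : Set ℕ) →+* 𝒪) {ℓ : ℕ} (hℓ : ℓ.Prime) (hℓN : ¬ ℓ ∣ N)
    (hℓS : ℓ ∉ (↑S : Set ℕ)) :
    eigenSystem χ ℓ = χ (CuspForm.heckeAlgebra.T hℓ hℓN hℓS) := by
  unfold eigenSystem
  rw [dif_pos ⟨hℓ, hℓN, hℓS⟩]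

/-- The conclusion of S30 for an abstract eigen-system `a : ℕ → 𝒪'`. -/
def Conclusion (p N : ℕ) (S : Finset ℕ) (𝒪' : Type) [CommRing 𝒪'] (a : ℕ → 𝒪') : Prop :=
  ∃ (𝒪'' : Type) (_ : CommRing 𝒪'') (_ : IsDomain 𝒪'') (_ : IsDiscreteValuationRing 𝒪'')
    (_ : IsAdicComplete (IsLocalRing.maximalIdeal 𝒪'') 𝒪'')
    (_ : Finite (IsLocalRing.ResidueField 𝒪'')) (_ : CharZero 𝒪'')
    (_ : Algebra 𝒪' 𝒪'') (_ : Module.Finite 𝒪' 𝒪'') (_ : IsLocalHom (algebraMap 𝒪' 𝒪'')),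
  Function.Injective (algebraMap 𝒪' 𝒪'') ∧
  ∃ ρ : GaloisRepAdic 𝒪'',
    (∀ (ℓ : ℕ), ℓ.Prime → ¬ ℓ ∣ N → ℓ ∉ (↑S : Set ℕ) →
      ∀ A : ValuationSubring (AlgebraicClosure ℚ), A.LiesOverPrime ℓ →
        ∀ σ : AlgebraicClosure ℚ ≃ₐ[ℚ] AlgebraicClosure ℚ, A.IsFrobeniusAt σ ℓ →
          LinearMap.charpoly (ρ.ρ σ) =
            X ^ 2 - C (algebraMap 𝒪' 𝒪'' (a ℓ)) * X + C ((ℓ : 𝒪''))) ∧
    (∀ q : ℕ, q.Prime → ¬ q ∣ N → q ≠ p → ρ.IsUnramifiedAt q)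

end Fermat.Agent.S30
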