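import Fermat.Agent.S20

/-!
# GALREP, package GEN, step 3 (helper3774): `dim M₁₂(Γ₀(N)) + dim S₂(Γ₀(N)) = [SL(2,ℤ) : Γ₀(N)] + 1`

Read off the landed S20 free-basis data (`⨁ M_k(Γ₀(N))` is free over level one forms with
generators of weights `0 ≤ wt ≤ 10`, exactly one of weight `0`, `#{wt = 10} = dim S₂`,
`#generators = [SL(2,ℤ) : Γ₀(N)]`).  Used for `genusFF (ℚ̄(X₀(N))) ≥ dim S₂(Γ₀(N))`
(Riemann's inequality for the pole divisor of `j`), which closes the `genusFF` versus
`dim S₂` interface gap of the S27-count route for the rank of the Tate module.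
-/

set_option autoImplicit false

open UpperHalfPlane ModularForm Filter Topology
open scoped MatrixGroups ModularForm Manifold

namespace Fermat.Agent.S30.Gen

open Fermat.Agent.S20

/-- level one dimensions in weights `12 - w`, `w ∈ {0,2,…,10}` -/
theorem finrank_levelOne_twelve_sub (w : ℤ) (h0 : 0 ≤ w) (h10 : w ≤ 10) (hev : Even w) :
    Module.finrank ℂ (ModularForm 𝒮ℒ (12 - w)) =
      1 + (if w = 0 then 1 else 0) - (if w = 10 then 1 else 0) := by
  obtain ⟨r, hr⟩ := hev
  have hr0 : 0 ≤ r := by omega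
  have hr5 : r ≤ 5 := by omega
  have hw : w = 0 ∨ w = 2 ∨ w = 4 ∨ w = 6 ∨ w = 8 ∨ w = 10 := by omega
  rcases hw with rfl | rfl | rfl | rfl | rfl | rfl
  · simpa using Bdry.finrank_levelOne_twelve
  · simpa using Bdry.finrank_levelOne_ten
  · simpa using Bdry.finrank_levelOne_eight
  · simpa using Bdry.finrank_levelOne_six
  · simpa using Bdry.finrank_levelOne_four
  · simpa using Bdry.finrank_levelOne_two

section core

variable {N : ℕ} [NeZero N] {ι : Type} [Fintype ι] [DecidableEq ι] (wt : ι → ℤ)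
  (F : (i : ι) → ModularForm (G0 N) (wt i))

theorem finrank_twelve_add_of
    (span : ∀ (k : ℤ) (f : ModularForm (G0 N) k),
      ∃ r : (i : ι) → ModularForm 𝒮ℒ (k - wt i), ∀ z, f z = ∑ i, r i z * F i z)
    (indep : ∀ (k : ℤ) (r : (i : ι) → ModularForm 𝒮ℒ (k - wt i)),
      (∀ z, ∑ i, r i z * F i z = 0) → ∀ i, r i = 0) :
    Module.finrank ℂ (ModularForm (G0 N) 12) + Module.finrank ℂ (CuspForm (G0 N) 2)
      = Nat.card (Q N) + 1 := by
  have hnn : ∀ i, 0 ≤ wt i := wt_nonneg_of_indep N wt F indep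
  have hev : ∀ i, Even (wt i) := wt_even_of_indep N wt F indep
  have h0 : Nat.card {i : ι // wt i = 0} = 1 := card_wt_zero_of_basis N wt F span indep
  have hle : Fintype.card ι ≤ Nat.card (Q N) := card_le_of_indep N wt F indep
  have hsep : ∀ g : SL(2, ℤ), (sepForm N : ℍ → ℂ) ∣[(4 : ℤ)] g = sepForm N →
      g ∈ CongruenceSubgroup.Gamma0 N := mem_Gamma0_of_sepForm_slash N
  have hcard : Fintype.card ι = Nat.card (Q N) :=
    RankInv.card_eq_of_le wt F span (sepForm N) hsep hle
  have hinv : ∀ z : ℍ, ∃ H : Matrix ι (Q N) ℂ,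
      H * RankInv.fundM wt F z = 1 ∧ RankInv.fundM wt F z * H = 1 :=
    RankInv.exists_inverse wt F span (sepForm N) hsep hcard
  choose H hH1 hH2 using hinv
  have hzero : ∀ i x, Tendsto (fun z => ModularForm.discriminant z * H z i x) atImInfty (𝓝 0) :=
    Cusp.tendsto_discriminant_mul_inv wt F (fun i => ⟨hnn i, hev i⟩) span indep hcard H hH2
  have h10 : ∀ i, wt i ≤ 10 := Dual.wt_le_of_inverse (wt := wt) (F := F) (H := H) hH1 hH2 hzero hev
  have hS : ∀ k : ℤ, Module.finrank ℂ (CuspForm (G0 N) k)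
      = ∑ i, Module.finrank ℂ (ModularForm 𝒮ℒ (k + wt i - 12)) :=
    Dual.finrank_cuspForm_of_inverse (wt := wt) (F := F) (H := H) hH1 hH2 hzero
  have hM : ∀ k : ℤ, Module.finrank ℂ (ModularForm (G0 N) k)
      = ∑ i, Module.finrank ℂ (ModularForm 𝒮ℒ (k - wt i)) :=
    finrank_eq_sum_of_basis N wt F span indep
  have hS2 : Module.finrank ℂ (CuspForm (G0 N) 2) = Nat.card {i : ι // wt i = 10} := by
    rw [hS 2, Bdry.natCard_subtype_eq_sum wt 10]
    exact Finset.sum_congr rfl fun i _ => finrank_levelOne_sub_ten (wt i) (hnn i) (h10 i)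
  have h0' : (∑ i, (if wt i = 0 then 1 else 0 : ℕ)) = 1 := by
    rw [← Bdry.natCard_subtype_eq_sum wt 0, h0]
  have h10' : (∑ i, (if wt i = 10 then 1 else 0 : ℕ)) = Module.finrank ℂ (CuspForm (G0 N) 2) := by
    rw [hS2, Bdry.natCard_subtype_eq_sum wt 10]
  have key : ∀ i, Module.finrank ℂ (ModularForm 𝒮ℒ (12 - wt i)) + (if wt i = 10 then 1 else 0)
      = 1 + (if wt i = 0 then 1 else 0) := by
    intro i
    rw [finrank_levelOne_twelve_sub (wt i) (hnn i) (h10 i) (hev i)]
    by_cases ha : wt i = 0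
    · have hb : wt i ≠ 10 := by omega
      simp [ha]
    · by_cases hb : wt i = 10
      · simp [hb]
      · simp [ha, hb]
  rw [hM 12, ← h10', ← Finset.sum_add_distrib, Finset.sum_congr rfl fun i _ => key i,
    Finset.sum_add_distrib, h0', Finset.sum_const, Finset.card_univ, hcard]
  simp

end core

/-- `dim M₁₂(Γ₀(N)) + dim S₂(Γ₀(N)) = [SL(2,ℤ) : Γ₀(N)] + 1`. -/
theorem finrank_twelve_add (N : ℕ) [NeZero N] :
    Module.finrank ℂ (ModularForm (G0 N) 12) + Module.finrank ℂ (CuspForm (G0 N) 2)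
      = Nat.card (Q N) + 1 := by
  classical
  obtain ⟨ι, hι, wt, F, span, indep⟩ := FreeGen.exists_freeBasis_data N
  exact finrank_twelve_add_of wt F span indep

end Fermat.Agent.S30.Gen
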