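import Mathlib

/-!
# GALREP / S30 toolbox: holomorphic `n`-th roots on the upper half plane (helper2034)

Mathlib only.  Main results:

* `HoloRoot.exists_root_ball_of_ne_zero` : a zero-free holomorphic function on a disc has a
  holomorphic `n`-th root.
* `HoloRoot.exists_root_ball` : a holomorphic function on an open set `U`, not locally zero, all of
  whose zero orders are divisible by `n`, has a holomorphic `n`-th root on every disc whose closure
  lies in `U`.
* `HoloRoot.root_unique_ball` : two roots on a disc differ by an `n`-th root of unity.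
* `HoloRoot.exists_root_upperHalfPlaneSet` : a holomorphic function on `{z | 0 < z.im}`, not
  identically zero, all of whose zero orders are divisible by `n`, has a holomorphic `n`-th root there
  (exhaustion by discs, glueing by roots of unity).
* `HoloRoot.exists_root_mdiff` : the same for `f : ℍ → ℂ` with `MDiff f`.
-/

set_option autoImplicit false

open Complex Metric Set Filter Topology

namespace Fermat.Agent.S30.HoloRoot

/-! ### Equality on a codiscrete set of continuous functions -/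

theorem eqOn_of_eventuallyEq_codiscreteWithin {U : Set ℂ} (hU : IsOpen U) {f g : ℂ → ℂ}
    (hf : ContinuousOn f U) (hg : ContinuousOn g U) (h : f =ᶠ[codiscreteWithin U] g) :
    EqOn f g U := by
  intro x hx
  have h1 : {y | f y = g y} ∈ codiscreteWithin U := h
  rw [mem_codiscreteWithin] at h1
  have h2 := h1 x hx
  rw [Filter.disjoint_principal_right] at h2
  have h3 : ∀ᶠ y in 𝓝[≠] x, f y = g y := by
    have hUx : ∀ᶠ y in 𝓝[≠] x, y ∈ U := nhdsWithin_le_nhds (hU.mem_nhds hx)
    filter_upwards [h2, hUx] with y hy hyU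
    by_contra hne
    exact hy ⟨hyU, hne⟩
  have hfx : Tendsto f (𝓝[≠] x) (𝓝 (f x)) :=
    ((hf.continuousAt (hU.mem_nhds hx)).tendsto).mono_left nhdsWithin_le_nhds
  have hgx : Tendsto g (𝓝[≠] x) (𝓝 (g x)) :=
    ((hg.continuousAt (hU.mem_nhds hx)).tendsto).mono_left nhdsWithin_le_nhds
  exact tendsto_nhds_unique (hfx.congr' h3) hgx

/-! ### Roots of zero-free functions on a disc -/

theorem exists_root_ball_of_ne_zero {c : ℂ} {r : ℝ} {g : ℂ → ℂ}
    (hg : DifferentiableOn ℂ g (ball c r)) (hg0 : ∀ z ∈ ball c r, g z ≠ 0) {n : ℕ} (hn : n ≠ 0) :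
    ∃ k : ℂ → ℂ, DifferentiableOn ℂ k (ball c r) ∧ ∀ z ∈ ball c r, k z ^ n = g z := by
  by_cases hne : (ball c r).Nonempty
  swap
  · refine ⟨g, hg, fun z hz => absurd ⟨z, hz⟩ hne⟩
  obtain ⟨z₀, hz₀⟩ := hne
  have hdg : DifferentiableOn ℂ (deriv g) (ball c r) :=
    (hg.analyticOnNhd isOpen_ball).deriv.differentiableOn
  have hq : DifferentiableOn ℂ (fun z => deriv g z / g z) (ball c r) := hdg.div hg hg0
  obtain ⟨L, hL⟩ := hq.isExactOn_ball
  -- `g * exp (-L)` is constant
  have hφ : DifferentiableOn ℂ (fun z => g z * Complex.exp (-L z)) (ball c r) := by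
    intro z hz
    have h1 : DifferentiableAt ℂ g z := hg.differentiableAt (isOpen_ball.mem_nhds hz)
    have h2 : DifferentiableAt ℂ L z := (hL z hz).differentiableAt
    exact (h1.mul (h2.neg.cexp)).differentiableWithinAt
  have hφ' : (ball c r).EqOn (deriv (fun z => g z * Complex.exp (-L z))) 0 := by
    intro z hz
    have h1 : HasDerivAt g (deriv g z) z :=
      (hg.differentiableAt (isOpen_ball.mem_nhds hz)).hasDerivAt
    have h2 : HasDerivAt L (deriv g z / g z) z := hL z hz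
    have h3 : HasDerivAt (fun z => Complex.exp (-L z))
        (Complex.exp (-L z) * (-(deriv g z / g z))) z := h2.neg.cexp
    have h4 : HasDerivAt (fun z => g z * Complex.exp (-L z))
        (deriv g z * Complex.exp (-L z) + g z * (Complex.exp (-L z) * -(deriv g z / g z))) z :=
      h1.mul h3
    rw [h4.deriv]
    have := hg0 z hz
    simp only [Pi.zero_apply]
    field_simp
    ring
  have hconst : ∀ z ∈ ball c r, g z * Complex.exp (-L z) = g z₀ * Complex.exp (-L z₀) :=
    fun z hz => isOpen_ball.is_const_of_deriv_eq_zero (convex_ball c r).isPreconnected hφ hφ' hz hz₀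
  set C : ℂ := g z₀ * Complex.exp (-L z₀) with hC
  have hC0 : C ≠ 0 := mul_ne_zero (hg0 z₀ hz₀) (Complex.exp_ne_zero _)
  have hgC : ∀ z ∈ ball c r, g z = C * Complex.exp (L z) := by
    intro z hz
    have := hconst z hz
    rw [← this, mul_assoc, ← Complex.exp_add]
    simp
  obtain ⟨w, hw⟩ : ∃ w : ℂ, w ^ n = C := ⟨Complex.exp (Complex.log C / n), by
    rw [← Complex.exp_nat_mul, mul_div_cancel₀ _ (Nat.cast_ne_zero.mpr hn), Complex.exp_log hC0]⟩
  refine ⟨fun z => w * Complex.exp (L z / n), ?_, ?_⟩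
  · intro z hz
    have h2 : DifferentiableAt ℂ L z := (hL z hz).differentiableAt
    exact ((h2.div_const _).cexp.const_mul w).differentiableWithinAt
  · intro z hz
    rw [mul_pow, hw, ← Complex.exp_nat_mul, mul_div_cancel₀ _ (Nat.cast_ne_zero.mpr hn), hgC z hz]

/-! ### Roots on a disc in the presence of zeros -/

theorem exists_root_ball {U : Set ℂ} (hU : IsOpen U) {f : ℂ → ℂ} (hf : DifferentiableOn ℂ f U)
    (hnt : ∀ z ∈ U, analyticOrderAt f z ≠ ⊤) {n : ℕ} (hn : n ≠ 0)
    (hord : ∀ z ∈ U, n ∣ analyticOrderNatAt f z) {c : ℂ} {r : ℝ} (hcr : closedBall c r ⊆ U) :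
    ∃ k : ℂ → ℂ, DifferentiableOn ℂ k (ball c r) ∧ ∀ z ∈ ball c r, k z ^ n = f z := by
  classical
  have hfa : AnalyticOnNhd ℂ f U := hf.analyticOnNhd hU
  have hfm : MeromorphicOn f (closedBall c r) := fun z hz => (hfa z (hcr hz)).meromorphicAt
  have hBU : ball c r ⊆ U := ball_subset_closedBall.trans hcr
  have hfmB : MeromorphicOn f (ball c r) := fun z hz => hfm z (ball_subset_closedBall hz)
  have hfin : (MeromorphicOn.divisor f (ball c r)).support.Finite :=
    MeromorphicOn.divisor_ball_support_finite hfm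
  have hordZ : ∀ u ∈ ball c r, meromorphicOrderAt f u = ((analyticOrderNatAt f u : ℤ) : WithTop ℤ) := by
    intro u hu
    rw [(hfa u (hBU hu)).meromorphicOrderAt_eq]
    have h1 := hnt u (hBU hu)
    have h2 : analyticOrderAt f u = (analyticOrderNatAt f u : ℕ∞) :=
      (ENat.natCast_toNat h1).symm
    rw [h2]
    rfl
  have hne : ∀ u : ball c r, meromorphicOrderAt f u ≠ ⊤ := by
    intro u
    rw [hordZ u u.2]
    exact WithTop.coe_ne_top
  obtain ⟨g, hg, hg0, hfg⟩ := hfmB.extract_zeros_poles hne hfin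
  set D : ℂ → ℤ := fun u => MeromorphicOn.divisor f (ball c r) u with hD
  have hDval : ∀ u ∈ ball c r, D u = (analyticOrderNatAt f u : ℤ) := by
    intro u hu
    simp only [hD]
    rw [MeromorphicOn.divisor_apply hfmB hu, hordZ u hu]
    rfl
  have hDout : ∀ u, u ∉ ball c r → D u = 0 := by
    intro u hu
    simp only [hD]
    by_contra h
    exact hu ((MeromorphicOn.divisor f (ball c r)).supportWithinDomain h)
  -- the exponents divided by `n`
  set a : ℂ → ℤ := fun u => D u / n with ha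
  have hDa : ∀ u, D u = (n : ℤ) * a u := by
    intro u
    by_cases hu : u ∈ ball c r
    · have hdvd : (n : ℤ) ∣ D u := by
        rw [hDval u hu]
        exact Int.natCast_dvd_natCast.mpr (hord u (hBU hu))
      simp only [ha]
      rw [Int.mul_ediv_cancel' hdvd]
    · simp [ha, hDout u hu]
  have ha0 : ∀ u, 0 ≤ a u := by
    intro u
    by_cases hu : u ∈ ball c r
    · simp only [ha]
      rw [hDval u hu]
      positivity
    · simp [ha, hDout u hu]
  have hDfin : D.HasFiniteSupport := hfin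
  have hafin : a.HasFiniteSupport := by
    refine hDfin.subset ?_
    intro u hu
    simp only [Function.mem_support, ne_eq] at hu ⊢
    intro h0
    apply hu
    simp [ha, h0]
  set P : ℂ → ℂ := ∏ᶠ u, (· - u) ^ a u with hP
  have hPan : ∀ x, AnalyticAt ℂ P x := fun x => Function.FactorizedRational.analyticAt (ha0 x)
  have hPD : ∀ x, (∏ᶠ u, (· - u) ^ D u : ℂ → ℂ) x = P x ^ n := by
    intro x
    rw [Function.FactorizedRational.finprod_eq_fun hDfin, hP,
      Function.FactorizedRational.finprod_eq_fun hafin]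
    simp only
    rw [finprod_pow]
    · refine finprod_congr fun u => ?_
      rw [hDa u, mul_comm, zpow_mul, zpow_natCast]
    · have hms : (fun u => (x - u) ^ a u).mulSupport ⊆ a.support := by
        intro u hu
        simp only [Function.mem_mulSupport, ne_eq] at hu
        simp only [Function.mem_support, ne_eq]
        intro h0
        apply hu
        simp [h0]
      exact hafin.subset hms
  have hgd : DifferentiableOn ℂ g (ball c r) := hg.differentiableOn
  have hPd : Differentiable ℂ P := fun x => (hPan x).differentiableAt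
  -- equality everywhere on the ball
  have heq : EqOn f (fun x => P x ^ n * g x) (ball c r) := by
    refine eqOn_of_eventuallyEq_codiscreteWithin isOpen_ball (hf.mono hBU).continuousOn
      (((hPd.pow n).continuous.continuousOn).mul hgd.continuousOn) ?_
    filter_upwards [hfg] with x hx
    rw [hx, Pi.smul_apply', smul_eq_mul, hPD x]
  obtain ⟨k0, hk0, hk0n⟩ := exists_root_ball_of_ne_zero hgd (fun z hz => hg0 ⟨z, hz⟩) hn
  refine ⟨fun z => P z * k0 z, hPd.differentiableOn.mul hk0, fun z hz => ?_⟩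
  rw [mul_pow, hk0n z hz, heq hz]

/-! ### Uniqueness of roots up to roots of unity -/

theorem root_unique_ball {c : ℂ} {r : ℝ} {f h1 h2 : ℂ → ℂ} {n : ℕ} (hn : n ≠ 0)
    (hh1 : DifferentiableOn ℂ h1 (ball c r)) (hh2 : DifferentiableOn ℂ h2 (ball c r))
    (h1n : ∀ z ∈ ball c r, h1 z ^ n = f z) (h2n : ∀ z ∈ ball c r, h2 z ^ n = f z)
    (hf0 : ∃ z ∈ ball c r, f z ≠ 0) :
    ∃ ζ : ℂ, ζ ^ n = 1 ∧ ∀ z ∈ ball c r, h2 z = ζ * h1 z := by
  obtain ⟨z₀, hz₀, hfz₀⟩ := hf0
  have h1z₀ : h1 z₀ ≠ 0 := by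
    intro h
    apply hfz₀
    rw [← h1n z₀ hz₀, h, zero_pow hn]
  refine ⟨h2 z₀ / h1 z₀, ?_, ?_⟩
  · rw [div_pow, h1n z₀ hz₀, h2n z₀ hz₀, div_self hfz₀]
  -- a small ball on which `h1` does not vanish
  have hcont : ContinuousAt h1 z₀ := (hh1.differentiableAt (isOpen_ball.mem_nhds hz₀)).continuousAt
  have hev : ∀ᶠ z in 𝓝 z₀, z ∈ ball c r ∧ h1 z ≠ 0 :=
    (eventually_mem_nhds_iff.mpr (isOpen_ball.mem_nhds hz₀)).mono (fun _ h => mem_of_mem_nhds h)
      |>.and (hcont.eventually_ne h1z₀)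
  obtain ⟨ε, hε, hball⟩ := Metric.eventually_nhds_iff_ball.mp hev
  have hsub : ball z₀ ε ⊆ ball c r := fun z hz => (hball z hz).1
  set w : ℂ → ℂ := fun z => h2 z / h1 z with hw
  have hwd : DifferentiableOn ℂ w (ball z₀ ε) :=
    (hh2.mono hsub).div (hh1.mono hsub) (fun z hz => (hball z hz).2)
  have hwn : ∀ z ∈ ball z₀ ε, w z ^ n = 1 := by
    intro z hz
    have hz' := hsub hz
    have hne : h1 z ^ n ≠ 0 := pow_ne_zero n (hball z hz).2
    simp only [hw]
    rw [div_pow, h2n z hz', ← h1n z hz', div_self hne]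
  have hwderiv : (ball z₀ ε).EqOn (deriv w) 0 := by
    intro z hz
    have hd : HasDerivAt w (deriv w z) z :=
      (hwd.differentiableAt (isOpen_ball.mem_nhds hz)).hasDerivAt
    have hd2 : HasDerivAt (fun z => w z ^ n) ((n : ℂ) * w z ^ (n - 1) * deriv w z) z := hd.pow n
    have hd3 : HasDerivAt (fun z => w z ^ n) 0 z := by
      have hc : HasDerivAt (fun _ : ℂ => (1 : ℂ)) 0 z := hasDerivAt_const z 1
      refine hc.congr_of_eventuallyEq ?_
      filter_upwards [isOpen_ball.mem_nhds hz] with y hy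
      exact hwn y hy
    have h0 := hd2.unique hd3
    have hwz : w z ≠ 0 := by
      intro h
      have := hwn z hz
      rw [h, zero_pow hn] at this
      exact zero_ne_one this
    have hn' : (n : ℂ) ≠ 0 := Nat.cast_ne_zero.mpr hn
    have : (n : ℂ) * w z ^ (n - 1) ≠ 0 := mul_ne_zero hn' (pow_ne_zero _ hwz)
    simpa using (mul_eq_zero.mp h0).resolve_left this
  have hwconst : ∀ z ∈ ball z₀ ε, w z = w z₀ := fun z hz =>
    isOpen_ball.is_const_of_deriv_eq_zero (convex_ball z₀ ε).isPreconnected hwd hwderiv hz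
      (mem_ball_self hε)
  have hloc : h2 =ᶠ[𝓝 z₀] fun z => h2 z₀ / h1 z₀ * h1 z := by
    filter_upwards [ball_mem_nhds z₀ hε] with z hz
    have h := hwconst z hz
    simp only [hw] at h
    rw [← h, div_mul_cancel₀ _ (hball z hz).2]
  have ha2 : AnalyticOnNhd ℂ h2 (ball c r) := hh2.analyticOnNhd isOpen_ball
  have ha1 : AnalyticOnNhd ℂ (fun z => h2 z₀ / h1 z₀ * h1 z) (ball c r) :=
    (hh1.const_mul _).analyticOnNhd isOpen_ball
  exact fun z hz =>
    ha2.eqOn_of_preconnected_of_eventuallyEq ha1 (convex_ball c r).isPreconnected hz₀ hloc hz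

/-! ### Exhaustion of the upper half plane by discs -/

/-- The exhausting discs `B k = ball ((k+2) i) ((k+2) - 1/(k+2))`. -/
noncomputable def cen (k : ℕ) : ℂ := ((k : ℝ) + 2) * Complex.I

/-- Radius of the `k`-th disc. -/
noncomputable def rad (k : ℕ) : ℝ := ((k : ℝ) + 2) - 1 / ((k : ℝ) + 2)

theorem rad_pos (k : ℕ) : 0 < rad k := by
  unfold rad
  have h : (0 : ℝ) < (k : ℝ) + 2 := by positivity
  have h1 : 1 / ((k : ℝ) + 2) < 1 := by
    rw [div_lt_one h]
    have : (0 : ℝ) ≤ k := Nat.cast_nonneg k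
    linarith
  have : (0 : ℝ) ≤ k := Nat.cast_nonneg k
  linarith

theorem closedBall_subset_upper (k : ℕ) : closedBall (cen k) (rad k) ⊆ {z : ℂ | 0 < z.im} := by
  intro z hz
  rw [mem_closedBall, Complex.dist_eq] at hz
  have h1 : |(z - cen k).im| ≤ ‖z - cen k‖ := Complex.abs_im_le_norm _
  have h2 : (z - cen k).im = z.im - ((k : ℝ) + 2) := by
    simp [cen]
  have hk : (0 : ℝ) < (k : ℝ) + 2 := by positivity
  have h3 : 0 < 1 / ((k : ℝ) + 2) := by positivity
  have h4 := (abs_le.mp (h1.trans hz)).1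
  rw [h2] at h4
  show 0 < z.im
  unfold rad at h4
  linarith

theorem ball_subset_ball_succ (k : ℕ) : ball (cen k) (rad k) ⊆ ball (cen (k + 1)) (rad (k + 1)) := by
  apply ball_subset_ball'
  have hd : dist (cen k) (cen (k + 1)) = 1 := by
    rw [Complex.dist_eq]
    have : cen k - cen (k + 1) = -Complex.I := by
      simp only [cen]
      push_cast
      ring
    rw [this]
    simp
  rw [hd]
  unfold rad
  have hk : (0 : ℝ) < (k : ℝ) + 2 := by positivity
  have hk1 : (0 : ℝ) < ((k + 1 : ℕ) : ℝ) + 2 := by positivity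
  have : 1 / (((k + 1 : ℕ) : ℝ) + 2) ≤ 1 / ((k : ℝ) + 2) := by
    apply one_div_le_one_div_of_le hk
    push_cast
    linarith
  push_cast at this ⊢
  linarith

theorem ball_mono {k m : ℕ} (h : k ≤ m) : ball (cen k) (rad k) ⊆ ball (cen m) (rad m) := by
  induction m, h using Nat.le_induction with
  | base => exact subset_rfl
  | succ m _ ih => exact ih.trans (ball_subset_ball_succ m)

theorem exists_mem_ball {z : ℂ} (hz : 0 < z.im) : ∃ k : ℕ, z ∈ ball (cen k) (rad k) := by
  obtain ⟨k, hk⟩ := exists_nat_gt ((‖z‖ ^ 2 + 2) / (2 * z.im))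
  refine ⟨k, ?_⟩
  rw [mem_ball, Complex.dist_eq]
  have hK : (0 : ℝ) < (k : ℝ) + 2 := by positivity
  have hrad := rad_pos k
  rw [← abs_of_pos hrad, ← Real.sqrt_sq_eq_abs, ← abs_of_nonneg (norm_nonneg (z - cen k)),
    ← Real.sqrt_sq_eq_abs]
  apply Real.sqrt_lt_sqrt (sq_nonneg _)
  have hsq : ‖z - cen k‖ ^ 2 = z.re ^ 2 + (z.im - ((k : ℝ) + 2)) ^ 2 := by
    rw [← Complex.normSq_eq_norm_sq, Complex.normSq_apply]
    simp [cen]
    ring
  have hz2 : ‖z‖ ^ 2 = z.re ^ 2 + z.im ^ 2 := by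
    rw [← Complex.normSq_eq_norm_sq, Complex.normSq_apply]
    ring
  rw [hsq]
  have hk' : (‖z‖ ^ 2 + 2) < (k : ℝ) * (2 * z.im) := by
    rwa [div_lt_iff₀ (by positivity)] at hk
  have hinv : 0 < 1 / ((k : ℝ) + 2) := by positivity
  have hrad2 : rad k ^ 2 = ((k : ℝ) + 2) ^ 2 - 2 + (1 / ((k : ℝ) + 2)) ^ 2 := by
    unfold rad
    field_simp
    ring
  rw [hrad2]
  have : 0 < (1 / ((k : ℝ) + 2)) ^ 2 := by positivity
  nlinarith

/-! ### The global root -/

/-- `h` is a holomorphic `n`-th root of `f` on the `k`-th disc. -/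
def IsRootOn (f : ℂ → ℂ) (n : ℕ) (k : ℕ) (h : ℂ → ℂ) : Prop :=
  DifferentiableOn ℂ h (ball (cen k) (rad k)) ∧ ∀ z ∈ ball (cen k) (rad k), h z ^ n = f z

theorem exists_root_upperHalfPlaneSet {f : ℂ → ℂ} (hf : DifferentiableOn ℂ f {z : ℂ | 0 < z.im})
    (hf0 : ∃ z : ℂ, 0 < z.im ∧ f z ≠ 0) {n : ℕ} (hn : n ≠ 0)
    (hord : ∀ z : ℂ, 0 < z.im → n ∣ analyticOrderNatAt f z) :
    ∃ k : ℂ → ℂ, DifferentiableOn ℂ k {z : ℂ | 0 < z.im} ∧ ∀ z : ℂ, 0 < z.im → k z ^ n = f z := by
  classical
  have hU : IsOpen {z : ℂ | 0 < z.im} := UpperHalfPlane.isOpen_upperHalfPlaneSet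
  have hUc : IsPreconnected {z : ℂ | 0 < z.im} :=
    (convex_halfSpace_im_gt 0).isPreconnected
  have hfa : AnalyticOnNhd ℂ f {z : ℂ | 0 < z.im} := hf.analyticOnNhd hU
  have hnt : ∀ z ∈ {z : ℂ | 0 < z.im}, analyticOrderAt f z ≠ ⊤ := by
    intro z hz htop
    rw [analyticOrderAt_eq_top] at htop
    obtain ⟨w, hw, hfw⟩ := hf0
    exact hfw (hfa.eqOn_zero_of_preconnected_of_eventuallyEq_zero hUc hz htop hw)
  -- nonvanishing somewhere on each disc
  have hnz : ∀ k : ℕ, ∃ z ∈ ball (cen k) (rad k), f z ≠ 0 := by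
    intro k
    have hc : cen k ∈ {z : ℂ | 0 < z.im} :=
      closedBall_subset_upper k (mem_closedBall_self (rad_pos k).le)
    have h1 : ¬ ∀ᶠ z in 𝓝 (cen k), f z = 0 := fun h => hnt _ hc (analyticOrderAt_eq_top.mpr h)
    have h2 : ∃ᶠ z in 𝓝 (cen k), f z ≠ 0 := by
      rw [Filter.not_eventually] at h1
      exact h1
    obtain ⟨z, hz, hzb⟩ := (h2.and_eventually (ball_mem_nhds (cen k) (rad_pos k))).exists
    exact ⟨z, hzb, hz⟩
  have hex : ∀ k : ℕ, ∃ h, IsRootOn f n k h := fun k =>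
    exists_root_ball hU hf hnt hn (fun z hz => hord z hz) (closedBall_subset_upper k)
  have hstep : ∀ (k : ℕ) (h : ℂ → ℂ), IsRootOn f n k h →
      ∃ h', IsRootOn f n (k + 1) h' ∧ ∀ z ∈ ball (cen k) (rad k), h' z = h z := by
    intro k h hh
    obtain ⟨h0, hh0d, hh0n⟩ := hex (k + 1)
    have hsub := ball_subset_ball_succ k
    obtain ⟨ζ, hζ, hζh⟩ := root_unique_ball hn hh.1 (hh0d.mono hsub) hh.2
      (fun z hz => hh0n z (hsub hz)) (hnz k)
    have hζ0 : ζ ≠ 0 := by
      intro h0'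
      rw [h0', zero_pow hn] at hζ
      exact zero_ne_one hζ
    refine ⟨fun z => ζ⁻¹ * h0 z, ⟨hh0d.const_mul _, fun z hz => ?_⟩, fun z hz => ?_⟩
    · rw [mul_pow, inv_pow, hζ, inv_one, one_mul, hh0n z hz]
    · show ζ⁻¹ * h0 z = h z
      rw [hζh z hz, ← mul_assoc, inv_mul_cancel₀ hζ0, one_mul]
  -- the compatible sequence
  let S : ∀ k : ℕ, {h : ℂ → ℂ // IsRootOn f n k h} := fun k =>
    Nat.rec (motive := fun k => {h : ℂ → ℂ // IsRootOn f n k h})
      ⟨Classical.choose (hex 0), Classical.choose_spec (hex 0)⟩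
      (fun k ih => ⟨Classical.choose (hstep k ih.1 ih.2),
        (Classical.choose_spec (hstep k ih.1 ih.2)).1⟩) k
  have hScompat : ∀ k : ℕ, ∀ z ∈ ball (cen k) (rad k), (S (k + 1)).1 z = (S k).1 z := fun k =>
    (Classical.choose_spec (hstep k (S k).1 (S k).2)).2
  have hSle : ∀ k m : ℕ, k ≤ m → ∀ z ∈ ball (cen k) (rad k), (S m).1 z = (S k).1 z := by
    intro k m hkm
    induction m, hkm using Nat.le_induction with
    | base => exact fun z _ => rfl
    | succ m hkm ih =>
      intro z hz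
      rw [hScompat m z (ball_mono hkm hz), ih z hz]
  set kfun : ℂ → ℂ := fun z =>
    if h : ∃ k : ℕ, z ∈ ball (cen k) (rad k) then (S (Nat.find h)).1 z else 0 with hkfun
  have hkey : ∀ m : ℕ, ∀ z ∈ ball (cen m) (rad m), kfun z = (S m).1 z := by
    intro m z hz
    have hex' : ∃ k : ℕ, z ∈ ball (cen k) (rad k) := ⟨m, hz⟩
    simp only [hkfun, dif_pos hex']
    exact (hSle (Nat.find hex') m (Nat.find_min' hex' hz) z (Nat.find_spec hex')).symm
  refine ⟨kfun, ?_, ?_⟩
  · intro z hz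
    obtain ⟨m, hm⟩ := exists_mem_ball hz
    have hd : DifferentiableAt ℂ (S m).1 z := (S m).2.1.differentiableAt (isOpen_ball.mem_nhds hm)
    have heq : kfun =ᶠ[𝓝 z] (S m).1 := by
      filter_upwards [isOpen_ball.mem_nhds hm] with y hy
      exact hkey m y hy
    exact (heq.differentiableAt_iff.mpr hd).differentiableWithinAt
  · intro z hz
    obtain ⟨m, hm⟩ := exists_mem_ball hz
    rw [hkey m z hm, (S m).2.2 z hm]

/-- Holomorphic `n`-th roots on the upper half plane, `ℍ`-version. -/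
theorem exists_root_mdiff {f : UpperHalfPlane → ℂ}
    (hf : MDifferentiable (modelWithCornersSelf ℂ ℂ) (modelWithCornersSelf ℂ ℂ) f) (hf0 : f ≠ 0)
    {n : ℕ} (hn : n ≠ 0)
    (hord : ∀ τ : UpperHalfPlane,
      n ∣ analyticOrderNatAt (f ∘ UpperHalfPlane.ofComplex) (τ : ℂ)) :
    ∃ k : UpperHalfPlane → ℂ,
      MDifferentiable (modelWithCornersSelf ℂ ℂ) (modelWithCornersSelf ℂ ℂ) k ∧
        ∀ τ, k τ ^ n = f τ := by
  have hf' := UpperHalfPlane.mdifferentiable_iff.mp hf
  have hf0' : ∃ z : ℂ, 0 < z.im ∧ (f ∘ UpperHalfPlane.ofComplex) z ≠ 0 := by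
    by_contra hcon
    apply hf0
    funext τ
    by_contra hτ
    apply hcon
    refine ⟨(τ : ℂ), τ.im_pos, ?_⟩
    simpa [Function.comp_apply, UpperHalfPlane.ofComplex_apply] using hτ
  obtain ⟨k, hk, hkn⟩ := exists_root_upperHalfPlaneSet hf' hf0' hn
    (fun z hz => hord ⟨z, hz⟩)
  refine ⟨fun τ => k (τ : ℂ), ?_, fun τ => ?_⟩
  · rw [UpperHalfPlane.mdifferentiable_iff]
    refine hk.congr ?_
    intro z hz
    simp only [Function.comp_apply]
    rw [UpperHalfPlane.ofComplex_apply_of_im_pos hz]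
  · have := hkn (τ : ℂ) τ.im_pos
    simpa [Function.comp_apply, UpperHalfPlane.ofComplex_apply] using this

end Fermat.Agent.S30.HoloRoot
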