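import Fermat.Agent.S24.Modular

/-!
# GALREP / Kummer bridge, leaf K2 "ORD" (helper5154)

Orders of `Theta N f` (the analytic incarnation of `f ∈ modularFunctionFieldBar N`) on the upper
half plane and at the cusps, in terms of the places of the function field.

* `exists_place_log_eq_of_orbits` : companion of the landed `S24.card_placesOver_eq_numOrbits`
  (same hypotheses): the valuation `w ∘ σ q` is *exactly* `(m / #orbit q)` times the order at a
  place `v` over `c`, and `v.ord (x - c) = #orbit q`  ("e = 1": the ramification index is the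
  orbit size).
* `exists_place_log_eq_of_action` : the same for a field with a group action
  (companion of `S24.B4Glue.card_placesOver_eq_numOrbits_of_action`).
* `exists_place_log_ordInf` : at the cusps of `Γ₀(N)`.
* `dvd_log_ordAt_theta`, `dvd_log_ordInf_theta` : if `n ∣ ord_v f` for all places `v`, then `n`
  divides all orders of `Theta N f` on `ℍ`, and `n * (N / width)` divides the `q_N`-order of
  `modAut N γ (Theta N f)` at `∞`.
-/

set_option autoImplicit false
set_option linter.style.haveILetI false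
set_option linter.unusedSectionVars false
open ModularCurve AlgebraicCurve IntermediateField
open scoped MatrixGroups

namespace Fermat.Agent.S30.K2Ord5154

open Fermat.Agent.S24 Fermat.Agent.S24.OP2848 WithZero

/-- **Exact ramification.**  Under the hypotheses of `S24.card_placesOver_eq_numOrbits`, for every
`q : Q` the valuation `w ∘ σ q` on `F` is `m / #orbit(q)` times the order at a place `v` of `F`
with `v.ord (x - c) = #orbit(q)`. -/
theorem exists_place_log_eq_of_orbits {K F : Type*} [Field K] [Field F] [Algebra K F]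
    [IsAlgClosed K] [CharZero K]
    (x : F) (hx : Transcendental K x) [FiniteDimensional K⟮x⟯ F] (c : K)
    {M : Type*} [Field M] (w : Valuation M (WithZero (Multiplicative ℤ)))
    {Q : Type*} [Finite Q] (hQ : Nat.card Q = Module.finrank K⟮x⟯ F)
    (σ : Q → F →+* M) (hσ : Function.Injective σ)
    (hbase : ∀ q q' (a : K), σ q (algebraMap K F a) = σ q' (algebraMap K F a))
    (hbasex : ∀ q q', σ q x = σ q' x)
    (m : ℕ) (hm : 0 < m)
    (hwx : ∀ q, w (σ q (x - algebraMap K F c)) = WithZero.exp (-(m : ℤ)))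
    {G : Type*} [Group G] [MulAction G Q] (g : G) (hg : ∀ q : Q, g ^ m • q = q)
    (hgw : ∀ q (f : F), w (σ (g • q) f) = w (σ q f))
    (hdiv : ∀ q (f : F), f ≠ 0 →
      ((m / Nat.card (MulAction.orbit (Subgroup.zpowers g) q) : ℕ) : ℤ) ∣
        WithZero.log (w (σ q f)))
    (q : Q) :
    ∃ v : Place K F,
      v.ord (x - algebraMap K F c) = (Nat.card (MulAction.orbit (Subgroup.zpowers g) q) : ℤ) ∧
      ∀ f : F, f ≠ 0 → WithZero.log (w (σ q f)) =
        -(((m / Nat.card (MulAction.orbit (Subgroup.zpowers g) q) : ℕ) : ℤ) * v.ord f) := by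
  classical
  haveI : Fintype Q := Fintype.ofFinite Q
  set s : F := x - algebraMap K F c with hs_def
  have hs : Transcendental K s := transcendental_sub_const hx c
  have hadj : K⟮s⟯ = K⟮x⟯ := adjoin_sub_const x c
  haveI : FiniteDimensional K⟮s⟯ F := finiteDimensional_congr_intermediate hadj
  have hfin : Module.finrank K⟮s⟯ F = Module.finrank K⟮x⟯ F := finrank_congr_intermediate hadj
  have hs0 : s ≠ 0 := by
    rintro h
    exact hs (h ▸ isAlgebraic_zero)
  have hbases : ∀ q q', σ q s = σ q' s := fun q q' => by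
    rw [hs_def, map_sub, map_sub, hbasex q q', hbase q q']
  have hK : ∀ q (a : K), (w.comap (σ q)) (algebraMap K F a) ≤ 1 := fun q a =>
    val_const_le_one w (σ q) a
  have hws' : ∀ q, w (σ q s) = exp (-(m : ℤ)) := hwx
  have hws : ∀ q, (w.comap (σ q)) s < 1 := fun q => by
    rw [Valuation.comap_apply, hws' q, ← exp_zero, exp_lt_exp]
    omega
  let vq : Q → Place K F := fun q => placeOfVal (w.comap (σ q)) (hK q) s hs0 (hws q)
  obtain ⟨S, hS, hsum⟩ := exists_finset_zeros_sum_ord s hs
  have hvqS : ∀ q, vq q ∈ S := fun q =>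
    (hS _).mpr ((placeOfVal_ord_pos_iff (w.comap (σ q)) (hK q) s hs0 (hws q) hs0).mpr (hws q))
  -- the place only depends on the orbit
  have hvg : ∀ q, vq (g • q) = vq q := by
    intro q
    apply Place.ext
    ext f
    show (w.comap (σ (g • q))) f ≤ 1 ↔ (w.comap (σ q)) f ≤ 1
    rw [Valuation.comap_apply, Valuation.comap_apply, hgw]
  have hvginv : ∀ q, vq (g⁻¹ • q) = vq q := by
    intro q
    have h := hvg (g⁻¹ • q)
    rw [smul_inv_smul] at h
    exact h.symm
  have hvz : ∀ k : ℤ, ∀ q, vq (g ^ k • q) = vq q := by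
    intro k
    induction k using Int.induction_on with
    | zero => intro q; simp
    | succ k ih =>
      intro q
      rw [zpow_add_one, mul_smul, ih, hvg]
    | pred k ih =>
      intro q
      rw [zpow_sub_one, mul_smul, ih, hvginv]
  have hvorb : ∀ q q', q' ∈ MulAction.orbit (Subgroup.zpowers g) q → vq q' = vq q := by
    rintro q q' ⟨⟨h, hh⟩, rfl⟩
    obtain ⟨k, rfl⟩ := Subgroup.mem_zpowers_iff.mp hh
    exact hvz k q
  have hdvdm : ∀ q : Q, Nat.card (MulAction.orbit (Subgroup.zpowers g) q) ∣ m := by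
    intro q
    haveI : Fintype (MulAction.orbit (Subgroup.zpowers g) q) := Fintype.ofFinite _
    rw [Nat.card_eq_fintype_card, ← MulAction.minimalPeriod_eq_card]
    apply Function.IsPeriodicPt.minimalPeriod_dvd
    show (g • ·)^[m] q = q
    rw [smul_iterate_apply]
    exact hg q
  -- ramification is bounded by the orbit size
  have he : ∀ q, (vq q).ord s ≤ (Nat.card (MulAction.orbit (Subgroup.zpowers g) q) : ℤ) := by
    intro q
    obtain ⟨d, hd, ⟨π, hπ0, hπ⟩, hlog⟩ :=
      exists_log_val_eq (w.comap (σ q)) (hK q) s hs0 (hws q)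
    have h1 := hlog s hs0
    rw [Valuation.comap_apply, hws' q, log_exp] at h1
    have h2 := hdiv q π hπ0
    rw [Valuation.comap_apply] at hπ
    rw [hπ] at h2
    have hdvd := hdvdm q
    set N := Nat.card (MulAction.orbit (Subgroup.zpowers g) q) with hN
    set k := m / N with hk
    have hkN : k * N = m := Nat.div_mul_cancel hdvd
    have h3 : (k : ℤ) ∣ d := (dvd_neg).mp h2
    have h4 : (k : ℤ) ≤ d := Int.le_of_dvd hd h3
    have hk0 : 0 < k := by
      rcases Nat.eq_zero_or_pos k with h0 | h0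
      · rw [h0] at hkN; omega
      · exact h0
    have h5 : (k : ℤ) * (N : ℤ) = d * (vq q).ord s := by
      have : ((k * N : ℕ) : ℤ) = (m : ℤ) := by rw [hkN]
      push_cast at this
      linarith
    have hepos : 0 < (vq q).ord s := (hS _).mp (hvqS q)
    have h6 : (k : ℤ) * (vq q).ord s ≤ (k : ℤ) * (N : ℤ) := by
      rw [h5]
      exact mul_le_mul_of_nonneg_right h4 hepos.le
    exact le_of_mul_le_mul_left h6 (by exact_mod_cast hk0)
  -- every place over `c` is some `vq q`
  have hsurj : ∀ v ∈ S, ∃ q, v = vq q := fun v hv =>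
    exists_place_eq s hs w (by rw [← Nat.card_eq_fintype_card, hQ, hfin]) σ hσ hbase hbases hs0
      hK hws v ((hS v).mp hv)
  -- counting
  let Ω := MulAction.orbitRel.Quotient (Subgroup.zpowers g) Q
  haveI : Fintype Ω := Fintype.ofFinite Ω
  let Φ : Ω → Place K F := fun ω => vq (Quotient.out ω)
  let Nω : Ω → ℤ := fun ω => (Nat.card (MulAction.orbit (Subgroup.zpowers g) (Quotient.out ω)) : ℤ)
  have hcardQ : (Nat.card Q : ℤ) = ∑ ω : Ω, Nω ω := by
    rw [Nat.card_congr (MulAction.selfEquivSigmaOrbits (Subgroup.zpowers g) Q), Nat.card_sigma]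
    push_cast
    rfl
  have hout : ∀ q : Q, Quotient.out (Quotient.mk (MulAction.orbitRel (Subgroup.zpowers g) Q) q)
      ∈ MulAction.orbit (Subgroup.zpowers g) q := by
    intro q
    have h : (MulAction.orbitRel (Subgroup.zpowers g) Q)
        (Quotient.out (Quotient.mk (MulAction.orbitRel (Subgroup.zpowers g) Q) q)) q :=
      Quotient.exact (Quotient.out_eq _)
    exact MulAction.orbitRel_apply.mp h
  have hΦmk : ∀ q : Q, Φ (Quotient.mk (MulAction.orbitRel (Subgroup.zpowers g) Q) q) = vq q :=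
    fun q => hvorb q _ (hout q)
  have hΦsurj : ∀ v ∈ S, ∃ ω : Ω, Φ ω = v := by
    intro v hv
    obtain ⟨q, rfl⟩ := hsurj v hv
    exact ⟨Quotient.mk (MulAction.orbitRel (Subgroup.zpowers g) Q) q, hΦmk q⟩
  have hQpos : 0 < Nat.card Q := by rw [hQ]; exact Module.finrank_pos
  obtain ⟨q₀⟩ : Nonempty Q := (Nat.card_pos_iff.mp hQpos).1
  haveI : Nonempty Ω := ⟨Quotient.mk (MulAction.orbitRel (Subgroup.zpowers g) Q) q₀⟩
  choose! ωv hωv using hΦsurj
  have hinj : Set.InjOn ωv (S : Set (Place K F)) := by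
    intro v hv v' hv' h
    rw [← hωv v hv, ← hωv v' hv', h]
  let T : Finset Ω := S.image ωv
  have hNpos : ∀ ω : Ω, 0 < Nω ω := by
    intro ω
    have : Nonempty (MulAction.orbit (Subgroup.zpowers g) (Quotient.out ω)) :=
      ⟨⟨_, MulAction.mem_orbit_self _⟩⟩
    have h0 : 0 < Nat.card (MulAction.orbit (Subgroup.zpowers g) (Quotient.out ω)) := Nat.card_pos
    show (0 : ℤ) < (Nat.card (MulAction.orbit (Subgroup.zpowers g) (Quotient.out ω)) : ℤ)
    exact_mod_cast h0
  have hle : ∀ v ∈ S, v.ord s ≤ Nω (ωv v) := by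
    intro v hv
    have := he (Quotient.out (ωv v))
    have h2 : vq (Quotient.out (ωv v)) = v := hωv v hv
    rw [h2] at this
    exact this
  have h2 : ∑ v ∈ S, Nω (ωv v) = ∑ ω ∈ T, Nω ω := (Finset.sum_image hinj).symm
  have hT : T = Finset.univ := by
    by_contra hne
    obtain ⟨ω₁, hω₁⟩ : ∃ ω₁, ω₁ ∉ T := by
      by_contra h
      push Not at h
      exact hne (Finset.eq_univ_iff_forall.mpr h)
    have h1 : ∑ v ∈ S, v.ord s ≤ ∑ v ∈ S, Nω (ωv v) := Finset.sum_le_sum hle
    have h3 : ∑ ω ∈ T, Nω ω < ∑ ω : Ω, Nω ω :=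
      Finset.sum_lt_sum_of_subset (Finset.subset_univ T) (Finset.mem_univ ω₁) hω₁ (hNpos ω₁)
        (fun j _ _ => (hNpos j).le)
    rw [← hcardQ, hQ, ← hfin, ← hsum] at h3
    linarith
  -- equality of the sums forces equality termwise
  have hsumeq : ∑ v ∈ S, v.ord s = ∑ v ∈ S, Nω (ωv v) := by
    rw [h2, hT, ← hcardQ, hQ, ← hfin, hsum]
  have heq : ∀ v ∈ S, v.ord s = Nω (ωv v) := (Finset.sum_eq_sum_iff_of_le hle).mp hsumeq
  -- now the given `q`
  set ωq : Ω := Quotient.mk (MulAction.orbitRel (Subgroup.zpowers g) Q) q with hωq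
  have hωqT : ωq ∈ T := by rw [hT]; exact Finset.mem_univ _
  obtain ⟨v', hv'S, hv'⟩ := Finset.mem_image.mp hωqT
  have hv'q : v' = vq q := by
    rw [← hωv v' hv'S, hv', hΦmk q]
  have hNq : Nω ωq = (Nat.card (MulAction.orbit (Subgroup.zpowers g) q) : ℤ) := by
    show (Nat.card (MulAction.orbit (Subgroup.zpowers g) (Quotient.out ωq)) : ℤ) = _
    rw [MulAction.orbit_eq_iff.mpr (hout q)]
  have hordq : (vq q).ord s = (Nat.card (MulAction.orbit (Subgroup.zpowers g) q) : ℤ) := by
    rw [← hNq, ← hv', ← hv'q]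
    exact heq v' hv'S
  refine ⟨vq q, hordq, ?_⟩
  obtain ⟨d, hd, -, hlog⟩ := exists_log_val_eq (w.comap (σ q)) (hK q) s hs0 (hws q)
  have h1 := hlog s hs0
  rw [Valuation.comap_apply, hws' q, log_exp, hordq] at h1
  have hdvd := hdvdm q
  set n := Nat.card (MulAction.orbit (Subgroup.zpowers g) q) with hn
  have hkn : m / n * n = m := Nat.div_mul_cancel hdvd
  have hn0 : 0 < n := Nat.pos_of_dvd_of_pos hdvd hm
  have hdk : ((m / n : ℕ) : ℤ) = d := by
    have h3 : ((m / n : ℕ) : ℤ) * (n : ℤ) = (m : ℤ) := by exact_mod_cast hkn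
    have h4 : ((m / n : ℕ) : ℤ) * (n : ℤ) = d * (n : ℤ) := by linarith
    exact mul_right_cancel₀ (by exact_mod_cast hn0.ne') h4
  intro f hf
  rw [hdk]
  exact hlog f hf

/-- **Exact ramification for a field with a group action** (companion of
`S24.B4Glue.card_placesOver_eq_numOrbits_of_action`): `w ∘ act γ ∘ Θ` is `m / #orbit(γ H)` times
the order at a place `v` over `c`, and `v.ord (x - c) = #orbit(γ H)`. -/
theorem exists_place_log_eq_of_action {K F : Type*} [Field K] [Field F] [Algebra K F]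
    [IsAlgClosed K] [CharZero K]
    (x : F) (hx : Transcendental K x) [FiniteDimensional K⟮x⟯ F] (c : K)
    {M : Type*} [Field M] (w : Valuation M (WithZero (Multiplicative ℤ)))
    {G : Type*} [Group G] (H : Subgroup G) [Finite (G ⧸ H)]
    (hcard : Nat.card (G ⧸ H) = Module.finrank K⟮x⟯ F)
    (act : G →* (M ≃+* M)) (Θ : F →+* M)
    (hH : ∀ γ ∈ H, ∀ f, act γ (Θ f) = Θ f)
    (hinj : ∀ γ, (∀ f, act γ (Θ f) = Θ f) → γ ∈ H)
    (hK : ∀ γ (a : K), act γ (Θ (algebraMap K F a)) = Θ (algebraMap K F a))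
    (hxinv : ∀ γ, act γ (Θ x) = Θ x)
    (m : ℕ) (hm : 0 < m)
    (hwx : w (Θ (x - algebraMap K F c)) = WithZero.exp (-(m : ℤ)))
    (g : G) (hgm : ∀ γ : G, γ⁻¹ * g ^ m * γ ∈ H)
    (hgw : ∀ y : M, w (act g y) = w y)
    (hdiv : ∀ k : ℕ, 0 < k → k ∣ m → ∀ y : M, y ≠ 0 → act (g ^ k) y = y →
      ((m / k : ℕ) : ℤ) ∣ WithZero.log (w y))
    (γ : G) :
    ∃ v : Place K F,
      v.ord (x - algebraMap K F c)
        = (Nat.card (MulAction.orbit (Subgroup.zpowers g) (γ : G ⧸ H)) : ℤ) ∧
      ∀ f : F, f ≠ 0 → WithZero.log (w (act γ (Θ f))) =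
        -(((m / Nat.card (MulAction.orbit (Subgroup.zpowers g) (γ : G ⧸ H)) : ℕ) : ℤ)
            * v.ord f) := by
  classical
  have hgmq : ∀ q : G ⧸ H, g ^ m • q = q := by
    intro q
    induction q using QuotientGroup.induction_on with
    | H γ =>
    show ((g ^ m * γ : G) : G ⧸ H) = (γ : G ⧸ H)
    rw [eq_comm, QuotientGroup.eq]
    simpa [mul_assoc] using hgm γ
  refine exists_place_log_eq_of_orbits x hx c w hcard (B4Glue.cosetEmb H act Θ hH)
    (B4Glue.cosetEmb_injective H act Θ hH hinj) ?_ ?_ m hm ?_ g hgmq ?_ ?_ (γ : G ⧸ H)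
  · intro q q' a
    induction q using QuotientGroup.induction_on with
    | H γ =>
    induction q' using QuotientGroup.induction_on with
    | H γ' =>
    rw [B4Glue.cosetEmb_mk, B4Glue.cosetEmb_mk, hK, hK]
  · intro q q'
    induction q using QuotientGroup.induction_on with
    | H γ =>
    induction q' using QuotientGroup.induction_on with
    | H γ' =>
    rw [B4Glue.cosetEmb_mk, B4Glue.cosetEmb_mk, hxinv, hxinv]
  · intro q
    induction q using QuotientGroup.induction_on with
    | H γ =>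
    rw [B4Glue.cosetEmb_mk, map_sub, map_sub, hK, hxinv, ← map_sub, hwx]
  · intro q f
    induction q using QuotientGroup.induction_on with
    | H γ =>
    show w (B4Glue.cosetEmb H act Θ hH ((g * γ : G) : G ⧸ H) f) = _
    rw [B4Glue.cosetEmb_mk, B4Glue.cosetEmb_mk, map_mul]
    exact hgw _
  · intro q f hf
    have hk := B4Glue.pow_card_orbit_smul g q
    have hkm := B4Glue.card_orbit_dvd g q m (hgmq q)
    set k := Nat.card (MulAction.orbit (Subgroup.zpowers g) q) with hkdef
    have hk0 : 0 < k := Nat.pos_of_dvd_of_pos hkm hm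
    induction q using QuotientGroup.induction_on with
    | H γ =>
    have hmem : γ⁻¹ * g ^ k * γ ∈ H := by
      have h1 : ((g ^ k * γ : G) : G ⧸ H) = (γ : G ⧸ H) := hk
      rw [eq_comm, QuotientGroup.eq] at h1
      simpa [mul_assoc] using h1
    rw [B4Glue.cosetEmb_mk]
    refine hdiv k hk0 hkm _ ?_ ?_
    · intro h0
      have : Θ f = 0 := by
        have := congrArg (act γ).symm h0
        simpa using this
      exact hf ((map_eq_zero Θ).mp this)
    · have h2 : g ^ k * γ = γ * (γ⁻¹ * g ^ k * γ) := by group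
      show (act (g ^ k) * act γ) (Θ f) = act γ (Θ f)
      rw [← map_mul, h2, map_mul]
      show act γ (act (γ⁻¹ * g ^ k * γ) (Θ f)) = act γ (Θ f)
      rw [hH _ hmem f]

/-- **Exact ramification at a pole** (`x ↦ x⁻¹`, `c = 0`), for a field with a group action
(companion of `S24.B4Glue.card_placesOverInfty_eq_numOrbits_of_action`). -/
theorem exists_place_log_eq_of_action_infty {K F : Type*} [Field K] [Field F] [Algebra K F]
    [IsAlgClosed K] [CharZero K]
    (x : F) (hx : Transcendental K x) [FiniteDimensional K⟮x⟯ F]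
    {M : Type*} [Field M] (w : Valuation M (WithZero (Multiplicative ℤ)))
    {G : Type*} [Group G] (H : Subgroup G) [Finite (G ⧸ H)]
    (hcard : Nat.card (G ⧸ H) = Module.finrank K⟮x⟯ F)
    (act : G →* (M ≃+* M)) (Θ : F →+* M)
    (hH : ∀ γ ∈ H, ∀ f, act γ (Θ f) = Θ f)
    (hinj : ∀ γ, (∀ f, act γ (Θ f) = Θ f) → γ ∈ H)
    (hK : ∀ γ (a : K), act γ (Θ (algebraMap K F a)) = Θ (algebraMap K F a))
    (hxinv : ∀ γ, act γ (Θ x) = Θ x)
    (m : ℕ) (hm : 0 < m)
    (hwx : w (Θ x) = WithZero.exp (m : ℤ))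
    (g : G) (hgm : ∀ γ : G, γ⁻¹ * g ^ m * γ ∈ H)
    (hgw : ∀ y : M, w (act g y) = w y)
    (hdiv : ∀ k : ℕ, 0 < k → k ∣ m → ∀ y : M, y ≠ 0 → act (g ^ k) y = y →
      ((m / k : ℕ) : ℤ) ∣ WithZero.log (w y))
    (γ : G) :
    ∃ v : Place K F,
      v.ord x = -(Nat.card (MulAction.orbit (Subgroup.zpowers g) (γ : G ⧸ H)) : ℤ) ∧
      ∀ f : F, f ≠ 0 → WithZero.log (w (act γ (Θ f))) =
        -(((m / Nat.card (MulAction.orbit (Subgroup.zpowers g) (γ : G ⧸ H)) : ℕ) : ℤ)
            * v.ord f) := by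
  have : FiniteDimensional K⟮x⁻¹⟯ F :=
    B4Glue.finiteDimensional_congr_adjoin (B4Glue.adjoin_inv_eq x).symm
  obtain ⟨v, hv, hlog⟩ := exists_place_log_eq_of_action x⁻¹ (B4Glue.transcendental_inv hx)
    (0 : K) w H (hcard.trans (B4Glue.finrank_congr_adjoin (B4Glue.adjoin_inv_eq x).symm)) act Θ
    hH hinj hK (fun γ => by rw [map_inv₀, map_inv₀, hxinv]) m hm
    (by rw [map_zero, sub_zero, map_inv₀, map_inv₀, hwx, ← WithZero.exp_neg]) g hgm hgw hdiv γ
  refine ⟨v, ?_, hlog⟩
  rw [map_zero, sub_zero, Place.ord_inv] at hv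
  omega

/-! ### The modular instances -/

section modular

variable (N : ℕ) [NeZero N]

/-- The width of the cusp `γ⁻¹ ∞` of `Γ₀(N)`: the size of the `⟨T⟩`-orbit of the coset
`γ Γ₀(N)`. -/
noncomputable def width (γ : SL(2, ℤ)) : ℕ :=
  Nat.card (MulAction.orbit (Subgroup.zpowers ModularGroup.T) (γ : Q0 N))

theorem conj_T_pow_width_mem (γ : SL(2, ℤ)) :
    γ⁻¹ * ModularGroup.T ^ width N γ * γ ∈ CongruenceSubgroup.Gamma0 N := by
  have hk := B4Glue.pow_card_orbit_smul ModularGroup.T (γ : Q0 N)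
  have h1 : ((ModularGroup.T ^ width N γ * γ : SL(2, ℤ)) : Q0 N) = (γ : Q0 N) := hk
  rw [eq_comm, QuotientGroup.eq] at h1
  simpa [mul_assoc] using h1

theorem width_dvd_of_mem (γ : SL(2, ℤ)) (k : ℕ)
    (hk : γ⁻¹ * ModularGroup.T ^ k * γ ∈ CongruenceSubgroup.Gamma0 N) : width N γ ∣ k := by
  apply B4Glue.card_orbit_dvd ModularGroup.T (γ : Q0 N) k
  show ((ModularGroup.T ^ k * γ : SL(2, ℤ)) : Q0 N) = (γ : Q0 N)
  rw [eq_comm, QuotientGroup.eq]
  simpa [mul_assoc] using hk

theorem width_dvd_level (γ : SL(2, ℤ)) : width N γ ∣ N :=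
  width_dvd_of_mem N γ N (b6_conj_T_pow_mem N γ)

theorem width_pos (γ : SL(2, ℤ)) : 0 < width N γ :=
  Nat.pos_of_dvd_of_pos (width_dvd_level N γ) (Nat.pos_of_ne_zero (NeZero.ne N))

/-- **Orders at the cusps.**  For `γ ∈ SL(2,ℤ)` there is a place `v` of
`modularFunctionFieldBar N` (over `j = ∞`, with ramification index the width of the cusp) such that
the `q_N`-order at `∞` of `modAut N γ (Theta N f)` is `(N / width) * v.ord f` for all `f ≠ 0`. -/
theorem exists_place_log_ordInf (γ : SL(2, ℤ)) :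
    ∃ v : Place (AlgebraicClosure ℚ) ↥(modularFunctionFieldBar N),
      v.ord (jBar N) = -(width N γ : ℤ) ∧
      ∀ f : ↥(modularFunctionFieldBar N), f ≠ 0 →
        WithZero.log (ordInf N (modAut N γ (Theta N f))) =
          -(((N / width N γ : ℕ) : ℤ) * v.ord f) := by
  haveI := finiteDimensional_jBar N
  refine exists_place_log_eq_of_action_infty (jBar N) (jBar_transcendental N)
    (ordInf N) (CongruenceSubgroup.Gamma0 N)
    (finrank_jBar N).symm (b6_act N) (Theta N) (b6_hH N) (b6_hinj N) (b6_hK N) (b6_hxinv N)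
    N (Nat.pos_of_ne_zero (NeZero.ne N)) ?_ ModularGroup.T ?_ ?_ ?_ γ
  · rw [b6_Theta_jBar]
    have hN : (N : ℂ) ≠ 0 := Nat.cast_ne_zero.mpr (NeZero.ne N)
    have h := ordInf_algebraMap N (jdHol N 1 (one_dvd N)) (-(N : ℤ)) 1 one_ne_zero (by
      have hfun : (fun τ : UpperHalfPlane => (jdHol N 1 (one_dvd N)).1 τ *
          Complex.exp (-(2 * Real.pi * Complex.I * ((-(N : ℤ) : ℤ) : ℂ) * τ / N)))
          = fun τ : UpperHalfPlane => jC τ * Complex.exp (2 * Real.pi * Complex.I * τ) := by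
        funext τ
        rw [b6_jdHol_one_apply]
        congr 2
        push_cast
        field_simp
      rw [hfun]
      exact jC_mul_q_tendsto)
    rw [h, neg_neg]
  · intro γ
    exact b6_conj_T_pow_mem N γ
  · intro y
    rw [b6_act_apply, ordInf_modAut_T]
  · intro k hk hkN y hy hinv
    rw [b6_act_apply] at hinv
    exact dvd_log_ordInf N y hy k hkN hinv

end modular

/-! ### Divisibility of orders -/

/-- A `ℤᵐ⁰`-valued valuation on a function field over an algebraically closed field is trivial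
or a positive multiple of the order at a place; hence it inherits divisibility of orders. -/
theorem dvd_log_val_of_forall_place {K F : Type*} [Field K] [Field F] [Algebra K F]
    [IsAlgClosed K] (u : Valuation F (WithZero (Multiplicative ℤ))) (n : ℤ) (f : F) (hf : f ≠ 0)
    (hn : ∀ v : Place K F, n ∣ v.ord f) : n ∣ WithZero.log (u f) := by
  have hK : ∀ a : K, u (algebraMap K F a) ≤ 1 := fun a => by
    have := val_const_le_one (K := K) (F := F) u (RingHom.id F) a
    simpa using this
  by_cases ht : ∃ t : F, t ≠ 0 ∧ u t < 1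
  · obtain ⟨t, ht0, ht1⟩ := ht
    obtain ⟨d, -, -, hlog⟩ := exists_log_val_eq u hK t ht0 ht1
    rw [hlog f hf]
    exact (dvd_neg).mpr (Dvd.dvd.mul_left (hn _) d)
  · push Not at ht
    have h1 : 1 ≤ u f := ht f hf
    have h2 : 1 ≤ u f⁻¹ := ht f⁻¹ (inv_ne_zero hf)
    have h3 : u f = 1 := by
      refine le_antisymm ?_ h1
      rw [map_inv₀] at h2
      have h0 : u f ≠ 0 := (Valuation.ne_zero_iff u).mpr hf
      have h4 : 0 < u f := zero_lt_iff.mpr h0
      calc u f = u f * 1 := (mul_one _).symm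
        _ ≤ u f * (u f)⁻¹ := by gcongr
        _ = 1 := mul_inv_cancel₀ h0
    rw [h3, WithZero.log_one]
    exact dvd_zero n

section modular2

variable (N : ℕ) [NeZero N]

/-- If all place orders of `f` are divisible by `n`, then so are all orders of `Theta N f` on the
upper half plane. -/
theorem dvd_log_ordAt_theta (τ : UpperHalfPlane) (n : ℤ) (f : ↥(modularFunctionFieldBar N))
    (hf : f ≠ 0)
    (hn : ∀ v : Place (AlgebraicClosure ℚ) ↥(modularFunctionFieldBar N), n ∣ v.ord f) :
    n ∣ WithZero.log (ordAt N τ (Theta N f)) :=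
  dvd_log_val_of_forall_place ((ordAt N τ).comap (Theta N)) n f hf hn

/-- The same after translation by `γ ∈ SL(2,ℤ)`. -/
theorem dvd_log_ordAt_modAut_theta (γ : SL(2, ℤ)) (τ : UpperHalfPlane) (n : ℤ)
    (f : ↥(modularFunctionFieldBar N)) (hf : f ≠ 0)
    (hn : ∀ v : Place (AlgebraicClosure ℚ) ↥(modularFunctionFieldBar N), n ∣ v.ord f) :
    n ∣ WithZero.log (ordAt N τ (modAut N γ (Theta N f))) :=
  dvd_log_val_of_forall_place
    ((ordAt N τ).comap (((modAut N γ : ModMer N ≃+* ModMer N) : ModMer N →+* ModMer N).comp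
      (Theta N))) n f hf hn

/-- **Parabolic input.**  If all place orders of `f` are divisible by `n`, then the `q_N`-order of
`modAut N γ (Theta N f)` at `∞` is divisible by `n * (N / width)`: as a function of
`q_width = q_N ^ (N / width)` its order is divisible by `n`. -/
theorem dvd_log_ordInf_theta (γ : SL(2, ℤ)) (n : ℤ) (f : ↥(modularFunctionFieldBar N))
    (hf : f ≠ 0)
    (hn : ∀ v : Place (AlgebraicClosure ℚ) ↥(modularFunctionFieldBar N), n ∣ v.ord f) :
    n * ((N / width N γ : ℕ) : ℤ) ∣ WithZero.log (ordInf N (modAut N γ (Theta N f))) := by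
  obtain ⟨v, -, hlog⟩ := exists_place_log_ordInf N γ
  rw [hlog f hf, mul_comm n]
  exact (dvd_neg).mpr (mul_dvd_mul_left _ (hn v))

end modular2

end Fermat.Agent.S30.K2Ord5154
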