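import Fermat.Agent.S30.MerRoot

/-!
# GALREP / S30 toolbox: the multiplier character of an `n`-th root (helper2034)

Setting of the landed S24 library (`Fermat.Agent.S24.B2M`): `MerH`, `merAut : SL(2,ℤ) →* MerH ≃+* MerH`
(`(γ • f) τ = f (γ⁻¹ τ)`).

* `Multiplier.constM` : constants `ℂ →+* MerH`, fixed by `merAut`.
* `Multiplier.root_unique` : `h₂ ^ n = h₁ ^ n`, `h₁ ≠ 0` ⟹ `h₂ = ζ h₁` with `ζ ^ n = 1` constant.
* `Multiplier.exists_multiplier` : if `h ≠ 0` and `h ^ n` is invariant under a subgroup `Γ`, there is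
  a character `φ : Γ →* ℂˣ` with values in `μ_n` such that `γ • h = φ γ • h` for all `γ ∈ Γ`.
* `Multiplier.multiplier_unique`, `Multiplier.multiplier_mul`, `Multiplier.multiplier_of_invariant`:
  the character is unique, multiplicative in `h`, trivial iff `h` is `Γ`-invariant.

Step K3 (formal part) of the Kummer map `J[n] → Hom(Γ₀(N), μ_n)`.
-/

set_option autoImplicit false

open UpperHalfPlane Complex Polynomial
open scoped MatrixGroups

namespace Fermat.Agent.S30.Multiplier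

open Fermat.Agent.S24.B2M

/-- Constants in `MerH`. -/
noncomputable def constM : ℂ →+* MerH := (algebraMap HolH MerH).comp constHol

theorem constM_injective : Function.Injective constM := constM.injective

theorem merAut_constM (γ : SL(2, ℤ)) (c : ℂ) : merAut γ (constM c) = constM c := by
  show merAut γ (algebraMap HolH MerH (constHol c)) = algebraMap HolH MerH (constHol c)
  rw [merAut_algebraMap]
  rfl

/-- An element of `MerH` whose `n`-th power is `1` is a constant root of unity. -/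
theorem eq_constM_of_pow_eq_one {n : ℕ} (hn : n ≠ 0) {w : MerH} (hw : w ^ n = 1) :
    ∃ ζ : ℂ, ζ ^ n = 1 ∧ w = constM ζ := by
  have hprim := Complex.isPrimitiveRoot_exp n hn
  have hfac := X_pow_sub_one_eq_prod (Nat.pos_of_ne_zero hn) hprim
  have h2 := congrArg (fun p : ℂ[X] => (p.map constM).eval w) hfac
  simp only [Polynomial.map_sub, Polynomial.map_pow, Polynomial.map_X, Polynomial.map_one,
    Polynomial.eval_sub, Polynomial.eval_pow, Polynomial.eval_X, Polynomial.eval_one,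
    Polynomial.map_prod, Polynomial.eval_prod, Polynomial.map_C] at h2
  rw [hw, sub_self] at h2
  obtain ⟨ζ, hζ, hζw⟩ := Finset.prod_eq_zero_iff.mp h2.symm
  refine ⟨ζ, ?_, ?_⟩
  · exact (Polynomial.mem_nthRootsFinset (Nat.pos_of_ne_zero hn) 1).mp hζ
  · simpa [sub_eq_zero] using hζw

theorem root_unique {n : ℕ} (hn : n ≠ 0) {h1 h2 : MerH} (h10 : h1 ≠ 0) (h : h2 ^ n = h1 ^ n) :
    ∃ ζ : ℂ, ζ ^ n = 1 ∧ h2 = constM ζ * h1 := by
  have hw : (h2 / h1) ^ n = 1 := by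
    rw [div_pow, h, div_self (pow_ne_zero n h10)]
  obtain ⟨ζ, hζ, hζw⟩ := eq_constM_of_pow_eq_one hn hw
  exact ⟨ζ, hζ, by rw [← hζw, div_mul_cancel₀ _ h10]⟩

/-- The multiplier character of an `n`-th root `h` of a `Γ`-invariant element. -/
theorem exists_multiplier (Γ : Subgroup SL(2, ℤ)) {n : ℕ} (hn : n ≠ 0) {h : MerH} (h0 : h ≠ 0)
    (hinv : ∀ γ ∈ Γ, merAut γ (h ^ n) = h ^ n) :
    ∃ φ : Γ →* ℂˣ, (∀ γ : Γ, ((φ γ : ℂˣ) : ℂ) ^ n = 1) ∧
      ∀ γ : Γ, merAut (γ : SL(2, ℤ)) h = constM (φ γ : ℂˣ) * h := by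
  classical
  have hex : ∀ γ : Γ, ∃ ζ : ℂ, ζ ^ n = 1 ∧ merAut (γ : SL(2, ℤ)) h = constM ζ * h := by
    intro γ
    refine root_unique hn h0 ?_
    rw [← map_pow, hinv γ γ.2]
  choose ζ hζn hζ using hex
  have hζ0 : ∀ γ : Γ, ζ γ ≠ 0 := by
    intro γ h0'
    have := hζn γ
    rw [h0', zero_pow hn] at this
    exact zero_ne_one this
  have hcancel : ∀ a b : ℂ, constM a * h = constM b * h → a = b := by
    intro a b hab
    exact constM_injective (mul_right_cancel₀ h0 hab)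
  have hone : ζ 1 = 1 := by
    apply hcancel
    rw [← hζ 1]
    simp
  have hmul : ∀ γ δ : Γ, ζ (γ * δ) = ζ γ * ζ δ := by
    intro γ δ
    apply hcancel
    rw [← hζ (γ * δ)]
    show merAut ((γ : SL(2, ℤ)) * (δ : SL(2, ℤ))) h = _
    rw [map_mul]
    show merAut (γ : SL(2, ℤ)) (merAut (δ : SL(2, ℤ)) h) = _
    rw [hζ δ, map_mul, merAut_constM, hζ γ, map_mul]
    ring
  refine ⟨{ toFun := fun γ => Units.mk0 (ζ γ) (hζ0 γ)
            map_one' := Units.ext hone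
            map_mul' := fun γ δ => Units.ext (hmul γ δ) }, fun γ => hζn γ, fun γ => hζ γ⟩

theorem multiplier_unique (Γ : Subgroup SL(2, ℤ)) {h : MerH} (h0 : h ≠ 0) {φ ψ : Γ →* ℂˣ}
    (hφ : ∀ γ : Γ, merAut (γ : SL(2, ℤ)) h = constM (φ γ : ℂˣ) * h)
    (hψ : ∀ γ : Γ, merAut (γ : SL(2, ℤ)) h = constM (ψ γ : ℂˣ) * h) : φ = ψ := by
  ext γ
  have := (hφ γ).symm.trans (hψ γ)
  exact constM_injective (mul_right_cancel₀ h0 this)

theorem multiplier_mul (Γ : Subgroup SL(2, ℤ)) {h k : MerH} {φ ψ : Γ →* ℂˣ}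
    (hφ : ∀ γ : Γ, merAut (γ : SL(2, ℤ)) h = constM (φ γ : ℂˣ) * h)
    (hψ : ∀ γ : Γ, merAut (γ : SL(2, ℤ)) k = constM (ψ γ : ℂˣ) * k) :
    ∀ γ : Γ, merAut (γ : SL(2, ℤ)) (h * k) = constM ((φ * ψ) γ : ℂˣ) * (h * k) := by
  intro γ
  rw [map_mul, hφ γ, hψ γ, MonoidHom.mul_apply, Units.val_mul, map_mul]
  ring

theorem multiplier_eq_one_iff (Γ : Subgroup SL(2, ℤ)) {h : MerH} (h0 : h ≠ 0) {φ : Γ →* ℂˣ}
    (hφ : ∀ γ : Γ, merAut (γ : SL(2, ℤ)) h = constM (φ γ : ℂˣ) * h) :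
    φ = 1 ↔ ∀ γ : Γ, merAut (γ : SL(2, ℤ)) h = h := by
  constructor
  · intro h1 γ
    rw [hφ γ, h1]
    simp
  · intro hinv
    ext γ
    have h1 := hφ γ
    rw [hinv γ] at h1
    have h2 : constM 1 * h = constM (φ γ : ℂˣ) * h := by simpa using h1
    have := constM_injective (mul_right_cancel₀ h0 h2)
    simpa using this.symm

end Fermat.Agent.S30.Multiplier
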