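import Fermat.Agent.S30.K2Ord5154
import Fermat.Agent.S30.Multiplier
import Fermat.Agent.S21.Parabolic

/-!
# GALREP / Kummer bridge, leaf K3-PAR (helper5154): parabolic triviality of the Kummer character

Setting: `f ∈ modularFunctionFieldBar N` with all place orders divisible by `n`
(`n D = div f`), `h ∈ MerH` with `h ^ n = Theta N f`.  Then `h` is invariant under the parabolic
elements `γ⁻¹ T^w γ ∈ Γ₀(N)` (`w = width N γ` the width of the cusp `γ⁻¹ ∞`).

* `zeta_eq_one_core` : the cusp computation with leading terms (`S24.B2C.HasCuspLeading`).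
* `zeta_eq_one_of_merAut_T_pow` : `H ∈ MerH`, `H ^ n = Φ ∈ ModMer N`,
  `merAut (T ^ w) H = ζ H`, and `n * (N / w)` divides the `q_N`-order of `Φ` at `∞` ⟹ `ζ = 1`.
* `merAut_conj_T_pow_width` : the statement above.

Uses helper2034's `HoloRoot/MerRoot/Multiplier` (holomorphic roots, uniqueness of roots).
-/

set_option autoImplicit false
set_option linter.style.haveILetI false
set_option linter.unusedSectionVars false
open ModularCurve AlgebraicCurve UpperHalfPlane Filter Topology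
open scoped MatrixGroups Manifold

namespace Fermat.Agent.S30.K3Par5154

open Fermat.Agent.S24 Fermat.Agent.S24.B2C Fermat.Agent.S24.B2M Fermat.Agent.S30.K2Ord5154

local notation "𝕢" => Function.Periodic.qParam

/-! ### Leading terms: powers and change of parameter -/

theorem hasCuspLeading_pow {h : ℝ} {g : ℍ → ℂ} {a : ℤ} {c : ℂ} (hg : HasCuspLeading h g a c)
    (j : ℕ) : HasCuspLeading h (g ^ j) (j * a) (c ^ j) := by
  induction j with
  | zero =>
    rw [pow_zero, pow_zero, Nat.cast_zero, zero_mul]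
    exact HasCuspLeading.const (one_ne_zero : (1 : ℂ) ≠ 0) h
  | succ j ih =>
    have := ih.mul hg
    have e1 : ((j + 1 : ℕ) : ℤ) * a = (j : ℤ) * a + a := by push_cast; ring
    rw [pow_succ, pow_succ, e1]
    exact this

theorem qParam_mul_pow (n N : ℕ) (hn : 0 < n) (z : ℂ) :
    𝕢 ((n * N : ℕ) : ℝ) z ^ n = 𝕢 (N : ℝ) z := by
  rcases Nat.eq_zero_or_pos N with rfl | hN
  · simp [Function.Periodic.qParam]
  simp only [Function.Periodic.qParam]
  rw [← Complex.exp_nat_mul]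
  congr 1
  have hn' : (n : ℂ) ≠ 0 := by exact_mod_cast hn.ne'
  have hN' : (N : ℂ) ≠ 0 := by exact_mod_cast hN.ne'
  push_cast
  field_simp

theorem hasCuspLeading_of_mul {n N : ℕ} (hn : 0 < n) {g : ℍ → ℂ} {a : ℤ} {c : ℂ}
    (hg : HasCuspLeading (N : ℝ) g a c) :
    HasCuspLeading ((n * N : ℕ) : ℝ) g (n * a) c := by
  refine ⟨hg.1, hg.2.congr fun τ => ?_⟩
  have h1 : 𝕢 ((n * N : ℕ) : ℝ) (τ : ℂ) ^ (-((n : ℤ) * a))
      = 𝕢 (N : ℝ) (τ : ℂ) ^ (-a) := by
    rw [← qParam_mul_pow n N hn (τ : ℂ), ← zpow_natCast, ← zpow_mul, mul_neg]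
  rw [h1]

/-! ### The cusp computation -/

/-- **Core.**  `k` holomorphic on `ℍ`, `(n N)`-periodic, of moderate growth, with
`k ^ n = A * B ^ (n - 1)`, where `A`, `B` have leading terms of orders `a`, `b` w.r.t. `q_N`;
if `k (τ + w) B (τ) = ζ k (τ) B (τ + w)` and `n N ∣ w (a - b)` then `ζ = 1`. -/
theorem zeta_eq_one_core {N n : ℕ} (hN : 0 < N) (hn : 0 < n) (w : ℤ)
    {A B k : ℍ → ℂ} {a b : ℤ} {cA cB : ℂ}
    (hA : HasCuspLeading (N : ℝ) A a cA) (hB : HasCuspLeading (N : ℝ) B b cB)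
    (hk : MDiff k) (hkper : ∀ τ : ℍ, k ((((n * N : ℕ) : ℝ)) +ᵥ τ) = k τ)
    (hkbd : ∃ K : ℕ, IsBoundedAtImInfty (fun τ : ℍ => 𝕢 ((n * N : ℕ) : ℝ) τ ^ K * k τ))
    (hkn : ∀ τ : ℍ, k τ ^ n = A τ * B τ ^ (n - 1))
    (ζ : ℂ) (hζ : ∀ τ : ℍ, k ((w : ℝ) +ᵥ τ) * B τ = ζ * k τ * B ((w : ℝ) +ᵥ τ))
    (hdiv : ((n * N : ℕ) : ℤ) ∣ w * (a - b)) : ζ = 1 := by
  have hnN : 0 < n * N := Nat.mul_pos hn hN
  have hnNr : (0 : ℝ) < ((n * N : ℕ) : ℝ) := by exact_mod_cast hnN
  -- leading term of `A * B ^ (n - 1)`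
  have hAB : HasCuspLeading (N : ℝ) (A * B ^ (n - 1)) (a + ((n - 1 : ℕ) : ℤ) * b)
      (cA * cB ^ (n - 1)) := hA.mul (hasCuspLeading_pow hB (n - 1))
  have hkfun : k ^ n = A * B ^ (n - 1) := by
    funext τ
    simp only [Pi.pow_apply, Pi.mul_apply]
    exact hkn τ
  have hk0 : k ≠ 0 := by
    rintro rfl
    have h0 : (0 : ℍ → ℂ) ^ n = 0 := zero_pow hn.ne'
    rw [h0] at hkfun
    exact hAB.ne_zero hkfun.symm
  obtain ⟨e, c₀, hke⟩ := exists_hasCuspLeading hnN hk hkper hkbd hk0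
  -- the order of `k`
  have hkpow : HasCuspLeading ((n * N : ℕ) : ℝ) (k ^ n) (n * e) (c₀ ^ n) :=
    hasCuspLeading_pow hke n
  have hAB' := hasCuspLeading_of_mul hn hAB
  rw [hkfun] at hkpow
  have he : (n : ℤ) * e = n * (a + ((n - 1 : ℕ) : ℤ) * b) := (hkpow.unique hnNr hAB').1
  have he' : e = a + ((n - 1 : ℕ) : ℤ) * b :=
    mul_left_cancel₀ (by exact_mod_cast hn.ne' : (n : ℤ) ≠ 0) he
  have hB' := hasCuspLeading_of_mul hn hB
  -- the shift relation
  set X : ℂ := Complex.exp (2 * Real.pi * Complex.I * w / ((n * N : ℕ) : ℝ)) with hX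
  have hX0 : X ≠ 0 := Complex.exp_ne_zero _
  have hL : HasCuspLeading ((n * N : ℕ) : ℝ) ((fun τ : ℍ => k ((w : ℝ) +ᵥ τ)) * B)
      (e + n * b) (X ^ e * c₀ * cB) := (hke.comp_vadd w).mul hB'
  have hζ0 : ζ ≠ 0 := by
    rintro rfl
    have h0 : ((fun τ : ℍ => k ((w : ℝ) +ᵥ τ)) * B) = 0 := by
      funext τ
      simp only [Pi.mul_apply, Pi.zero_apply]
      rw [hζ τ]
      ring
    exact hL.ne_zero h0
  have hR : HasCuspLeading ((n * N : ℕ) : ℝ)
      (((fun _ : ℍ => ζ) * k) * (fun τ : ℍ => B ((w : ℝ) +ᵥ τ)))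
      ((0 + e) + n * b) ((ζ * c₀) * (X ^ ((n : ℤ) * b) * cB)) :=
    ((HasCuspLeading.const hζ0 _).mul hke).mul (hB'.comp_vadd w)
  have hfun : ((fun τ : ℍ => k ((w : ℝ) +ᵥ τ)) * B)
      = (((fun _ : ℍ => ζ) * k) * (fun τ : ℍ => B ((w : ℝ) +ᵥ τ))) := by
    funext τ
    simp only [Pi.mul_apply]
    exact hζ τ
  rw [hfun] at hL
  have hc := (hL.unique hnNr hR).2
  -- `ζ = X ^ (e - n b)`
  have h1 : X ^ e = ζ * X ^ ((n : ℤ) * b) := by
    have h2 : X ^ e * (c₀ * cB) = ζ * X ^ ((n : ℤ) * b) * (c₀ * cB) := by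
      linear_combination hc
    exact mul_right_cancel₀ (mul_ne_zero hke.1 hB.1) h2
  have h3 : ζ = X ^ (e - (n : ℤ) * b) := by
    rw [zpow_sub₀ hX0, h1, mul_div_assoc, div_self (zpow_ne_zero _ hX0), mul_one]
  have h4 : e - (n : ℤ) * b = a - b := by
    rw [he']
    have : ((n - 1 : ℕ) : ℤ) = (n : ℤ) - 1 := by
      rw [Nat.cast_sub hn]
      simp
    rw [this]
    ring
  rw [h3, h4, hX, ← Complex.exp_int_mul]
  obtain ⟨t, ht⟩ := hdiv
  rw [Complex.exp_eq_one_iff]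
  refine ⟨t, ?_⟩
  have hnNc : (((n * N : ℕ) : ℝ) : ℂ) ≠ 0 := by
    exact_mod_cast hnN.ne'
  have ht' : ((w : ℂ) * ((a : ℂ) - (b : ℂ))) = (((n * N : ℕ) : ℝ) : ℂ) * (t : ℂ) := by
    have := congrArg (fun x : ℤ => (x : ℂ)) ht
    push_cast at this ⊢
    exact this
  have key : ((a - b : ℤ) : ℂ) * (2 * Real.pi * Complex.I * w / (((n * N : ℕ) : ℝ) : ℂ))
      = (t : ℂ) * (2 * Real.pi * Complex.I) := by
    have h5 : ((a - b : ℤ) : ℂ) * (2 * Real.pi * Complex.I * w / (((n * N : ℕ) : ℝ) : ℂ))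
        = (2 * Real.pi * Complex.I) * (((w : ℂ) * ((a : ℂ) - b)) / (((n * N : ℕ) : ℝ) : ℂ)) := by
      push_cast
      ring
    rw [h5, ht', mul_div_cancel_left₀ _ hnNc]
    ring
  exact key

/-! ### From `MerH` to functions -/

theorem isBoundedAtImInfty_root {N n : ℕ} (hn : 0 < n) (K : ℕ) {k c : ℍ → ℂ}
    (hkn : ∀ τ : ℍ, k τ ^ n = c τ)
    (hc : IsBoundedAtImInfty (fun τ : ℍ => 𝕢 (N : ℝ) τ ^ K * c τ)) :
    IsBoundedAtImInfty (fun τ : ℍ => 𝕢 ((n * N : ℕ) : ℝ) τ ^ K * k τ) := by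
  rw [isBoundedAtImInfty_iff] at hc ⊢
  obtain ⟨M, Y, hM⟩ := hc
  refine ⟨max M 1, Y, fun z hz => ?_⟩
  have h1 := hM z hz
  set x : ℝ := ‖𝕢 ((n * N : ℕ) : ℝ) z ^ K * k z‖ with hx
  have hx0 : 0 ≤ x := norm_nonneg _
  have h2 : x ^ n = ‖𝕢 (N : ℝ) z ^ K * c z‖ := by
    rw [hx, ← norm_pow, mul_pow, ← pow_mul, mul_comm K n, pow_mul, qParam_mul_pow n N hn, hkn z]
  by_contra hcon
  rw [not_le] at hcon
  have h3 : 1 ≤ x := le_trans (le_max_right M 1) hcon.le
  have h4 : x ≤ x ^ n := le_self_pow₀ h3 hn.ne'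
  have h5 : M < x := lt_of_le_of_lt (le_max_left M 1) hcon
  rw [h2] at h4
  linarith

/-- `H ∈ MerH` with `H ^ n = Φ ∈ ModMer N`, `merAut (T ^ w) H = ζ H`, and the `q_N`-order of `Φ`
at `∞` divisible by `n * (N / w)`: then `ζ = 1`. -/
theorem zeta_eq_one_of_merAut_T_pow (N : ℕ) [NeZero N] {n : ℕ} (hn : n ≠ 0) (w : ℕ)
    (hw : w ∣ N) (Φ : ModMer N) (hΦ : Φ ≠ 0) (H : MerH) (hH : H ^ n = modMerToMerH N Φ) (ζ : ℂ)
    (hζ : merAut (ModularGroup.T ^ w) H = Multiplier.constM ζ * H)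
    (hdiv : (n : ℤ) * ((N / w : ℕ) : ℤ) ∣ WithZero.log (ordInf N Φ)) : ζ = 1 := by
  classical
  have hN : 0 < N := Nat.pos_of_ne_zero (NeZero.ne N)
  have hn0 : 0 < n := Nat.pos_of_ne_zero hn
  obtain ⟨A, B, hB, rfl⟩ := IsFractionRing.div_surjective (A := ModHol N) Φ
  have hB0 : B ≠ 0 := nonZeroDivisors.ne_zero hB
  have hA0 : A ≠ 0 := by
    rintro rfl
    simp at hΦ
  set A' : HolH := modHolToHolH N A with hA'
  set B' : HolH := modHolToHolH N B with hB'
  have hA'0 : A' ≠ 0 := fun h => hA0 ((map_eq_zero_iff _ (modHolToHolH_injective N)).mp h)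
  have hB'0 : B' ≠ 0 := fun h => hB0 ((map_eq_zero_iff _ (modHolToHolH_injective N)).mp h)
  have hιinj := IsFractionRing.injective HolH MerH
  have hιne : ∀ x : HolH, x ≠ 0 → algebraMap HolH MerH x ≠ 0 := fun x hx h =>
    hx ((map_eq_zero_iff _ hιinj).mp h)
  have hιB : algebraMap HolH MerH B' ≠ 0 := hιne B' hB'0
  have hHn : H ^ n = algebraMap HolH MerH A' / algebraMap HolH MerH B' := by
    rw [hH, map_div₀, modMerToMerH_algebraMap, modMerToMerH_algebraMap]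
  obtain ⟨c, hc⟩ : ∃ c : HolH, c = A' * B' ^ (n - 1) := ⟨_, rfl⟩
  have hc0 : c ≠ 0 := by
    rw [hc]
    exact mul_ne_zero hA'0 (pow_ne_zero _ hB'0)
  have hKn : (H * algebraMap HolH MerH B') ^ n = algebraMap HolH MerH c := by
    have h1 : algebraMap HolH MerH B' ^ n
        = algebraMap HolH MerH B' ^ (n - 1) * algebraMap HolH MerH B' := by
      rw [← pow_succ, Nat.sub_add_cancel hn0]
    rw [mul_pow, hHn, hc, map_mul, map_pow, h1]
    field_simp
  -- all orders of `c` are divisible by `n`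
  have hdvd : ∀ τ : ℍ, n ∣ ordNat τ c := by
    intro τ
    have h1 := congrArg (fun x => WithZero.log (ordVal τ x)) hKn
    simp only [map_pow, WithZero.log_pow, ordVal_algebraMap] at h1
    rw [ordValHol_apply τ c hc0, WithZero.log_exp] at h1
    have h2 : (n : ℤ) ∣ (ordNat τ c : ℤ) := by
      have h3 : ((ordNat τ c : ℕ) : ℤ)
          = -((n : ℤ) * WithZero.log (ordVal τ (H * algebraMap HolH MerH B'))) := by
        rw [← smul_eq_mul, natCast_zsmul, h1]
        simp [ordNat]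
      rw [h3]
      exact (dvd_neg).mpr (dvd_mul_right _ _)
    exact Int.natCast_dvd_natCast.mp h2
  obtain ⟨k, hιk, hkn⟩ : ∃ k : HolH,
      algebraMap HolH MerH k = H * algebraMap HolH MerH B' ∧ k ^ n = c := by
    obtain ⟨k₀, hk₀⟩ := MerRoot.exists_holH_root c hc0 hn hdvd
    have hk₀0 : k₀ ≠ 0 := by
      rintro rfl
      rw [zero_pow hn] at hk₀
      exact hc0 hk₀.symm
    obtain ⟨ξ, hξ, hKξ⟩ := Multiplier.root_unique hn (hιne k₀ hk₀0)
      (by rw [hKn, ← map_pow, hk₀] :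
        (H * algebraMap HolH MerH B') ^ n = (algebraMap HolH MerH k₀) ^ n)
    refine ⟨constHol ξ * k₀, ?_, ?_⟩
    · rw [hKξ, map_mul]
      rfl
    · rw [mul_pow, ← map_pow, hξ, map_one, one_mul, hk₀]
  have hk0 : k ≠ 0 := by
    rintro h0
    rw [h0, zero_pow hn] at hkn
    exact hc0 hkn.symm
  -- the shift relation
  have hshift : holAut (ModularGroup.T ^ w) k * B'
      = constHol ζ * k * holAut (ModularGroup.T ^ w) B' := by
    apply hιinj
    rw [map_mul, map_mul, map_mul, ← merAut_algebraMap, ← merAut_algebraMap, hιk, map_mul, hζ]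
    show Multiplier.constM ζ * H * _ * _ = Multiplier.constM ζ * _ * _
    ring
  have hTinv : ∀ τ : ℍ, (ModularGroup.T ^ w)⁻¹ • τ = (((-(w : ℤ) : ℤ) : ℝ)) +ᵥ τ := by
    intro τ
    rw [← zpow_natCast, ← zpow_neg, UpperHalfPlane.modular_T_zpow_smul]
  have hζpt : ∀ τ : ℍ, k.1 ((((-(w : ℤ) : ℤ) : ℝ)) +ᵥ τ) * B'.1 τ
      = ζ * k.1 τ * B'.1 ((((-(w : ℤ) : ℤ) : ℝ)) +ᵥ τ) := by
    intro τ
    have h1 := congrArg (fun x : HolH => x.1 τ) hshift
    simp only [Subring.coe_mul, Pi.mul_apply, holAut_apply, hTinv] at h1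
    exact h1
  -- periodicity
  have hBper : ∀ τ : ℍ, B'.1 ((N : ℝ) +ᵥ τ) = B'.1 τ := (modHolToHolCusp N B).2.2.1
  have hAper : ∀ τ : ℍ, A'.1 ((N : ℝ) +ᵥ τ) = A'.1 τ := (modHolToHolCusp N A).2.2.1
  have hTN : ∀ τ : ℍ, (ModularGroup.T ^ (-(N : ℤ)))⁻¹ • τ = (N : ℝ) +ᵥ τ := by
    intro τ
    rw [← zpow_neg, neg_neg, UpperHalfPlane.modular_T_zpow_smul]
    simp
  have hcper : holAut (ModularGroup.T ^ (-(N : ℤ))) c = c := by
    apply Subtype.ext
    funext τ
    rw [holAut_apply, hTN, hc]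
    simp only [Subring.coe_mul, Subring.coe_pow, Pi.mul_apply, Pi.pow_apply]
    rw [hAper, hBper]
  obtain ⟨η, hη, hkη⟩ := Multiplier.root_unique hn (hιne k hk0)
    (by rw [← map_pow, ← map_pow, ← map_pow, hkn, hcper] :
      (algebraMap HolH MerH (holAut (ModularGroup.T ^ (-(N : ℤ))) k)) ^ n
        = (algebraMap HolH MerH k) ^ n)
  have hkη' : holAut (ModularGroup.T ^ (-(N : ℤ))) k = constHol η * k := by
    apply hιinj
    rw [hkη, map_mul]
    rfl
  have hkN : ∀ τ : ℍ, k.1 ((N : ℝ) +ᵥ τ) = η * k.1 τ := by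
    intro τ
    have h1 := congrArg (fun x : HolH => x.1 τ) hkη'
    simp only [holAut_apply, hTN, Subring.coe_mul, Pi.mul_apply] at h1
    exact h1
  have hkjN : ∀ j : ℕ, ∀ τ : ℍ, k.1 (((j * N : ℕ) : ℝ) +ᵥ τ) = η ^ j * k.1 τ := by
    intro j
    induction j with
    | zero =>
      intro τ
      simp
    | succ j ih =>
      intro τ
      have e1 : (((j + 1) * N : ℕ) : ℝ) +ᵥ τ = (N : ℝ) +ᵥ (((j * N : ℕ) : ℝ) +ᵥ τ) := by
        rw [vadd_vadd]
        congr 1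
        push_cast
        ring
      rw [e1, hkN, ih τ, pow_succ]
      ring
  have hkper : ∀ τ : ℍ, k.1 (((n * N : ℕ) : ℝ) +ᵥ τ) = k.1 τ := by
    intro τ
    rw [hkjN n τ, hη, one_mul]
  -- growth
  have hknpt : ∀ τ : ℍ, k.1 τ ^ n = A'.1 τ * B'.1 τ ^ (n - 1) := by
    intro τ
    have h1 := congrArg (fun x : HolH => x.1 τ) hkn
    simpa [hc] using h1
  obtain ⟨K₁, hK₁⟩ := (modHolToHolCusp N (A * B ^ (n - 1))).2.2.2
  have hkbd : ∃ K : ℕ, IsBoundedAtImInfty (fun τ : ℍ => 𝕢 ((n * N : ℕ) : ℝ) τ ^ K * k.1 τ) :=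
    ⟨K₁, isBoundedAtImInfty_root hn0 K₁ (c := fun τ => A'.1 τ * B'.1 τ ^ (n - 1)) hknpt hK₁⟩
  -- leading terms
  obtain ⟨a, cA, hAl⟩ := HolCusp.exists_leading (modHolToHolCusp N A)
    (fun h => hA0 ((map_eq_zero_iff _ (modHolToHolCusp_injective N)).mp h))
  obtain ⟨b, cB, hBl⟩ := HolCusp.exists_leading (modHolToHolCusp N B)
    (fun h => hB0 ((map_eq_zero_iff _ (modHolToHolCusp_injective N)).mp h))
  have hlog : WithZero.log (ordInf N (algebraMap (ModHol N) (ModMer N) A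
      / algebraMap (ModHol N) (ModMer N) B)) = b - a := by
    show WithZero.log (cuspValFrac N (modMerToMerCusp N _)) = _
    rw [map_div₀, modMerToMerCusp_algebraMap, modMerToMerCusp_algebraMap, map_div₀,
      cuspValFrac_eq_of_leading hAl, cuspValFrac_eq_of_leading hBl,
      WithZero.log_div WithZero.exp_ne_zero WithZero.exp_ne_zero, WithZero.log_exp,
      WithZero.log_exp]
    ring
  rw [hlog] at hdiv
  have hdiv' : ((n * N : ℕ) : ℤ) ∣ (-(w : ℤ)) * (a - b) := by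
    obtain ⟨t, ht⟩ := hdiv
    obtain ⟨u, hu⟩ := hw
    have hw0 : 0 < w := Nat.pos_of_ne_zero (by rintro rfl; simp at hu; exact hN.ne' hu)
    have hNw : N / w = u := by rw [hu, Nat.mul_div_cancel_left u hw0]
    rw [hNw] at ht
    refine ⟨t, ?_⟩
    rw [hu]
    push_cast
    linear_combination (w : ℤ) * ht
  exact zeta_eq_one_core hN hn0 (-(w : ℤ)) hAl hBl k.2 hkper hkbd hknpt ζ hζpt hdiv'

/-! ### Parabolic triviality -/

section parabolic

variable (N : ℕ) [NeZero N]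

/-- **K3-PAR at a cusp.**  If all place orders of `f` are divisible by `n` and `h ^ n = Theta N f`
in `MerH`, then `h` is invariant under the generator `γ⁻¹ T^w γ` of the stabiliser of the cusp
`γ⁻¹ ∞` in `Γ₀(N)` (`w = width N γ`). -/
theorem merAut_conj_T_pow_width {n : ℕ} (hn : n ≠ 0)
    (f : ↥(modularFunctionFieldBar N)) (hf : f ≠ 0)
    (hdiv : ∀ v : Place (AlgebraicClosure ℚ) ↥(modularFunctionFieldBar N), (n : ℤ) ∣ v.ord f)
    (h : MerH) (hh : h ^ n = modMerToMerH N (Theta N f)) (γ : SL(2, ℤ)) :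
    merAut (γ⁻¹ * ModularGroup.T ^ width N γ * γ) h = h := by
  obtain ⟨P, hP⟩ : ∃ P : SL(2, ℤ), P = γ⁻¹ * ModularGroup.T ^ width N γ * γ := ⟨_, rfl⟩
  rw [← hP]
  have hPmem : P ∈ CongruenceSubgroup.Gamma0 N := by
    rw [hP]
    exact conj_T_pow_width_mem N γ
  have hΘ0 : Theta N f ≠ 0 := (map_ne_zero _).mpr hf
  have hh0 : h ≠ 0 := by
    rintro rfl
    rw [zero_pow hn] at hh
    exact (map_ne_zero (modMerToMerH N)).mpr hΘ0 hh.symm
  have hinv : merAut P h ^ n = h ^ n := by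
    rw [← map_pow, hh, ← modMerToMerH_modAut]
    congr 1
    exact b6_hH N P hPmem f
  obtain ⟨ζ, -, hζ⟩ := Multiplier.root_unique hn hh0 hinv
  have hH : (merAut γ h) ^ n = modMerToMerH N (modAut N γ (Theta N f)) := by
    rw [← map_pow, hh, modMerToMerH_modAut]
  have hζ' : merAut (ModularGroup.T ^ width N γ) (merAut γ h)
      = Multiplier.constM ζ * merAut γ h := by
    have e : ModularGroup.T ^ width N γ * γ = γ * P := by
      rw [hP]
      group
    have h1 : merAut (ModularGroup.T ^ width N γ) (merAut γ h)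
        = merAut (ModularGroup.T ^ width N γ * γ) h := by
      rw [map_mul]
      rfl
    rw [h1, e, map_mul]
    show merAut γ (merAut P h) = _
    rw [hζ, map_mul, Multiplier.merAut_constM]
  have hΦ0 : modAut N γ (Theta N f) ≠ 0 := by
    intro h0
    apply hΘ0
    have := congrArg (modAut N γ).symm h0
    simpa using this
  have h1 := zeta_eq_one_of_merAut_T_pow N hn (width N γ) (width_dvd_level N γ)
    (modAut N γ (Theta N f)) hΦ0 (merAut γ h) hH ζ hζ' (dvd_log_ordInf_theta N γ n f hf hdiv)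
  rw [hζ, h1, map_one, one_mul]

/-- The stabiliser of `h ∈ MerH` in `SL(2,ℤ)`. -/
def stab (h : MerH) : Subgroup SL(2, ℤ) where
  carrier := {g | merAut g h = h}
  mul_mem' := by
    intro a b ha hb
    show merAut (a * b) h = h
    rw [map_mul]
    show merAut a (merAut b h) = h
    rw [hb, ha]
  one_mem' := by
    show merAut 1 h = h
    rw [map_one]
    rfl
  inv_mem' := by
    intro a ha
    show merAut a⁻¹ h = h
    have h1 : merAut a⁻¹ (merAut a h) = h := by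
      show (merAut a⁻¹ * merAut a) h = h
      rw [← map_mul, inv_mul_cancel, map_one]
      rfl
    rwa [ha] at h1

theorem mem_stab {h : MerH} {g : SL(2, ℤ)} : g ∈ stab h ↔ merAut g h = h := Iff.rfl

theorem neg_one_mem_stab (h : MerH) : (-1 : SL(2, ℤ)) ∈ stab h := by
  rw [mem_stab]
  obtain ⟨a, b, -, rfl⟩ := IsFractionRing.div_surjective (A := HolH) h
  have key : ∀ x : HolH, holAut (-1 : SL(2, ℤ)) x = x := by
    intro x
    apply Subtype.ext
    funext τ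
    rw [holAut_apply]
    have h1 : ((-1 : SL(2, ℤ))⁻¹) • τ = τ := by
      have h2 : ((-1 : SL(2, ℤ))⁻¹) = -1 := by
        rw [inv_eq_iff_mul_eq_one]
        simp
      rw [h2, ModularGroup.SL_neg_smul, one_smul]
    rw [h1]
  rw [map_div₀, merAut_algebraMap, merAut_algebraMap, key, key]

/-- Every element of `SL(2,ℤ)` of trace `±2` is `± δ T^m δ⁻¹` (group-level form of the landed
`S21.Parabolic.parabolic_exists_conj_translate`). -/
theorem exists_conj_T_zpow (A : SL(2, ℤ))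
    (h : (A : Matrix (Fin 2) (Fin 2) ℤ).trace ^ 2 = 4) :
    ∃ (δ : SL(2, ℤ)) (m : ℤ),
      A * δ = δ * ModularGroup.T ^ m ∨ A * δ = -(δ * ModularGroup.T ^ m) := by
  have hdet : A 0 0 * A 1 1 - A 0 1 * A 1 0 = 1 := by
    have := A.det_coe
    rw [Matrix.det_fin_two] at this
    exact this
  have htr : (A 0 0 + A 1 1) ^ 2 = 4 := by
    rw [Matrix.trace_fin_two] at h
    exact h
  obtain ⟨p, q, ε, hpq, hε, h1, h2⟩ :=
    Fermat.Agent.S21.Parabolic.parabolic_exists_coprime_eigenvector _ _ _ _ hdet htr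
  obtain ⟨δ, hδ0, hδ1⟩ := hpq.exists_SL2_col 0
  have hδdet : p * δ 1 1 - δ 0 1 * q = 1 := by
    have := δ.det_coe
    rw [Matrix.det_fin_two, hδ0, hδ1] at this
    exact this
  have hε1 : ε * ε = 1 := by rcases hε with rfl | rfl <;> norm_num
  obtain ⟨e1, e2⟩ := Fermat.Agent.S21.Parabolic.parabolic_conj_entries _ _ _ _ p q (δ 0 1)
    (δ 1 1) ε hdet hδdet hε1 h1 h2
  set m : ℤ := ε * (δ 1 1 * (A 0 0 * δ 0 1 + A 0 1 * δ 1 1)
    - δ 0 1 * (A 1 0 * δ 0 1 + A 1 1 * δ 1 1)) with hm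
  refine ⟨δ, m, ?_⟩
  rcases hε with rfl | rfl
  · left
    ext i j
    fin_cases i <;> fin_cases j <;>
      simp [Matrix.mul_apply, Fin.sum_univ_two, ModularGroup.coe_T_zpow, hδ0, hδ1]
    · linarith
    · linarith
    · linarith
    · linarith
  · right
    ext i j
    fin_cases i <;> fin_cases j <;>
      simp [Matrix.mul_apply, Fin.sum_univ_two, ModularGroup.coe_T_zpow, hδ0, hδ1]
    · linarith
    · linarith
    · linarith
    · linarith

theorem width_dvd_of_zpow_mem (γ : SL(2, ℤ)) (m : ℤ)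
    (hm : γ⁻¹ * ModularGroup.T ^ m * γ ∈ CongruenceSubgroup.Gamma0 N) : (width N γ : ℤ) ∣ m := by
  rcases Int.eq_nat_or_neg m with ⟨k, rfl | rfl⟩
  · rw [zpow_natCast] at hm
    exact Int.natCast_dvd_natCast.mpr (width_dvd_of_mem N γ k hm)
  · have h1 : (γ⁻¹ * ModularGroup.T ^ (-(k : ℤ)) * γ)⁻¹ = γ⁻¹ * ModularGroup.T ^ k * γ := by
      rw [zpow_neg, zpow_natCast]
      group
    have h2 := (CongruenceSubgroup.Gamma0 N).inv_mem hm
    rw [h1] at h2
    exact (dvd_neg).mpr (Int.natCast_dvd_natCast.mpr (width_dvd_of_mem N γ k h2))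

/-- **K3-PAR.**  If all place orders of `f` are divisible by `n` and `h ^ n = Theta N f` in
`MerH`, then `h` is invariant under every element of `Γ₀(N)` of trace `±2`. -/
theorem merAut_eq_self_of_trace_sq {n : ℕ} (hn : n ≠ 0)
    (f : ↥(modularFunctionFieldBar N)) (hf : f ≠ 0)
    (hdiv : ∀ v : Place (AlgebraicClosure ℚ) ↥(modularFunctionFieldBar N), (n : ℤ) ∣ v.ord f)
    (h : MerH) (hh : h ^ n = modMerToMerH N (Theta N f))
    (g : SL(2, ℤ)) (hg : g ∈ CongruenceSubgroup.Gamma0 N)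
    (htr : (g : Matrix (Fin 2) (Fin 2) ℤ).trace ^ 2 = 4) :
    merAut g h = h := by
  rw [← mem_stab]
  obtain ⟨δ, m, hδ⟩ := exists_conj_T_zpow g htr
  -- `γ = δ⁻¹`
  obtain ⟨γ, hγ⟩ : ∃ γ : SL(2, ℤ), γ = δ⁻¹ := ⟨_, rfl⟩
  have hδγ : δ = γ⁻¹ := by rw [hγ, inv_inv]
  have hneg : (-1 : SL(2, ℤ)) ∈ stab h := neg_one_mem_stab h
  have hcases : g = γ⁻¹ * ModularGroup.T ^ m * γ ∨ g = -1 * (γ⁻¹ * ModularGroup.T ^ m * γ) := by
    rcases hδ with hδ | hδ
    · left
      rw [← hδγ, ← hδ, hγ]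
      group
    · right
      have h1 : g = -(δ * ModularGroup.T ^ m) * δ⁻¹ := by
        rw [← hδ]
        group
      rw [h1, ← hδγ, hγ]
      simp [mul_assoc]
  have hPm : γ⁻¹ * ModularGroup.T ^ m * γ ∈ CongruenceSubgroup.Gamma0 N := by
    rcases hcases with h1 | h1
    · rw [← h1]
      exact hg
    · have h2 : γ⁻¹ * ModularGroup.T ^ m * γ = -1 * g := by
        rw [h1]
        simp
      rw [h2]
      exact (CongruenceSubgroup.Gamma0 N).mul_mem (b6_neg_one_mem N) hg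
  obtain ⟨t, ht⟩ := width_dvd_of_zpow_mem N γ m hPm
  have hPstab : γ⁻¹ * ModularGroup.T ^ m * γ ∈ stab h := by
    have h1 : γ⁻¹ * ModularGroup.T ^ m * γ
        = (γ⁻¹ * ModularGroup.T ^ width N γ * γ) ^ t := by
      have h2 := conj_zpow (a := γ⁻¹) (b := ModularGroup.T ^ width N γ) (i := t)
      rw [inv_inv] at h2
      rw [h2, ht, zpow_mul, zpow_natCast]
    rw [h1]
    exact (stab h).zpow_mem (mem_stab.mpr (merAut_conj_T_pow_width N hn f hf hdiv h hh γ)) t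
  rcases hcases with h1 | h1
  · rw [h1]
    exact hPstab
  · rw [h1]
    exact (stab h).mul_mem hneg hPstab

/-- Multiplier form: a character `φ` of `Γ₀(N)` with `merAut g h = φ(g) h` is trivial on the
elements of trace `±2` (so its logarithm is a parabolic homomorphism in the sense of the Prelude's
`ModularCurve.Period.IsParabolicHom`). -/
theorem multiplier_eq_one_of_trace_sq {n : ℕ} (hn : n ≠ 0)
    (f : ↥(modularFunctionFieldBar N)) (hf : f ≠ 0)
    (hdiv : ∀ v : Place (AlgebraicClosure ℚ) ↥(modularFunctionFieldBar N), (n : ℤ) ∣ v.ord f)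
    (h : MerH) (hh : h ^ n = modMerToMerH N (Theta N f))
    (φ : CongruenceSubgroup.Gamma0 N →* ℂˣ)
    (hφ : ∀ g : CongruenceSubgroup.Gamma0 N,
      merAut (g : SL(2, ℤ)) h = Multiplier.constM (φ g : ℂˣ) * h)
    (g : CongruenceSubgroup.Gamma0 N)
    (htr : ((g : SL(2, ℤ)) : Matrix (Fin 2) (Fin 2) ℤ).trace ^ 2 = 4) : φ g = 1 := by
  have hΘ0 : Theta N f ≠ 0 := (map_ne_zero _).mpr hf
  have hh0 : h ≠ 0 := by
    rintro rfl
    rw [zero_pow hn] at hh
    exact (map_ne_zero (modMerToMerH N)).mpr hΘ0 hh.symm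
  have h1 := hφ g
  rw [merAut_eq_self_of_trace_sq N hn f hf hdiv h hh g g.2 htr] at h1
  have h2 : Multiplier.constM 1 * h = Multiplier.constM (φ g : ℂˣ) * h := by
    simpa using h1
  have h3 := Multiplier.constM_injective (mul_right_cancel₀ hh0 h2)
  exact Units.ext h3.symm

end parabolic

end Fermat.Agent.S30.K3Par5154
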