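import Fermat.Agent.S30.K3Par5154
import Fermat.Agent.S30.Kappa6580.Modular
import Fermat.Agent.S30.Inv3761.Kummer

/-!
# GALREP / Kummer bridge, K7 ASSEMBLY (helper5154): the unconditional Kummer map

`kummer N n : J₀(N)(ℚ̄)[n] →+ Additive (Γ₀(N) →* ℂˣ)` with **no hypotheses**:

* `kummer_spec`          : it is the multiplier character of any `n`-th root `h ∈ MerH` of `Phi N f`,
                           for any degree-zero divisor `D` in the class and any `f` with `div f = n D`;
* `kummer_pow_eq_one`    : values in `μ_n`;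
* `kummer_injective`     : injective;
* `kummer_parabolic`     : trivial on the elements of trace `±2` (the Prelude's `IsParabolicHom`
                           condition);
* `kummer_mul_right`     : compatibility `J[n] ⊆ J[n m]`.

Assembly of: helper6580 `Kappa6580` (formal Kummer map from hypotheses `RootHyp`, `InjHyp`,
`ParHyp`), helper2034 `HoloRoot/MerRoot/Multiplier` (roots), helper3761 `Inv3761` (descent of
invariant roots = K5), and `K2Ord5154`, `K3Par5154` (orders, parabolic triviality), all on the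
landed S24/S21 libraries.
-/

set_option autoImplicit false
set_option linter.unusedSectionVars false

noncomputable section

open ModularCurve AlgebraicCurve
open scoped MatrixGroups

namespace Fermat.Agent.S30.KumAsm5154

open Fermat.Agent.S24 Fermat.Agent.S30.Kappa6580

variable (N : ℕ) [NeZero N]

/-- (K1 + K4) `RootHyp` of helper6580 holds. -/
theorem rootHyp {n : ℕ} (hn : n ≠ 0) : RootHyp N n := by
  intro f hf hdiv
  have hΦ0 : Phi N f ≠ 0 := (map_ne_zero _).mpr hf
  exact MerRoot.exists_merH_root (Phi N f) hΦ0 hn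
    (fun τ => K2Ord5154.dvd_log_ordAt_theta N τ n f hf hdiv)

/-- (K3) `ParHyp` of helper6580 holds at every element of `Γ₀(N)` of trace `±2`. -/
theorem parHyp {n : ℕ} (hn : n ≠ 0) (γ : SL(2, ℤ)) (hγ : γ ∈ CongruenceSubgroup.Gamma0 N)
    (htr : (γ : Matrix (Fin 2) (Fin 2) ℤ).trace ^ 2 = 4) : ParHyp N n γ :=
  fun f h hf hdiv hh => K3Par5154.merAut_eq_self_of_trace_sq N hn f hf hdiv h hh γ hγ htr

/-- (K5) `InjHyp` of helper6580 holds. -/
theorem injHyp {n : ℕ} (hn : n ≠ 0) : InjHyp N n := by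
  intro f h hf hh hinv
  obtain ⟨g, rfl⟩ := Inv3761.exists_root_of_invariant N f h (Nat.pos_of_ne_zero hn) hh hinv
  have hg : g ≠ 0 := by
    rintro rfl
    exact hf (zero_pow hn)
  refine ⟨g, hg, fun v => ?_⟩
  rw [← zpow_natCast, Place.ord_zpow]

/-- **The Kummer map** `J₀(N)(ℚ̄)[n] → Hom(Γ₀(N), ℂˣ)`, unconditional. -/
def kummer {n : ℕ} (hn : n ≠ 0) :
    Pic0.torsion (AlgebraicClosure ℚ) ↥(modularFunctionFieldBar N) n →+
      Additive (↥(CongruenceSubgroup.Gamma0 N) →* ℂˣ) :=
  kappaMod N hn (rootHyp N hn)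

variable {N}

/-- Characterisation: `kummer x` is the character of any `n`-th root `h` of `Phi N f`, for any
degree zero divisor `D` in the class `x` and any `f` with `div f = n D`. -/
theorem kummer_spec {n : ℕ} (hn : n ≠ 0)
    (x : Pic0.torsion (AlgebraicClosure ℚ) ↥(modularFunctionFieldBar N) n)
    (D : Divisor.degZero (K := AlgebraicClosure ℚ) (F := ↥(modularFunctionFieldBar N)))
    (hD : Pic0.mk D = (x : Pic0 (AlgebraicClosure ℚ) ↥(modularFunctionFieldBar N)))
    (f : ↥(modularFunctionFieldBar N)) (hf : f ≠ 0)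
    (hDf : ∀ v : Place (AlgebraicClosure ℚ) ↥(modularFunctionFieldBar N),
      (n : ℤ) * (D : Divisor (AlgebraicClosure ℚ) ↥(modularFunctionFieldBar N)) v = v.ord f)
    (h : B2M.MerH) (hh : h ^ n = Phi N f) (γ : ↥(CongruenceSubgroup.Gamma0 N)) :
    B2M.merAut (γ : SL(2, ℤ)) h =
      algebraMap ℂ B2M.MerH ((Additive.toMul (kummer N hn x) γ : ℂˣ) : ℂ) * h :=
  kappaMod_spec hn (rootHyp N hn) x D hD f hf hDf h hh γ

/-- Existence form of the characterisation. -/
theorem exists_kummer_data {n : ℕ} (hn : n ≠ 0)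
    (x : Pic0.torsion (AlgebraicClosure ℚ) ↥(modularFunctionFieldBar N) n) :
    ∃ (D : Divisor.degZero (K := AlgebraicClosure ℚ) (F := ↥(modularFunctionFieldBar N)))
      (f : ↥(modularFunctionFieldBar N)) (h : B2M.MerH),
      Pic0.mk D = (x : Pic0 (AlgebraicClosure ℚ) ↥(modularFunctionFieldBar N)) ∧ f ≠ 0 ∧
      (∀ v : Place (AlgebraicClosure ℚ) ↥(modularFunctionFieldBar N),
        (n : ℤ) * (D : Divisor (AlgebraicClosure ℚ) ↥(modularFunctionFieldBar N)) v = v.ord f) ∧
      h ^ n = Phi N f ∧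
      ∀ γ : ↥(CongruenceSubgroup.Gamma0 N), B2M.merAut (γ : SL(2, ℤ)) h =
        algebraMap ℂ B2M.MerH ((Additive.toMul (kummer N hn x) γ : ℂˣ) : ℂ) * h :=
  exists_kappaMod_data hn (rootHyp N hn) x

/-- The values are `n`-th roots of unity. -/
theorem kummer_pow_eq_one {n : ℕ} (hn : n ≠ 0)
    (x : Pic0.torsion (AlgebraicClosure ℚ) ↥(modularFunctionFieldBar N) n)
    (γ : ↥(CongruenceSubgroup.Gamma0 N)) :
    (Additive.toMul (kummer N hn x)) γ ^ n = 1 :=
  kappaMod_pow_eq_one hn (rootHyp N hn) x γ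

/-- Compatibility in `n`. -/
theorem kummer_mul_right {n m : ℕ} (hn : n ≠ 0) (hm : m ≠ 0)
    (x : Pic0 (AlgebraicClosure ℚ) ↥(modularFunctionFieldBar N))
    (hx : x ∈ Pic0.torsion (AlgebraicClosure ℚ) ↥(modularFunctionFieldBar N) n)
    (hx' : x ∈ Pic0.torsion (AlgebraicClosure ℚ) ↥(modularFunctionFieldBar N) (n * m)) :
    kummer N (Nat.mul_ne_zero hn hm) ⟨x, hx'⟩ = kummer N hn ⟨x, hx⟩ :=
  kappaMod_mul_right hn hm (rootHyp N hn) (rootHyp N (Nat.mul_ne_zero hn hm)) x hx hx'

/-- **Injectivity** of the Kummer map. -/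
theorem kummer_injective {n : ℕ} (hn : n ≠ 0) : Function.Injective (kummer N hn) :=
  kappaMod_injective hn (rootHyp N hn) (injHyp N hn)

/-- **Parabolic triviality**: the Kummer characters kill the elements of trace `±2`. -/
theorem kummer_parabolic {n : ℕ} (hn : n ≠ 0)
    (x : Pic0.torsion (AlgebraicClosure ℚ) ↥(modularFunctionFieldBar N) n)
    (γ : ↥(CongruenceSubgroup.Gamma0 N))
    (htr : ((γ : SL(2, ℤ)) : Matrix (Fin 2) (Fin 2) ℤ).trace ^ 2 = 4) :
    (Additive.toMul (kummer N hn x)) γ = 1 :=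
  kappaMod_apply_eq_one hn (rootHyp N hn) γ (parHyp N hn (γ : SL(2, ℤ)) γ.2 htr) x

end Fermat.Agent.S30.KumAsm5154
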