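import Fermat.Agent.S30.KumZ5154
import Fermat.Agent.S30.Kappa6580.ModularHecke
import Fermat.Agent.S30.KumHecke9160.NormHecke
import Fermat.Agent.S37.HI.Modular
import Fermat.Agent.S30.Betti.HeckeHom

/-!
# GALREP / Kummer bridge: the Hecke clause of the spine (helper5154)

For a prime `ℓ ∤ N` the unconditional Kummer maps of `KumAsm5154` / `KumZ5154` intertwine the
Prelude Hecke operator `heckeOperatorBar N ℓ` on `J₀(N)(ℚ̄)` with the coset-transfer Hecke operator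
`Betti.heckeHom N hℓN` of helper2381 on `Hom(Γ₀(N), ·)`:

* `kummer_hecke`  : `kummer (T_ℓ x) γ = ∏_{y ∈ ℙ¹(𝔽_ℓ)} kummer x (conjRep γ y)`   (values in `ℂˣ`);
* `kummerZ_hecke` : `kummerZ (T_ℓ x) = Betti.heckeHom N hℓN (ZMod n) (kummerZ x)`.

Assembly of: helper6580 `kappaMod_heckeOperatorBar` (formal Hecke equivariance from `NormHyp` and
`HeckeInputsAlong`), helper9160 `Phi_norm_heckeAlphaBar_heckeBetaBar` (= `NormHyp` for the Prelude
representatives `heckeRep ℓ`), helper7722 `heckeInputsAlong`, helper2381 `conjRep_spec` (coset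
relations).
-/

set_option autoImplicit false
set_option linter.unusedSectionVars false

noncomputable section

open ModularCurve AlgebraicCurve CongruenceSubgroup
open scoped MatrixGroups
open P2MW.S_ModularForm_heckeT_slash_eq_self_of_mem_Gamma0.ModularForm.HeckeSlashInvariance
  (heckeRep redMatrix)

namespace Fermat.Agent.S30.KumSpine5154

open Fermat.Agent.S24 Fermat.Agent.S30.KumAsm5154 Fermat.Agent.S30.KumZ5154

variable {N : ℕ} [NeZero N]

/-- `NormHyp` of helper6580 for the Prelude coset representatives (= S5 of helper9160). -/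
theorem normHyp {ℓ : ℕ} [Fact ℓ.Prime] (hℓN : ¬ ℓ ∣ N) :
    haveI : NeZero ℓ := ⟨(Fact.out : ℓ.Prime).ne_zero⟩
    Kappa6580.NormHyp N ℓ (heckeRep ℓ) KH9160.det_heckeRep_pos := by
  intro f
  exact KH9160.Phi_norm_heckeAlphaBar_heckeBetaBar N hℓN f

/-- The multiplicative coset transfer: `Tc χ γ = ∏ y, χ (conjRep γ y)`. -/
def transfer {ℓ : ℕ} [Fact ℓ.Prime] (hℓN : ¬ ℓ ∣ N) (χ : ↥(Gamma0 N) →* ℂˣ) : ↥(Gamma0 N) →* ℂˣ :=
  MonoidHom.toAdditive.symm (Betti.heckeHom N hℓN (Additive ℂˣ) (MonoidHom.toAdditive χ))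

theorem transfer_apply {ℓ : ℕ} [Fact ℓ.Prime] (hℓN : ¬ ℓ ∣ N) (χ : ↥(Gamma0 N) →* ℂˣ)
    (γ : ↥(Gamma0 N)) :
    transfer hℓN χ γ = ∏ y : OnePoint (ZMod ℓ), χ (Betti.conjRep N hℓN γ y) := by
  show Additive.toMul (Betti.heckeHom N hℓN (Additive ℂˣ) (MonoidHom.toAdditive χ)
    (Additive.ofMul γ)) = _
  rw [Betti.heckeHom_apply, toMul_sum]
  rfl

/-- **Hecke clause**, `ℂˣ` form. -/
theorem kummer_hecke' {n : ℕ} (hn : n ≠ 0) {ℓ : ℕ} [Fact ℓ.Prime] (hℓ : ℓ.Prime) (hℓN : ¬ ℓ ∣ N)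
    (x : Pic0.torsion (AlgebraicClosure ℚ) ↥(modularFunctionFieldBar N) n)
    (hx : heckeOperatorBar N ⟨ℓ, hℓ⟩ (x : JZero N)
      ∈ Pic0.torsion (AlgebraicClosure ℚ) ↥(modularFunctionFieldBar N) n) :
    kummer N hn ⟨heckeOperatorBar N ⟨ℓ, hℓ⟩ (x : JZero N), hx⟩
      = Additive.ofMul (transfer hℓN (Additive.toMul (kummer N hn x))) := by
  have : NeZero ℓ := ⟨hℓ.ne_zero⟩
  exact Kappa6580.kappaMod_heckeOperatorBar hn (rootHyp N hn) ⟨ℓ, hℓ⟩
    (Fermat.Agent.S37.HI.heckeInputsAlong N ℓ) (heckeRep ℓ) KH9160.det_heckeRep_pos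
    (normHyp hℓN)
    (fun γ => MulAction.toPerm (redMatrix ℓ ((γ : ↥(Gamma0 N)) : SL(2, ℤ))))
    (fun γ y => Betti.conjRep N hℓN γ y)
    (fun γ y => Betti.conjRep_spec N hℓN γ y)
    (transfer hℓN) (fun χ γ => transfer_apply hℓN χ γ) x hx

/-- **Hecke clause**, `ℂˣ` form, evaluated. -/
theorem kummer_hecke {n : ℕ} (hn : n ≠ 0) {ℓ : ℕ} [Fact ℓ.Prime] (hℓ : ℓ.Prime) (hℓN : ¬ ℓ ∣ N)
    (x : Pic0.torsion (AlgebraicClosure ℚ) ↥(modularFunctionFieldBar N) n)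
    (hx : heckeOperatorBar N ⟨ℓ, hℓ⟩ (x : JZero N)
      ∈ Pic0.torsion (AlgebraicClosure ℚ) ↥(modularFunctionFieldBar N) n)
    (γ : ↥(Gamma0 N)) :
    Additive.toMul (kummer N hn ⟨heckeOperatorBar N ⟨ℓ, hℓ⟩ (x : JZero N), hx⟩) γ
      = ∏ y : OnePoint (ZMod ℓ), Additive.toMul (kummer N hn x) (Betti.conjRep N hℓN γ y) := by
  rw [kummer_hecke' hn hℓ hℓN x hx]
  exact transfer_apply hℓN _ γ

theorem dlog_prod {n : ℕ} (hn : n ≠ 0) {ι : Type*} (s : Finset ι) (u : ι → ℂˣ)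
    (hu : ∀ i ∈ s, u i ^ n = 1) :
    dlog n (∏ i ∈ s, u i) = ∑ i ∈ s, dlog n (u i) := by
  classical
  induction s using Finset.induction_on with
  | empty => simpa using dlog_one hn
  | insert a s ha ih =>
    have h1 : ∀ i ∈ s, u i ^ n = 1 := fun i hi => hu i (Finset.mem_insert_of_mem hi)
    have h2 : (∏ i ∈ s, u i) ^ n = 1 := by
      rw [← Finset.prod_pow]
      exact Finset.prod_eq_one h1
    rw [Finset.prod_insert ha, Finset.sum_insert ha,
      dlog_mul hn (hu a (Finset.mem_insert_self a s)) h2, ih h1]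

/-- The Hecke operator preserves `n`-torsion. -/
theorem hecke_mem_torsion {n : ℕ} (ℓ : Nat.Primes)
    (x : Pic0.torsion (AlgebraicClosure ℚ) ↥(modularFunctionFieldBar N) n) :
    heckeOperatorBar N ℓ (x : JZero N)
      ∈ Pic0.torsion (AlgebraicClosure ℚ) ↥(modularFunctionFieldBar N) n := by
  have hx := Pic0.mem_torsion.mp x.2
  refine Pic0.mem_torsion.mpr ?_
  rw [← map_zsmul, hx, map_zero]

/-- **Hecke clause**, `ZMod n` form: the Kummer map intertwines the Prelude Hecke operator on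
`J₀(N)(ℚ̄)[n]` with helper2381's coset-transfer operator on `Hom(Γ₀(N), ℤ/n)`. -/
theorem kummerZ_hecke {n : ℕ} (hn : n ≠ 0) {ℓ : ℕ} [Fact ℓ.Prime] (hℓ : ℓ.Prime) (hℓN : ¬ ℓ ∣ N)
    (x : Pic0.torsion (AlgebraicClosure ℚ) ↥(modularFunctionFieldBar N) n)
    (hx : heckeOperatorBar N ⟨ℓ, hℓ⟩ (x : JZero N)
      ∈ Pic0.torsion (AlgebraicClosure ℚ) ↥(modularFunctionFieldBar N) n) :
    kummerZ N hn ⟨heckeOperatorBar N ⟨ℓ, hℓ⟩ (x : JZero N), hx⟩
      = Betti.heckeHom N hℓN (ZMod n) (kummerZ N hn x) := by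
  refine AddMonoidHom.ext fun γ => ?_
  obtain ⟨γ, rfl⟩ := Additive.ofMul.surjective γ
  rw [kummerZ_apply, kummer_hecke hn hℓ hℓN x hx γ, Betti.heckeHom_apply,
    dlog_prod hn _ _ (fun y _ => kummer_pow_eq_one hn x _)]
  rfl

end Fermat.Agent.S30.KumSpine5154
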