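import Fermat.Agent.S30.KumAsm5154

/-!
# GALREP / Kummer bridge, K7 ASSEMBLY in `ZMod` form (helper5154)

`kummerZ N n : J₀(N)(ℚ̄)[n] →+ (Additive Γ₀(N) →+ ZMod n)`, the Kummer map with the identification
`μ_n(ℂ) = ℤ/n`, `exp(2πi a/n) ↔ a`:

* `kummerZ_spec`        : `kummer x γ = zeta n ^ a` ⟹ `kummerZ x γ = a`;
* `kummerZ_injective`;
* `kummerZ_mem_parabolicHoms` : values in the Prelude's `parabolicHoms ℤ Γ₀(N) (ZMod n)`;
* `kummerZ_nsmul`       : `kummerZ n (m • x) = cast ∘ kummerZ (n m) x` for `x ∈ J[n m]`.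
-/

set_option autoImplicit false
set_option linter.unusedSectionVars false

noncomputable section

open ModularCurve AlgebraicCurve
open scoped MatrixGroups

namespace Fermat.Agent.S30.KumZ5154

open Fermat.Agent.S24 Fermat.Agent.S30.KumAsm5154

/-! ### The discrete logarithm `μ_n(ℂ) → ℤ/n` -/

/-- `ζ_n = exp(2πi/n)` as a unit of `ℂ`. -/
def zeta (n : ℕ) : ℂˣ := Units.mk0 (Complex.exp (2 * Real.pi * Complex.I / n)) (Complex.exp_ne_zero _)

theorem zeta_prim {n : ℕ} (hn : n ≠ 0) : IsPrimitiveRoot (zeta n) n :=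
  IsPrimitiveRoot.coe_units_iff.mp (Complex.isPrimitiveRoot_exp n hn)

theorem zeta_pow_mul (n m : ℕ) (hn : n ≠ 0) (hm : m ≠ 0) : zeta (n * m) ^ m = zeta n := by
  apply Units.ext
  simp only [zeta, Units.val_pow_eq_pow_val, Units.val_mk0]
  rw [← Complex.exp_nat_mul]
  congr 1
  have hn' : (n : ℂ) ≠ 0 := by exact_mod_cast hn
  have hm' : (m : ℂ) ≠ 0 := by exact_mod_cast hm
  push_cast
  field_simp

theorem exists_zpow_of_pow_eq_one {n : ℕ} (hn : n ≠ 0) {u : ℂˣ} (hu : u ^ n = 1) :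
    ∃ a : ℤ, u = zeta n ^ a := by
  haveI : NeZero n := ⟨hn⟩
  have h1 : u ∈ rootsOfUnity n ℂ := (mem_rootsOfUnity n u).mpr hu
  rw [← (zeta_prim hn).zpowers_eq] at h1
  obtain ⟨a, ha⟩ := Subgroup.mem_zpowers_iff.mp h1
  exact ⟨a, ha.symm⟩

open Classical in
/-- The discrete logarithm (junk value `0` outside `μ_n`). -/
def dlog (n : ℕ) (u : ℂˣ) : ZMod n :=
  if h : ∃ a : ℤ, u = zeta n ^ a then ((Classical.choose h : ℤ) : ZMod n) else 0

theorem dlog_zeta_zpow {n : ℕ} (hn : n ≠ 0) (a : ℤ) : dlog n (zeta n ^ a) = (a : ZMod n) := by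
  have h : ∃ b : ℤ, zeta n ^ a = zeta n ^ b := ⟨a, rfl⟩
  rw [dlog, dif_pos h]
  have h1 := Classical.choose_spec h
  have h2 : zeta n ^ (a - Classical.choose h) = 1 := by
    rw [zpow_sub, ← h1, mul_inv_cancel]
  have h3 : (n : ℤ) ∣ a - Classical.choose h := ((zeta_prim hn).zpow_eq_one_iff_dvd _).mp h2
  exact ((ZMod.intCast_eq_intCast_iff_dvd_sub _ _ n).mpr (by
    have : (n : ℤ) ∣ Classical.choose h - a := by
      have := (dvd_neg).mpr h3
      rwa [neg_sub] at this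
    exact this)).symm

theorem dlog_eq_zero_iff {n : ℕ} (hn : n ≠ 0) {u : ℂˣ} (hu : u ^ n = 1) :
    dlog n u = 0 ↔ u = 1 := by
  obtain ⟨a, rfl⟩ := exists_zpow_of_pow_eq_one hn hu
  rw [dlog_zeta_zpow hn, ZMod.intCast_zmod_eq_zero_iff_dvd, (zeta_prim hn).zpow_eq_one_iff_dvd]

theorem dlog_mul {n : ℕ} (hn : n ≠ 0) {u v : ℂˣ} (hu : u ^ n = 1) (hv : v ^ n = 1) :
    dlog n (u * v) = dlog n u + dlog n v := by
  obtain ⟨a, rfl⟩ := exists_zpow_of_pow_eq_one hn hu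
  obtain ⟨b, rfl⟩ := exists_zpow_of_pow_eq_one hn hv
  rw [← zpow_add, dlog_zeta_zpow hn, dlog_zeta_zpow hn, dlog_zeta_zpow hn]
  push_cast
  rfl

theorem dlog_one {n : ℕ} (hn : n ≠ 0) : dlog n 1 = 0 :=
  (dlog_eq_zero_iff hn (one_pow n)).mpr rfl

theorem dlog_pow_cast {n m : ℕ} (hn : n ≠ 0) (hm : m ≠ 0) {u : ℂˣ} (hu : u ^ (n * m) = 1) :
    dlog n (u ^ m) = ZMod.castHom (dvd_mul_right n m) (ZMod n) (dlog (n * m) u) := by
  obtain ⟨a, rfl⟩ := exists_zpow_of_pow_eq_one (Nat.mul_ne_zero hn hm) hu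
  rw [dlog_zeta_zpow (Nat.mul_ne_zero hn hm), map_intCast]
  have h1 : (zeta (n * m) ^ a) ^ m = zeta n ^ a := by
    rw [← zpow_natCast, ← zpow_mul, mul_comm a (m : ℤ), zpow_mul, zpow_natCast, zeta_pow_mul n m hn hm]
  rw [h1, dlog_zeta_zpow hn]

/-- A character with values in `μ_n`, written additively with values in `ℤ/n`. -/
def charZ {G : Type*} [Group G] {n : ℕ} (hn : n ≠ 0) (χ : G →* ℂˣ) (hχ : ∀ g, χ g ^ n = 1) :
    Additive G →+ ZMod n where
  toFun g := dlog n (χ (Additive.toMul g))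
  map_zero' := by
    show dlog n (χ 1) = 0
    rw [map_one, dlog_one hn]
  map_add' g g' := by
    show dlog n (χ (Additive.toMul g * Additive.toMul g')) = _
    rw [map_mul, dlog_mul hn (hχ _) (hχ _)]

theorem charZ_apply {G : Type*} [Group G] {n : ℕ} (hn : n ≠ 0) (χ : G →* ℂˣ)
    (hχ : ∀ g, χ g ^ n = 1) (g : G) : charZ hn χ hχ (Additive.ofMul g) = dlog n (χ g) := rfl

/-! ### The Kummer map with values in `ℤ/n` -/

variable (N : ℕ) [NeZero N]

/-- **The Kummer map** `J₀(N)(ℚ̄)[n] → Hom(Γ₀(N), ℤ/n)`. -/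
def kummerZ {n : ℕ} (hn : n ≠ 0) :
    Pic0.torsion (AlgebraicClosure ℚ) ↥(modularFunctionFieldBar N) n →+
      (Additive ↥(CongruenceSubgroup.Gamma0 N) →+ ZMod n) where
  toFun x := charZ hn (Additive.toMul (kummer N hn x)) (kummer_pow_eq_one hn x)
  map_zero' := by
    apply AddMonoidHom.ext
    intro g
    show dlog n ((Additive.toMul (kummer N hn 0)) (Additive.toMul g)) = 0
    rw [map_zero]
    exact dlog_one hn
  map_add' x y := by
    apply AddMonoidHom.ext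
    intro g
    show dlog n ((Additive.toMul (kummer N hn (x + y))) (Additive.toMul g))
      = dlog n ((Additive.toMul (kummer N hn x)) (Additive.toMul g))
        + dlog n ((Additive.toMul (kummer N hn y)) (Additive.toMul g))
    rw [map_add, ← dlog_mul hn (kummer_pow_eq_one hn x _) (kummer_pow_eq_one hn y _)]
    rfl

variable {N}

theorem kummerZ_apply {n : ℕ} (hn : n ≠ 0)
    (x : Pic0.torsion (AlgebraicClosure ℚ) ↥(modularFunctionFieldBar N) n)
    (γ : ↥(CongruenceSubgroup.Gamma0 N)) :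
    kummerZ N hn x (Additive.ofMul γ) = dlog n ((Additive.toMul (kummer N hn x)) γ) := rfl

/-- `kummer x γ = ζ_n ^ a` ⟹ `kummerZ x γ = a`. -/
theorem kummerZ_spec {n : ℕ} (hn : n ≠ 0)
    (x : Pic0.torsion (AlgebraicClosure ℚ) ↥(modularFunctionFieldBar N) n)
    (γ : ↥(CongruenceSubgroup.Gamma0 N)) (a : ℤ)
    (ha : (Additive.toMul (kummer N hn x)) γ = zeta n ^ a) :
    kummerZ N hn x (Additive.ofMul γ) = (a : ZMod n) := by
  rw [kummerZ_apply, ha, dlog_zeta_zpow hn]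

/-- Conversely `kummer x γ = ζ_n ^ (kummerZ x γ)`. -/
theorem kummer_eq_zeta_pow {n : ℕ} (hn : n ≠ 0)
    (x : Pic0.torsion (AlgebraicClosure ℚ) ↥(modularFunctionFieldBar N) n)
    (γ : ↥(CongruenceSubgroup.Gamma0 N)) :
    (Additive.toMul (kummer N hn x)) γ
      = zeta n ^ (ZMod.cast (kummerZ N hn x (Additive.ofMul γ)) : ℤ) := by
  obtain ⟨a, ha⟩ := exists_zpow_of_pow_eq_one hn (kummer_pow_eq_one hn x γ)
  rw [kummerZ_spec hn x γ a ha, ha]
  have h1 : (n : ℤ) ∣ a - (ZMod.cast (a : ZMod n) : ℤ) :=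
    (ZMod.intCast_eq_intCast_iff_dvd_sub (ZMod.cast (a : ZMod n)) a n).mp
      (ZMod.intCast_zmod_cast _)
  have h2 : zeta n ^ (a - (ZMod.cast (a : ZMod n) : ℤ)) = 1 :=
    ((zeta_prim hn).zpow_eq_one_iff_dvd _).mpr h1
  rw [zpow_sub] at h2
  exact mul_inv_eq_one.mp h2

/-- **Injectivity.** -/
theorem kummerZ_injective {n : ℕ} (hn : n ≠ 0) : Function.Injective (kummerZ N hn) := by
  rw [injective_iff_map_eq_zero]
  intro x hx
  apply (injective_iff_map_eq_zero (kummer N hn)).mp (kummer_injective hn)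
  apply Additive.toMul.injective
  apply MonoidHom.ext
  intro γ
  have h1 : kummerZ N hn x (Additive.ofMul γ) = 0 := by rw [hx]; rfl
  rw [kummerZ_apply, dlog_eq_zero_iff hn (kummer_pow_eq_one hn x γ)] at h1
  rw [h1]
  rfl

/-- **Parabolic triviality**, in the form of the Prelude. -/
theorem kummerZ_mem_parabolicHoms {n : ℕ} (hn : n ≠ 0)
    (x : Pic0.torsion (AlgebraicClosure ℚ) ↥(modularFunctionFieldBar N) n) :
    kummerZ N hn x ∈ ModularCurve.Period.parabolicHoms ℤ (CongruenceSubgroup.Gamma0 N) (ZMod n) := by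
  intro γ hγ
  rw [kummerZ_apply, kummer_parabolic hn x γ hγ]
  exact dlog_one hn

/-- **Level compatibility**: for `x ∈ J[n m]`, `kummerZ n (m • x)` is the reduction mod `n` of
`kummerZ (n m) x`. -/
theorem kummerZ_nsmul {n m : ℕ} (hn : n ≠ 0) (hm : m ≠ 0)
    (x : Pic0 (AlgebraicClosure ℚ) ↥(modularFunctionFieldBar N))
    (hx : x ∈ Pic0.torsion (AlgebraicClosure ℚ) ↥(modularFunctionFieldBar N) (n * m))
    (hmx : m • x ∈ Pic0.torsion (AlgebraicClosure ℚ) ↥(modularFunctionFieldBar N) n)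
    (γ : ↥(CongruenceSubgroup.Gamma0 N)) :
    kummerZ N hn ⟨m • x, hmx⟩ (Additive.ofMul γ)
      = ZMod.castHom (dvd_mul_right n m) (ZMod n)
          (kummerZ N (Nat.mul_ne_zero hn hm) ⟨x, hx⟩ (Additive.ofMul γ)) := by
  have hnm := Nat.mul_ne_zero hn hm
  have hmx' : m • x ∈ Pic0.torsion (AlgebraicClosure ℚ) ↥(modularFunctionFieldBar N) (n * m) :=
    (Pic0.torsion (AlgebraicClosure ℚ) ↥(modularFunctionFieldBar N) (n * m)).nsmul_mem hx m
  have h1 : kummer N hn ⟨m • x, hmx⟩ = kummer N hnm ⟨m • x, hmx'⟩ :=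
    (kummer_mul_right hn hm (m • x) hmx hmx').symm
  have h2 : kummer N hnm ⟨m • x, hmx'⟩ = m • kummer N hnm ⟨x, hx⟩ := by
    rw [← map_nsmul]
    rfl
  rw [kummerZ_apply, kummerZ_apply, h1, h2, ← dlog_pow_cast hn hm (kummer_pow_eq_one hnm ⟨x, hx⟩ γ)]
  rfl

end Fermat.Agent.S30.KumZ5154
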