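import Fermat.Agent.S24.Modular

/-!
# GALREP, Kummer bridge, leaf K5-LD (helper7434)

Linear disjointness of `ℂ` and `Theta N (ℚ̄(X₀(N)))` over `ℚ̄` inside the landed S24 field
`ModMer N`: a `ℚ̄`-linearly independent family of `F = modularFunctionFieldBar N` stays
`ℂ`-linearly independent after applying `Theta N`.

Proof (purely algebraic, no `q`-expansions).  Generic statement `linearIndependent_of_embeddings`:
`F/K(x)` finite of degree `d`, a group `G` acting on a field `M`, `Θ : F →+* M`, constants
`κ : C →+* M` fixed by `G`, `Θ x` fixed by `G` and transcendental over `κ C`, and `d` pairwise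
distinct embeddings `act (γ q) ∘ Θ`.  Take a `K(x)`-basis `b` of `F` indexed by the embeddings; the
matrix `(act (γ q) (Θ (b l)))` is invertible (Dedekind independence of characters), so
`G`-invariant coefficients `t l` with `∑ t l * Θ (b l) = 0` vanish.  Expanding the `v i` in the
basis and clearing denominators reduces to polynomials in `Θ x`, and the transcendence of `Θ x`
reduces to linear algebra over `K`, transported to `C` by a left inverse.
-/

set_option autoImplicit false

open Polynomial IntermediateField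

namespace Fermat.Agent.S30.LD7434

section Generic

variable {K F M Cf G Q : Type*} [Field K] [Field F] [Algebra K F] [Field M] [Field Cf] [Group G]
  [Fintype Q] [DecidableEq Q]

/-- The matrix of a basis under `card`-many distinct embeddings that agree on the base field is
invertible (in the form: `mulVec` is injective). -/
theorem mulVec_injective_of_embeddings (x : F)
    (Θ : F →+* M) (σ : Q → F →+* M) (hσ : Function.Injective σ)
    (hσK : ∀ q (z : F), z ∈ K⟮x⟯ → σ q z = Θ z)
    (b : Module.Basis Q K⟮x⟯ F) :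
    Function.Injective (Matrix.of fun q l => σ q (b l) : Matrix Q Q M).mulVec := by
  rw [Matrix.mulVec_injective_iff_isUnit, ← Matrix.vecMul_injective_iff_isUnit]
  have key : ∀ y : Q → M,
      Matrix.vecMul y (Matrix.of fun q l => σ q (b l) : Matrix Q Q M) = 0 → y = 0 := by
    intro y h
    have h1 : ∀ l, ∑ q, y q * σ q (b l) = 0 := by
      intro l
      have := congrFun h l
      simpa [Matrix.vecMul, dotProduct] using this
    have h2 : ∀ f : F, ∑ q, y q * σ q f = 0 := by
      intro f
      have hf : f = ∑ l, ((b.repr f l : K⟮x⟯) : F) * b l := by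
        conv_lhs => rw [← b.sum_repr f]
        refine Finset.sum_congr rfl fun l _ => ?_
        rw [Algebra.smul_def]
        rfl
      rw [hf]
      simp only [map_sum, map_mul, Finset.mul_sum]
      rw [Finset.sum_comm]
      refine Finset.sum_eq_zero fun l _ => ?_
      have h3 : ∀ q, y q * (σ q ((b.repr f l : K⟮x⟯) : F) * σ q (b l))
          = Θ ((b.repr f l : K⟮x⟯) : F) * (y q * σ q (b l)) := by
        intro q
        rw [hσK q _ (b.repr f l).2]
        ring
      simp only [h3, ← Finset.mul_sum, h1 l, mul_zero]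
    have hli : LinearIndependent M (fun q => ((σ q : F →* M) : F → M)) :=
      (linearIndependent_monoidHom F M).comp (fun q => (σ q : F →* M)) (by
        intro q q' h
        apply hσ
        ext f
        exact congrArg (fun φ : F →* M => φ f) h)
    have h4 := Fintype.linearIndependent_iff.mp hli y (by
      funext f
      simp only [Finset.sum_apply, Pi.smul_apply, smul_eq_mul, Pi.zero_apply]
      exact h2 f)
    funext q
    exact h4 q
  intro y y' h
  have h' : Matrix.vecMul y (Matrix.of fun q l => σ q (b l) : Matrix Q Q M)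
      = Matrix.vecMul y' (Matrix.of fun q l => σ q (b l) : Matrix Q Q M) := h
  have := key (y - y') (by rw [Matrix.sub_vecMul, h', sub_self])
  exact sub_eq_zero.mp this

/-- Invariant coefficients of a vanishing combination of the basis vanish. -/
theorem eq_zero_of_invariant_relation (x : F)
    (act : G →* (M ≃+* M)) (Θ : F →+* M)
    (hfix : ∀ g (z : F), z ∈ K⟮x⟯ → act g (Θ z) = Θ z)
    (γ : Q → G)
    (hγ : Function.Injective fun q => ((act (γ q) : M ≃+* M) : M →+* M).comp Θ)
    (b : Module.Basis Q K⟮x⟯ F)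
    (t : Q → M) (ht : ∀ g l, act g (t l) = t l) (h : ∑ l, t l * Θ (b l) = 0) :
    ∀ l, t l = 0 := by
  have hinj := mulVec_injective_of_embeddings (K := K) x Θ
    (fun q => ((act (γ q) : M ≃+* M) : M →+* M).comp Θ) hγ
    (fun q z hz => hfix (γ q) z hz) b
  have h0 : (Matrix.of fun q l =>
      (((act (γ q) : M ≃+* M) : M →+* M).comp Θ) (b l) : Matrix Q Q M).mulVec t
      = (Matrix.of fun q l =>
      (((act (γ q) : M ≃+* M) : M →+* M).comp Θ) (b l) : Matrix Q Q M).mulVec 0 := by
    rw [Matrix.mulVec_zero]
    funext q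
    simp only [Matrix.mulVec, dotProduct, Matrix.of_apply, RingHom.coe_comp, RingHom.coe_coe,
      Function.comp_apply, Pi.zero_apply]
    have h1 : act (γ q) (∑ l, t l * Θ (b l)) = 0 := by rw [h, map_zero]
    rw [map_sum] at h1
    rw [← h1]
    refine Finset.sum_congr rfl fun l _ => ?_
    rw [map_mul, ht (γ q) l, mul_comm]
  have := hinj h0
  intro l
  exact congrFun this l

/-- **Generic linear disjointness.** -/
theorem linearIndependent_of_embeddings
    (x : F) [FiniteDimensional K⟮x⟯ F]
    (act : G →* (M ≃+* M)) (Θ : F →+* M) (κ : Cf →+* M) (ι : K →+* Cf)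
    (hcompat : ∀ a : K, Θ (algebraMap K F a) = κ (ι a))
    (hκ : ∀ g c, act g (κ c) = κ c)
    (hx : ∀ g, act g (Θ x) = Θ x)
    (γ : Q → G)
    (hγ : Function.Injective fun q => ((act (γ q) : M ≃+* M) : M →+* M).comp Θ)
    (hcard : Fintype.card Q = Module.finrank K⟮x⟯ F)
    (htr : ∀ p : Cf[X], p.eval₂ κ (Θ x) = 0 → p = 0)
    {I : Type*} [Fintype I] (v : I → F) (hv : LinearIndependent K v)
    (c : I → Cf) (h : ∑ i, κ (c i) * Θ (v i) = 0) : ∀ i, c i = 0 := by
  classical
  -- invariance on `K(x)`
  have hfix : ∀ g (z : F), z ∈ K⟮x⟯ → act g (Θ z) = Θ z := by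
    intro g z hz
    induction hz using IntermediateField.adjoin_induction with
    | mem y hy =>
      rw [Set.mem_singleton_iff] at hy
      rw [hy]; exact hx g
    | algebraMap a => rw [hcompat, hκ]
    | add y z _ _ hy hz => rw [map_add, map_add, hy, hz]
    | inv y _ hy => rw [map_inv₀, map_inv₀, hy]
    | mul y z _ _ hy hz => rw [map_mul, map_mul, hy, hz]
  -- the basis indexed by `Q`
  let b : Module.Basis Q K⟮x⟯ F :=
    (Module.finBasis K⟮x⟯ F).reindex (Fintype.equivFinOfCardEq hcard).symm
  have hvb : ∀ i, v i = ∑ l, ((b.repr (v i) l : K⟮x⟯) : F) * b l := by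
    intro i
    conv_lhs => rw [← b.sum_repr (v i)]
    refine Finset.sum_congr rfl fun l _ => ?_
    rw [Algebra.smul_def]
    rfl
  -- the invariant coefficients
  have ht0 : ∀ l, ∑ i, κ (c i) * Θ ((b.repr (v i) l : K⟮x⟯) : F) = 0 := by
    refine eq_zero_of_invariant_relation (K := K) x act Θ hfix γ hγ b
      (fun l => ∑ i, κ (c i) * Θ ((b.repr (v i) l : K⟮x⟯) : F)) ?_ ?_
    · intro g l
      rw [map_sum]
      refine Finset.sum_congr rfl fun i _ => ?_
      rw [map_mul, hκ, hfix g _ (b.repr (v i) l).2]
    · rw [← h]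
      simp only [Finset.sum_mul]
      rw [Finset.sum_comm]
      refine Finset.sum_congr rfl fun i _ => ?_
      conv_rhs => rw [hvb i]
      simp only [map_sum, map_mul, Finset.mul_sum]
      refine Finset.sum_congr rfl fun l _ => ?_
      ring
  -- numerators and denominators
  have hfrac : ∀ j : I × Q, ∃ P S : K[X], aeval x S ≠ 0 ∧
      ((b.repr (v j.1) j.2 : K⟮x⟯) : F) * aeval x S = aeval x P := by
    intro j
    obtain ⟨P, S, hPS⟩ := (IntermediateField.mem_adjoin_simple_iff K
      ((b.repr (v j.1) j.2 : K⟮x⟯) : F)).mp (b.repr (v j.1) j.2).2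
    by_cases hS : aeval x S = 0
    · refine ⟨0, 1, by simp, ?_⟩
      rw [hPS, hS, div_zero]
      simp
    · exact ⟨P, S, hS, by rw [hPS, div_mul_cancel₀ _ hS]⟩
  choose P S hS hPS using hfrac
  set D : K[X] := ∏ j, S j with hD
  have hD0 : aeval x D ≠ 0 := by
    rw [hD, map_prod]
    exact Finset.prod_ne_zero_iff.mpr fun j _ => hS j
  set P' : I × Q → K[X] := fun j => P j * ∏ j' ∈ Finset.univ.erase j, S j' with hP'
  have hP'D : ∀ j : I × Q, ((b.repr (v j.1) j.2 : K⟮x⟯) : F) * aeval x D = aeval x (P' j) := by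
    intro j
    have h1 : D = S j * ∏ j' ∈ Finset.univ.erase j, S j' :=
      (Finset.mul_prod_erase Finset.univ S (Finset.mem_univ j)).symm
    rw [h1, hP', map_mul, map_mul, ← mul_assoc, hPS j]
  -- evaluation of `Θ` on polynomials in `x`
  have hΘaeval : ∀ p : K[X], Θ (aeval x p) = (p.map ι).eval₂ κ (Θ x) := by
    intro p
    rw [Polynomial.eval₂_map, Polynomial.aeval_def, Polynomial.hom_eval₂]
    congr 1
    exact RingHom.ext hcompat
  -- the polynomial relations
  have hpoly : ∀ l, ∑ i, C (c i) * (P' (i, l)).map ι = 0 := by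
    intro l
    apply htr
    rw [Polynomial.eval₂_finsetSum]
    have h1 : ∀ i, (C (c i) * (P' (i, l)).map ι).eval₂ κ (Θ x)
        = Θ (aeval x D) * (κ (c i) * Θ ((b.repr (v i) l : K⟮x⟯) : F)) := by
      intro i
      rw [Polynomial.eval₂_mul, Polynomial.eval₂_C, ← hΘaeval, ← hP'D (i, l), map_mul]
      ring
    simp only [h1, ← Finset.mul_sum, ht0 l, mul_zero]
  have hcoeff : ∀ l m, ∑ i, c i * ι ((P' (i, l)).coeff m) = 0 := by
    intro l m
    have := congrArg (fun p : Cf[X] => p.coeff m) (hpoly l)
    simpa [Polynomial.finsetSum_coeff, Polynomial.coeff_C_mul, Polynomial.coeff_map] using this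
  -- the coefficient map over `K`
  set B : ℕ := (Finset.univ.sup fun j : I × Q => (P' j).natDegree) + 1 with hB
  have hdeg : ∀ j : I × Q, (P' j).natDegree < B := by
    intro j
    rw [hB]
    exact Nat.lt_succ_of_le (Finset.le_sup (f := fun j : I × Q => (P' j).natDegree)
      (Finset.mem_univ j))
  let Λ : (I → K) →ₗ[K] (Q × Fin B → K) :=
    { toFun := fun β lm => ∑ i, β i * (P' (i, lm.1)).coeff (lm.2 : ℕ)
      map_add' := by
        intro β β'
        funext lm
        simp [add_mul, Finset.sum_add_distrib]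
      map_smul' := by
        intro a β
        funext lm
        simp [Finset.mul_sum, mul_assoc] }
  have hΛ : ∀ (β : I → K) (l : Q) (m : Fin B),
      Λ β (l, m) = ∑ i, β i * (P' (i, l)).coeff (m : ℕ) := fun β l m => rfl
  have hker : LinearMap.ker Λ = ⊥ := by
    rw [LinearMap.ker_eq_bot']
    intro β hβ
    have h1 : ∀ l, ∑ i, C (β i) * P' (i, l) = 0 := by
      intro l
      ext m
      rw [Polynomial.finsetSum_coeff, Polynomial.coeff_zero]
      by_cases hm : m < B
      · have := congrFun hβ (l, ⟨m, hm⟩)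
        rw [hΛ] at this
        simpa [Polynomial.coeff_C_mul] using this
      · refine Finset.sum_eq_zero fun i _ => ?_
        rw [Polynomial.coeff_C_mul,
          Polynomial.coeff_eq_zero_of_natDegree_lt (lt_of_lt_of_le (hdeg (i, l)) (not_lt.mp hm)),
          mul_zero]
    have h2 : ∀ l, ∑ i, algebraMap K F (β i) * ((b.repr (v i) l : K⟮x⟯) : F) = 0 := by
      intro l
      have h3 := congrArg (aeval x) (h1 l)
      rw [map_sum, map_zero] at h3
      have h4 : ∀ i, aeval x (C (β i) * P' (i, l))
          = (algebraMap K F (β i) * ((b.repr (v i) l : K⟮x⟯) : F)) * aeval x D := by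
        intro i
        rw [map_mul, Polynomial.aeval_C, ← hP'D (i, l)]
        ring
      simp only [h4, ← Finset.sum_mul] at h3
      exact (mul_eq_zero.mp h3).resolve_right hD0
    have h5 : ∑ i, β i • v i = 0 := by
      have h6 : ∀ i, β i • v i
          = ∑ l, (algebraMap K F (β i) * ((b.repr (v i) l : K⟮x⟯) : F)) * b l := by
        intro i
        rw [Algebra.smul_def]
        conv_lhs => rw [hvb i]
        rw [Finset.mul_sum]
        refine Finset.sum_congr rfl fun l _ => ?_
        ring
      simp only [h6]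
      rw [Finset.sum_comm]
      refine Finset.sum_eq_zero fun l _ => ?_
      rw [← Finset.sum_mul, h2 l, zero_mul]
    funext i
    exact Fintype.linearIndependent_iff.mp hv β h5 i
  obtain ⟨g, hg⟩ := Λ.exists_leftInverse_of_injective hker
  intro i₀
  set μ : Q × Fin B → K := fun r => g (fun j => if r = j then 1 else 0) i₀ with hμ
  have hrep : ∀ β : I → K, β i₀ = ∑ r, Λ β r * μ r := by
    intro β
    have h1 : g (Λ β) = β := by
      have := congrArg (fun φ : (I → K) →ₗ[K] (I → K) => φ β) hg
      simpa using this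
    have h2 := LinearMap.pi_apply_eq_sum_univ g (Λ β)
    have h3 := congrFun h2 i₀
    rw [h1] at h3
    rw [h3, Finset.sum_apply]
    refine Finset.sum_congr rfl fun r _ => ?_
    rw [Pi.smul_apply, smul_eq_mul]
  have hdelta : ∀ i : I, (if i = i₀ then (1 : K) else 0)
      = ∑ r : Q × Fin B, (P' (i, r.1)).coeff (r.2 : ℕ) * μ r := by
    intro i
    have h1 := hrep (fun j => if j = i then 1 else 0)
    have h2 : ∀ r : Q × Fin B, Λ (fun j => if j = i then (1 : K) else 0) r
        = (P' (i, r.1)).coeff (r.2 : ℕ) := by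
      intro r
      obtain ⟨l, m⟩ := r
      rw [hΛ]
      simp
    simp only [h2] at h1
    rw [← h1]
    by_cases hi : i = i₀
    · simp [hi]
    · have hi' : ¬ i₀ = i := fun h => hi h.symm
      simp [hi, hi']
  have hc : c i₀ = ∑ i, c i * ι (if i = i₀ then (1 : K) else 0) := by
    simp [apply_ite ι]
  rw [hc]
  simp only [hdelta, map_sum, map_mul, Finset.mul_sum]
  rw [Finset.sum_comm]
  refine Finset.sum_eq_zero fun r _ => ?_
  have h7 : ∀ i, c i * (ι ((P' (i, r.1)).coeff (r.2 : ℕ)) * ι (μ r))
      = (c i * ι ((P' (i, r.1)).coeff (r.2 : ℕ))) * ι (μ r) := fun i => by ring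
  simp only [h7, ← Finset.sum_mul, hcoeff r.1 r.2, zero_mul]

end Generic

/-! ### The modular instance -/

open Fermat.Agent.S24 ModularCurve
open scoped MatrixGroups

/-- `j` is transcendental over the constants of `ModMer N`. -/
theorem eval₂_constM_Theta_jBar_eq_zero (N : ℕ) [NeZero N] (p : Polynomial ℂ)
    (h : p.eval₂ (constM N) (Theta N (jBar N)) = 0) : p = 0 := by
  rw [b6_Theta_jBar] at h
  have h1 : p.eval₂ (constM N) (algebraMap (ModHol N) (ModMer N) (jdHol N 1 (one_dvd N)))
      = algebraMap (ModHol N) (ModMer N) (p.eval₂ (constHol N) (jdHol N 1 (one_dvd N))) := by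
    rw [Polynomial.hom_eval₂]
    rfl
  rw [h1] at h
  have h2 : p.eval₂ (constHol N) (jdHol N 1 (one_dvd N)) = 0 :=
    (map_eq_zero_iff _ (IsFractionRing.injective (ModHol N) (ModMer N))).mp h
  apply Polynomial.funext
  intro z
  obtain ⟨τ, rfl⟩ := jC_surjective z
  have h3 := congrArg (B4h8917.evalHol N τ) h2
  rw [Polynomial.hom_eval₂, map_zero] at h3
  rw [Polynomial.eval_zero, ← h3]
  have h4 : (B4h8917.evalHol N τ).comp (constHol N) = RingHom.id ℂ := RingHom.ext fun _ => rfl
  have h5 : B4h8917.evalHol N τ (jdHol N 1 (one_dvd N)) = jC τ := by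
    rw [B4h8917.evalHol_apply, b6_jdHol_one_apply]
  rw [h4, h5, Polynomial.eval₂_id]

/-- **K5-LD.** A `ℚ̄`-linearly independent family of `ℚ̄(X₀(N))` stays `ℂ`-linearly independent
in `ModMer N` under the landed S24 bridge `Theta N`. -/
theorem theta_linearIndependent (N : ℕ) [NeZero N] {ι : Type} [Fintype ι]
    (v : ι → ↥(modularFunctionFieldBar N)) (hv : LinearIndependent (AlgebraicClosure ℚ) v)
    (c : ι → ℂ) (h : ∑ i, constM N (c i) * Theta N (v i) = 0) : ∀ i, c i = 0 := by
  classical
  have := finiteDimensional_jBar N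
  let _ : Fintype (Q0 N) := Fintype.ofFinite _
  refine linearIndependent_of_embeddings (Q := Q0 N) (jBar N) (b6_act N) (Theta N) (constM N) iotaC
    (Theta_algebraMap N) (fun g c => by rw [b6_act_apply, modAut_constM]) (b6_hxinv N)
    (fun q => q.out) ?_ ?_ (eval₂_constM_Theta_jBar_eq_zero N) v hv c h
  · have hinj := B4Glue.cosetEmb_injective (CongruenceSubgroup.Gamma0 N) (b6_act N) (Theta N)
      (b6_hH N) (b6_hinj N)
    intro q q' hqq'
    apply hinj
    have e : ∀ q : Q0 N, B4Glue.cosetEmb (CongruenceSubgroup.Gamma0 N) (b6_act N) (Theta N)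
        (b6_hH N) q = ((b6_act N q.out : ModMer N ≃+* ModMer N) : ModMer N →+* ModMer N).comp
          (Theta N) := by
      intro q
      refine RingHom.ext fun f => ?_
      conv_lhs => rw [← QuotientGroup.out_eq' q]
      rfl
    rw [e, e]
    exact hqq'
  · rw [finrank_jBar, Nat.card_eq_fintype_card]

/-- The same statement in the shape of the hypothesis `LD (Theta N) (constM N)` of the descent
lemma `Desc7240.desc` (helper7240). -/
theorem theta_LD (N : ℕ) [NeZero N] (r : ℕ) (u : Fin r → ↥(modularFunctionFieldBar N))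
    (hu : LinearIndependent (AlgebraicClosure ℚ) u) (c : Fin r → ℂ)
    (h : ∑ i, constM N (c i) * Theta N (u i) = 0) : ∀ i, c i = 0 :=
  theta_linearIndependent N u hu c h

end Fermat.Agent.S30.LD7434
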