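import Fermat.Agent.S30.HoloRoot
import Fermat.Agent.S24.B2MerH

/-!
# GALREP / S30 toolbox: `n`-th roots in `MerH` (helper2034)

In the setting of the landed S24 library (`Fermat.Agent.S24.B2M`: `HolH` = holomorphic functions
on `ℍ`, `MerH = FractionRing HolH`, `ordVal τ` = order at `τ`):

* `MerRoot.exists_holH_root` : `c ∈ HolH`, `c ≠ 0`, all orders divisible by `n` ⟹ `c = k ^ n`.
* `MerRoot.exists_merH_root` : `m ∈ MerH`, `m ≠ 0`, `n ∣ log (ordVal τ m)` for all `τ`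
  ⟹ `m = h ^ n` with `h ∈ MerH`.
* `MerRoot.root_unique` : two `n`-th roots in `MerH` of the same nonzero element differ by an
  `n`-th root of unity (constant).

This is step K2 of the Kummer map `J[n] → Hom(Γ₀(N), μ_n)` (notes/GALREP_review_helper2034.md).
-/

set_option autoImplicit false

open UpperHalfPlane Complex
open scoped Manifold

namespace Fermat.Agent.S30.MerRoot

open Fermat.Agent.S24.B2M

theorem exists_holH_root (c : HolH) (hc : c ≠ 0) {n : ℕ} (hn : n ≠ 0)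
    (hdiv : ∀ τ : ℍ, n ∣ ordNat τ c) : ∃ k : HolH, k ^ n = c := by
  have hc0 : c.1 ≠ 0 := fun h => hc (Subtype.ext h)
  obtain ⟨k, hk, hkn⟩ := HoloRoot.exists_root_mdiff (f := c.1) c.2 hc0 hn hdiv
  refine ⟨⟨k, hk⟩, Subtype.ext ?_⟩
  funext τ
  exact hkn τ

theorem ordNat_pow (τ : ℍ) (f : HolH) (hf : f ≠ 0) (j : ℕ) :
    ordNat τ (f ^ j) = j * ordNat τ f := by
  induction j with
  | zero => simp [ordNat_one]
  | succ j ih =>
    rw [pow_succ, ordNat_mul τ _ _ (pow_ne_zero j hf) hf, ih]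
    ring

theorem log_ordVal_div (τ : ℍ) (a b : HolH) (ha : a ≠ 0) (hb : b ≠ 0) :
    WithZero.log (ordVal τ (algebraMap HolH MerH a / algebraMap HolH MerH b)) =
      (ordNat τ b : ℤ) - (ordNat τ a : ℤ) := by
  rw [map_div₀, ordVal_algebraMap, ordVal_algebraMap, ordValHol_apply τ a ha,
    ordValHol_apply τ b hb, WithZero.log_div WithZero.exp_ne_zero WithZero.exp_ne_zero,
    WithZero.log_exp, WithZero.log_exp]
  simp only [ordNat]
  ring

theorem exists_merH_root (m : MerH) (hm : m ≠ 0) {n : ℕ} (hn : n ≠ 0)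
    (hdiv : ∀ τ : ℍ, (n : ℤ) ∣ WithZero.log (ordVal τ m)) : ∃ h : MerH, h ^ n = m := by
  obtain ⟨a, b, hb, rfl⟩ := IsFractionRing.div_surjective (A := HolH) m
  have hb0 : b ≠ 0 := nonZeroDivisors.ne_zero hb
  have ha0 : a ≠ 0 := by
    rintro rfl
    simp at hm
  obtain ⟨j, rfl⟩ : ∃ j, n = j + 1 := Nat.exists_eq_succ_of_ne_zero hn
  have hc0 : a * b ^ j ≠ 0 := mul_ne_zero ha0 (pow_ne_zero j hb0)
  have hc : ∀ τ : ℍ, (j + 1) ∣ ordNat τ (a * b ^ j) := by
    intro τ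
    have h1 := hdiv τ
    rw [log_ordVal_div τ a b ha0 hb0] at h1
    rw [ordNat_mul τ _ _ ha0 (pow_ne_zero j hb0), ordNat_pow τ b hb0]
    have h2 : ((j + 1 : ℕ) : ℤ) ∣ ((ordNat τ a + j * ordNat τ b : ℕ) : ℤ) := by
      have : ((ordNat τ a + j * ordNat τ b : ℕ) : ℤ) =
          ((j + 1 : ℕ) : ℤ) * (ordNat τ b : ℤ) - ((ordNat τ b : ℤ) - (ordNat τ a : ℤ)) := by
        push_cast
        ring
      rw [this]
      exact dvd_sub (dvd_mul_right _ _) h1
    exact Int.natCast_dvd_natCast.mp h2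
  obtain ⟨k, hk⟩ := exists_holH_root (a * b ^ j) hc0 (Nat.succ_ne_zero j) hc
  refine ⟨algebraMap HolH MerH k / algebraMap HolH MerH b, ?_⟩
  have hbM : algebraMap HolH MerH b ≠ 0 := by
    simpa using (IsFractionRing.injective HolH MerH).ne hb0
  rw [div_pow, ← map_pow, hk, map_mul, map_pow, pow_succ]
  field_simp

end Fermat.Agent.S30.MerRoot
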