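import Mathlib

/-!
# The odd quadratic lemma (pure algebra for S30)

`𝒪` a domain, `M` a torsion-free `𝒪`-module with an action `ρ` of a group `G`, a character
`d : G →* 𝒪ˣ`, a function `t : G → 𝒪` with `ρ(g)² - t(g) ρ(g) + d(g) = 0` for all `g`, and an
element `c` with `ρ(c)² = 1`, `d(c) = -1`.  Then the compressions of `ρ(g)` to the two eigenspaces
of `ρ(c)` are scalars; this produces a rank two lattice with characteristic polynomials
`X² - t(g) X + d(g)` over `𝒪` itself.
-/

set_option autoImplicit false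

namespace Fermat.Agent.S30.OddQ

open Polynomial

section Basic

variable {𝒪 : Type*} [CommRing 𝒪] [IsDomain 𝒪]
variable {M : Type*} [AddCommGroup M] [Module 𝒪 M] [Module.IsTorsionFree 𝒪 M]
variable {G : Type*} [Group G]

/-- The hypotheses of the odd quadratic lemma. -/
structure IsOddQuad (ρ : G →* Module.End 𝒪 M) (d : G →* 𝒪ˣ) (t : G → 𝒪) (c : G) : Prop where
  quad : ∀ g x, ρ g (ρ g x) = t g • ρ g x - ((d g : 𝒪ˣ) : 𝒪) • x
  inv : ∀ x, ρ c (ρ c x) = x
  odd : ((d c : 𝒪ˣ) : 𝒪) = -1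

variable {ρ : G →* Module.End 𝒪 M} {d : G →* 𝒪ˣ} {t : G → 𝒪} {c : G}

omit [IsDomain 𝒪] [Module.IsTorsionFree 𝒪 M] in
lemma rho_inv_apply (ρ : G →* Module.End 𝒪 M) (g : G) (x : M) : ρ g⁻¹ (ρ g x) = x := by
  have : (ρ g⁻¹ * ρ g) x = x := by rw [← map_mul, inv_mul_cancel, map_one]; rfl
  exact this

omit [IsDomain 𝒪] [Module.IsTorsionFree 𝒪 M] in
lemma rho_injective (ρ : G →* Module.End 𝒪 M) (g : G) : Function.Injective (ρ g) := by
  intro x y h
  have := congrArg (ρ g⁻¹) h
  simpa [rho_inv_apply] using this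

omit [IsDomain 𝒪] [Module.IsTorsionFree 𝒪 M] in
lemma rho_mul_apply (ρ : G →* Module.End 𝒪 M) (g h : G) (x : M) : ρ (g * h) x = ρ g (ρ h x) := by
  rw [map_mul]; rfl

/-- The scalar by which `ρ g` is compressed to the `s`-eigenspace of `ρ c`. -/
def mu (t : G → 𝒪) (c : G) (s : 𝒪) (g : G) : 𝒪 := t g + s * t (g * c)

omit [IsDomain 𝒪] [Module.IsTorsionFree 𝒪 M] in
/-- `C g = t(gc) + t(g) C - g C`. -/
lemma swap (H : IsOddQuad ρ d t c) (g : G) (x : M) :
    ρ c (ρ g x) = t (g * c) • x + t g • ρ c x - ρ g (ρ c x) := by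
  apply rho_injective ρ g
  have h1 := H.quad (g * c) (ρ c x)
  simp only [rho_mul_apply, H.inv] at h1
  rw [map_mul, Units.val_mul, H.odd] at h1
  have h2 := H.quad g (ρ c x)
  simp only [map_add, map_sub, map_smul]
  linear_combination (norm := module) h1 + h2

omit [IsDomain 𝒪] [Module.IsTorsionFree 𝒪 M] in
/-- On the `s`-eigenspace of `ρ c` the compression of `ρ g` is the scalar `mu s g`. -/
lemma compress (H : IsOddQuad ρ d t c) {s : 𝒪} (hs : s = 1 ∨ s = -1) (g : G) {v : M}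
    (hv : ρ c v = s • v) : ρ g v + s • ρ c (ρ g v) = mu t c s g • v := by
  have h1 := swap H g v
  rw [hv, map_smul] at h1
  unfold mu
  rcases hs with rfl | rfl
  · linear_combination (norm := module) h1
  · linear_combination (norm := module) -h1

lemma t_c [Nontrivial M] (H : IsOddQuad ρ d t c) : t c = 0 := by
  obtain ⟨x, hx⟩ := exists_ne (0 : M)
  have h1 := H.quad c x
  rw [H.inv, H.odd] at h1
  have h2 : t c • ρ c x = 0 := by linear_combination (norm := module) -h1
  rcases smul_eq_zero.mp h2 with h | h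
  · exact h
  · exact absurd (rho_injective ρ c (h.trans (map_zero _).symm)) hx

lemma t_one [Nontrivial M] (H : IsOddQuad ρ d t c) : t 1 = 2 := by
  obtain ⟨x, hx⟩ := exists_ne (0 : M)
  have h1 := H.quad 1 x
  simp only [map_one, Module.End.one_apply, Units.val_one, one_smul] at h1
  have h2 : (t 1 - 2) • x = 0 := by linear_combination (norm := module) -h1
  rcases smul_eq_zero.mp h2 with h | h
  · exact sub_eq_zero.mp h
  · exact absurd h hx

omit [IsDomain 𝒪] [Module.IsTorsionFree 𝒪 M] in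
lemma exists_eigen [Nontrivial M] (H : IsOddQuad ρ d t c) :
    ∃ s : 𝒪, (s = 1 ∨ s = -1) ∧ ∃ v : M, v ≠ 0 ∧ ρ c v = s • v := by
  obtain ⟨m, hm⟩ := exists_ne (0 : M)
  by_cases h : m + ρ c m = 0
  · refine ⟨-1, Or.inr rfl, m, hm, ?_⟩
    linear_combination (norm := module) h
  · refine ⟨1, Or.inl rfl, m + ρ c m, h, ?_⟩
    rw [map_add, H.inv]
    module

lemma mu_one [Nontrivial M] (H : IsOddQuad ρ d t c) (s : 𝒪) : mu t c s 1 = 2 := by
  unfold mu
  rw [one_mul, t_c H, t_one H, mul_zero, add_zero]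

end Basic

section Rank2

variable {R : Type*} [CommRing R] [Nontrivial R] {N : Type*} [AddCommGroup N] [Module R N]
  [Module.Free R N] [Module.Finite R N]

lemma charpoly_of_finrank_two (h : Module.finrank R N = 2) (f : Module.End R N) :
    f.charpoly = X ^ 2 - C (LinearMap.trace R N f) * X + C (LinearMap.det f) := by
  let b := Module.finBasisOfFinrankEq R N h
  rw [← LinearMap.charpoly_toMatrix f b, Matrix.charpoly_fin_two,
    ← LinearMap.trace_eq_matrix_trace R b f, LinearMap.det_toMatrix b f]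

lemma quad_of_finrank_two (h : Module.finrank R N = 2) (f : Module.End R N) (x : N) :
    f (f x) = LinearMap.trace R N f • f x - LinearMap.det f • x := by
  have h1 := LinearMap.aeval_self_charpoly f
  rw [charpoly_of_finrank_two h] at h1
  simp only [map_add, map_sub, map_mul, map_pow, aeval_X, aeval_C] at h1
  have h2 := LinearMap.congr_fun h1 x
  simp only [LinearMap.add_apply, LinearMap.sub_apply, Module.End.mul_apply, pow_two,
    Module.algebraMap_end_apply, LinearMap.zero_apply] at h2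
  linear_combination (norm := module) h2

end Rank2

section CaseB

variable {𝒪 : Type*} [CommRing 𝒪] [IsDomain 𝒪]
variable {M : Type*} [AddCommGroup M] [Module 𝒪 M] [Module.IsTorsionFree 𝒪 M]
variable {G : Type*} [Group G]
variable {ρ : G →* Module.End 𝒪 M} {d : G →* 𝒪ˣ} {t : G → 𝒪} {c : G}

/-- The second basis vector `u = 2 g₀ v - μ(g₀) v`. -/
def uvec (ρ : G →* Module.End 𝒪 M) (t : G → 𝒪) (c : G) (s : 𝒪) (g0 : G) (v : M) : M :=
  (2 : 𝒪) • ρ g0 v - mu t c s g0 • v

/-- The defect of multiplicativity of `μ`. -/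
def xi (t : G → 𝒪) (c : G) (s : 𝒪) (g0 h : G) : 𝒪 :=
  2 * mu t c s (h * g0) - mu t c s h * mu t c s g0

omit [IsDomain 𝒪] [Module.IsTorsionFree 𝒪 M] in
lemma uvec_eigen (H : IsOddQuad ρ d t c) {s : 𝒪} (hs : s = 1 ∨ s = -1) (g0 : G) {v : M}
    (hv : ρ c v = s • v) : ρ c (uvec ρ t c s g0 v) = (-s) • uvec ρ t c s g0 v := by
  have h1 := compress H hs g0 hv
  unfold uvec
  rw [map_sub, map_smul, map_smul, hv]
  rcases hs with rfl | rfl
  · linear_combination (norm := module) (2 : 𝒪) • h1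
  · linear_combination (norm := module) (-2 : 𝒪) • h1

omit [IsDomain 𝒪] [Module.IsTorsionFree 𝒪 M] in
lemma f_uvec (H : IsOddQuad ρ d t c) {s : 𝒪} (hs : s = 1 ∨ s = -1) (g0 : G) {v : M}
    (hv : ρ c v = s • v) (h : G) :
    ρ h (uvec ρ t c s g0 v) + s • ρ c (ρ h (uvec ρ t c s g0 v)) = xi t c s g0 h • v := by
  have h1 := compress H hs (h * g0) hv
  have h2 := compress H hs h hv
  rw [rho_mul_apply] at h1
  unfold uvec xi
  simp only [map_sub, map_smul]
  linear_combination (norm := module) (2 : 𝒪) • h1 - mu t c s g0 • h2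

omit [IsDomain 𝒪] [Module.IsTorsionFree 𝒪 M] in
lemma two_smul_rho_uvec (H : IsOddQuad ρ d t c) {s : 𝒪} (hs : s = 1 ∨ s = -1) (g0 : G) {v : M}
    (hv : ρ c v = s • v) (h : G) :
    (2 : 𝒪) • ρ h (uvec ρ t c s g0 v)
      = xi t c s g0 h • v + mu t c (-s) h • uvec ρ t c s g0 v := by
  have h1 := f_uvec H hs g0 hv h
  have hs' : -s = 1 ∨ -s = -1 := by
    rcases hs with rfl | rfl
    · exact Or.inr rfl
    · exact Or.inl (neg_neg 1)
  have h2 := compress H hs' h (uvec_eigen H hs g0 hv)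
  linear_combination (norm := module) h1 + h2

omit [IsDomain 𝒪] [Module.IsTorsionFree 𝒪 M] in
lemma xi_smul_rho_v (H : IsOddQuad ρ d t c) {s : 𝒪} (hs : s = 1 ∨ s = -1) (g0 : G) {v : M}
    (hv : ρ c v = s • v) (g h0 : G) :
    (2 * xi t c s g0 h0) • ρ g v
      = (2 : 𝒪) • (xi t c s g0 (g * h0) • v + mu t c (-s) (g * h0) • uvec ρ t c s g0 v)
        - mu t c (-s) h0 • (xi t c s g0 g • v + mu t c (-s) g • uvec ρ t c s g0 v) := by
  have h1 := congrArg (ρ g) (two_smul_rho_uvec H hs g0 hv h0)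
  simp only [map_add, map_smul] at h1
  rw [← rho_mul_apply] at h1
  have h2 := two_smul_rho_uvec H hs g0 hv (g * h0)
  have h3 := two_smul_rho_uvec H hs g0 hv g
  linear_combination (norm := module) (-2 : 𝒪) • h1 + (2 : 𝒪) • h2 - mu t c (-s) h0 • h3

/-- The saturation of `𝒪 v + 𝒪 u` in `M`. -/
def sat (𝒪 : Type*) [CommRing 𝒪] [IsDomain 𝒪] {M : Type*} [AddCommGroup M] [Module 𝒪 M]
    (v u : M) : Submodule 𝒪 M where
  carrier := {x | ∃ a : 𝒪, a ≠ 0 ∧ ∃ α β : 𝒪, a • x = α • v + β • u}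
  zero_mem' := ⟨1, one_ne_zero, 0, 0, by simp⟩
  add_mem' := by
    rintro x y ⟨a, ha, α, β, hx⟩ ⟨a', ha', α', β', hy⟩
    refine ⟨a * a', mul_ne_zero ha ha', a' * α + a * α', a' * β + a * β', ?_⟩
    linear_combination (norm := module) a' • hx + a • hy
  smul_mem' := by
    rintro r x ⟨a, ha, α, β, hx⟩
    refine ⟨a, ha, r * α, r * β, ?_⟩
    linear_combination (norm := module) r • hx

omit [Module.IsTorsionFree 𝒪 M] in
lemma mem_sat_iff {v u x : M} :
    x ∈ sat 𝒪 v u ↔ ∃ a : 𝒪, a ≠ 0 ∧ ∃ α β : 𝒪, a • x = α • v + β • u := Iff.rfl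

omit [Module.IsTorsionFree 𝒪 M] in
lemma left_mem_sat (v u : M) : v ∈ sat 𝒪 v u := ⟨1, one_ne_zero, 1, 0, by simp⟩

omit [Module.IsTorsionFree 𝒪 M] in
lemma right_mem_sat (v u : M) : u ∈ sat 𝒪 v u := ⟨1, one_ne_zero, 0, 1, by simp⟩

omit [Module.IsTorsionFree 𝒪 M] in
lemma mem_sat_of_smul {v u y : M} {b : 𝒪} (hb : b ≠ 0) (h : b • y ∈ sat 𝒪 v u) :
    y ∈ sat 𝒪 v u := by
  obtain ⟨a, ha, α, β, hx⟩ := h
  exact ⟨a * b, mul_ne_zero ha hb, α, β, by rw [mul_smul]; exact hx⟩

omit [Module.IsTorsionFree 𝒪 M] in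
lemma rho_mem_sat (H : IsOddQuad ρ d t c) {s : 𝒪} (hs : s = 1 ∨ s = -1) {g0 h0 : G} {v : M}
    (hv : ρ c v = s • v) (hξ : xi t c s g0 h0 ≠ 0) (h2 : (2 : 𝒪) ≠ 0) (g : G) {x : M}
    (hx : x ∈ sat 𝒪 v (uvec ρ t c s g0 v)) : ρ g x ∈ sat 𝒪 v (uvec ρ t c s g0 v) := by
  obtain ⟨a, ha, α, β, hx⟩ := hx
  have h1 := congrArg (ρ g) hx
  simp only [map_add, map_smul] at h1
  have h3 := xi_smul_rho_v H hs g0 hv g h0
  have h4 := two_smul_rho_uvec H hs g0 hv g
  refine ⟨2 * xi t c s g0 h0 * a, mul_ne_zero (mul_ne_zero h2 hξ) ha,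
    α * (2 * xi t c s g0 (g * h0) - mu t c (-s) h0 * xi t c s g0 g)
      + β * xi t c s g0 h0 * xi t c s g0 g,
    α * (2 * mu t c (-s) (g * h0) - mu t c (-s) h0 * mu t c (-s) g)
      + β * xi t c s g0 h0 * mu t c (-s) g, ?_⟩
  linear_combination (norm := module) (2 * xi t c s g0 h0) • h1 + α • h3
    + (β * xi t c s g0 h0) • h4

omit [Module.IsTorsionFree 𝒪 M] in
/-- The restriction of a representation to a stable submodule. -/
def restrictRep (ρ : G →* Module.End 𝒪 M) (Λ : Submodule 𝒪 M)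
    (hstab : ∀ g, ∀ x ∈ Λ, ρ g x ∈ Λ) : G →* Module.End 𝒪 Λ where
  toFun g := (ρ g).restrict (hstab g)
  map_one' := by
    ext x
    simp
  map_mul' g h := by
    ext x
    simp

omit [IsDomain 𝒪] [Module.IsTorsionFree 𝒪 M] in
@[simp] lemma restrictRep_coe (ρ : G →* Module.End 𝒪 M) (Λ : Submodule 𝒪 M)
    (hstab : ∀ g, ∀ x ∈ Λ, ρ g x ∈ Λ) (g : G) (x : Λ) :
    ((restrictRep ρ Λ hstab g x : Λ) : M) = ρ g (x : M) := rfl

omit [Module.IsTorsionFree 𝒪 M] in
lemma finrank_sat {v u : M} (hli : ∀ α β : 𝒪, α • v + β • u = 0 → α = 0 ∧ β = 0)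
    [Module.Finite 𝒪 (sat 𝒪 v u)] : Module.finrank 𝒪 (sat 𝒪 v u) = 2 := by
  set Λ := sat 𝒪 v u
  let v' : Λ := ⟨v, left_mem_sat v u⟩
  let u' : Λ := ⟨u, right_mem_sat v u⟩
  have hli' : LinearIndependent 𝒪 ![v', u'] := by
    rw [LinearIndependent.pair_iff]
    intro α β h
    exact hli α β (by simpa [v', u'] using congrArg Subtype.val h)
  let N : Submodule 𝒪 Λ := Submodule.span 𝒪 (Set.range ![v', u'])
  have hN : Module.finrank 𝒪 N = 2 := by
    rw [finrank_span_eq_card hli']; simp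
  have hq : Module.finrank 𝒪 (Λ ⧸ N) = 0 := by
    rw [Module.finrank_eq_zero_iff]
    intro x
    obtain ⟨y, rfl⟩ := Submodule.Quotient.mk_surjective N x
    obtain ⟨a, ha, α, β, hy⟩ := y.2
    refine ⟨a, ha, ?_⟩
    rw [← Submodule.Quotient.mk_smul, Submodule.Quotient.mk_eq_zero]
    have : a • y = α • v' + β • u' := Subtype.ext (by simpa [v', u'] using hy)
    rw [this]
    refine Submodule.add_mem _ (Submodule.smul_mem _ _ (Submodule.subset_span ⟨0, rfl⟩))
      (Submodule.smul_mem _ _ (Submodule.subset_span ⟨1, rfl⟩))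
  have := Submodule.finrank_quotient_add_finrank N
  omega

/-- On a stable rank two lattice on which `ρ c` has both eigenvalues, traces and determinants
are `t` and `d`. -/
theorem trace_det_of_rank_two (H : IsOddQuad ρ d t c) {s : 𝒪} (hs : s = 1 ∨ s = -1)
    (Λ : Submodule 𝒪 M) (hstab : ∀ g, ∀ x ∈ Λ, ρ g x ∈ Λ) [Module.Free 𝒪 Λ] [Module.Finite 𝒪 Λ]
    (hrk : Module.finrank 𝒪 Λ = 2) {v u : M} (hvΛ : v ∈ Λ) (huΛ : u ∈ Λ) (hv0 : v ≠ 0)
    (hu0 : u ≠ 0) (hv : ρ c v = s • v) (hu : ρ c u = (-s) • u) (h2 : (2 : 𝒪) ≠ 0) (g : G) :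
    LinearMap.trace 𝒪 Λ (restrictRep ρ Λ hstab g) = t g ∧
      LinearMap.det (restrictRep ρ Λ hstab g) = ((d g : 𝒪ˣ) : 𝒪) := by
  have : Nontrivial M := nontrivial_of_ne v 0 hv0
  have hs0 : s ≠ 0 := by
    rcases hs with rfl | rfl
    · exact one_ne_zero
    · exact neg_ne_zero.mpr one_ne_zero
  -- the basic relation
  have E : ∀ (g : G) (x : M), x ∈ Λ →
      (LinearMap.trace 𝒪 Λ (restrictRep ρ Λ hstab g) - t g) • ρ g x
        = (LinearMap.det (restrictRep ρ Λ hstab g) - ((d g : 𝒪ˣ) : 𝒪)) • x := by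
    intro g x hx
    have h1 := congrArg Subtype.val (quad_of_finrank_two hrk (restrictRep ρ Λ hstab g) ⟨x, hx⟩)
    simp only [restrictRep_coe, Submodule.coe_sub, Submodule.coe_smul] at h1
    have h3 := H.quad g x
    linear_combination (norm := module) h3 - h1
  have hdetmul : ∀ g h : G, LinearMap.det (restrictRep ρ Λ hstab (g * h))
      = LinearMap.det (restrictRep ρ Λ hstab g) * LinearMap.det (restrictRep ρ Λ hstab h) := by
    intro g h
    rw [map_mul, map_mul]
  -- the element `c`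
  have hc : LinearMap.det (restrictRep ρ Λ hstab c) = -1 := by
    have e1 := E c v hvΛ
    have e2 := E c u huΛ
    rw [hv, t_c H, H.odd] at e1
    rw [hu, t_c H, H.odd] at e2
    have e1' : ((LinearMap.trace 𝒪 Λ (restrictRep ρ Λ hstab c)) * s
        - (LinearMap.det (restrictRep ρ Λ hstab c) + 1)) • v = 0 := by
      linear_combination (norm := module) e1
    have e2' : (-(LinearMap.trace 𝒪 Λ (restrictRep ρ Λ hstab c)) * s
        - (LinearMap.det (restrictRep ρ Λ hstab c) + 1)) • u = 0 := by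
      linear_combination (norm := module) e2
    have f1 := (smul_eq_zero.mp e1').resolve_right hv0
    have f2 := (smul_eq_zero.mp e2').resolve_right hu0
    have f3 : (2 : 𝒪) * (LinearMap.det (restrictRep ρ Λ hstab c) + 1) = 0 := by
      linear_combination -f1 - f2
    have f4 := (mul_eq_zero.mp f3).resolve_left h2
    linear_combination f4
  -- first case: the trace is right
  have key : ∀ g : G, LinearMap.trace 𝒪 Λ (restrictRep ρ Λ hstab g) = t g →
      LinearMap.det (restrictRep ρ Λ hstab g) = ((d g : 𝒪ˣ) : 𝒪) := by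
    intro g hg
    have e1 := E g v hvΛ
    rw [hg, sub_self, zero_smul] at e1
    exact sub_eq_zero.mp ((smul_eq_zero.mp e1.symm).resolve_right hv0)
  have hgv : ρ g v ≠ 0 := fun h => hv0 (rho_injective ρ g (h.trans (map_zero _).symm))
  have hgu : ρ g u ≠ 0 := fun h => hu0 (rho_injective ρ g (h.trans (map_zero _).symm))
  by_cases hg : LinearMap.trace 𝒪 Λ (restrictRep ρ Λ hstab g) = t g
  · exact ⟨hg, key g hg⟩
  · exfalso
    have e1 := E g v hvΛ
    have e2 := E g u huΛ
    have e3 := E (g * c) v hvΛ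
    have e4 := E (g * c) u huΛ
    rw [rho_mul_apply, hv, map_smul] at e3
    rw [rho_mul_apply, hu, map_smul] at e4
    generalize hα : LinearMap.trace 𝒪 Λ (restrictRep ρ Λ hstab g) - t g = α at e1 e2
    generalize hβ : LinearMap.det (restrictRep ρ Λ hstab g) - ((d g : 𝒪ˣ) : 𝒪) = β at e1 e2
    generalize hα' : LinearMap.trace 𝒪 Λ (restrictRep ρ Λ hstab (g * c)) - t (g * c) = α'
      at e3 e4
    generalize hβ' : LinearMap.det (restrictRep ρ Λ hstab (g * c)) - ((d (g * c) : 𝒪ˣ) : 𝒪) = β'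
      at e3 e4
    have hα0 : α ≠ 0 := hα ▸ sub_ne_zero.mpr hg
    have f1 : (α * β' - α' * s * β) • v = 0 := by
      linear_combination (norm := module) (α' * s) • e1 - α • e3
    have f2 : (α * β' + α' * s * β) • u = 0 := by
      linear_combination (norm := module) -(α' * s) • e2 - α • e4
    have f1' := (smul_eq_zero.mp f1).resolve_right hv0
    have f2' := (smul_eq_zero.mp f2).resolve_right hu0
    have f3 : (2 : 𝒪) * (α * β') = 0 := by linear_combination f1' + f2'
    have hβ'0 : β' = 0 := (mul_eq_zero.mp ((mul_eq_zero.mp f3).resolve_left h2)).resolve_left hα0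
    rw [hβ'0, zero_smul] at e3
    have hα'0 : α' = 0 := by
      rcases smul_eq_zero.mp e3 with h | h
      · exact h
      · exact absurd ((smul_eq_zero.mp h).resolve_left hs0) hgv
    have h5 := key (g * c) (sub_eq_zero.mp (hα'.trans hα'0))
    rw [hdetmul, hc, map_mul, Units.val_mul, H.odd] at h5
    have h6 : β = 0 := by rw [← hβ]; linear_combination -h5
    rw [h6, zero_smul] at e1
    exact hα0 ((smul_eq_zero.mp e1).resolve_right hgv)

end CaseB

section Main

variable {𝒪 M : Type} [CommRing 𝒪] [IsDomain 𝒪] [AddCommGroup M] [Module 𝒪 M]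
variable {G : Type*} [Group G]

/-- The conclusion of the odd quadratic lemma: a free module of rank two with an action of `G`
whose characteristic polynomials are `X² - t(g) X + d(g)`, and which inherits congruences. -/
def Concl (ρ : G →* Module.End 𝒪 M) (d : G →* 𝒪ˣ) (t : G → 𝒪) : Prop :=
  ∃ (Λ : Type) (_ : AddCommGroup Λ) (_ : Module 𝒪 Λ) (_ : Module.Free 𝒪 Λ)
    (_ : Module.Finite 𝒪 Λ) (ρ' : G →* Module.End 𝒪 Λ), Module.finrank 𝒪 Λ = 2 ∧
    (∀ g, LinearMap.charpoly (ρ' g) = X ^ 2 - C (t g) * X + C ((d g : 𝒪ˣ) : 𝒪)) ∧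
    (∀ (g : G) (a : 𝒪), (∀ x : M, ∃ y : M, ρ g x - x = a • y) →
      a ∣ ((d g : 𝒪ˣ) : 𝒪) - 1 → ∀ x : Λ, ∃ y : Λ, ρ' g x - x = a • y)

variable {ρ : G →* Module.End 𝒪 M} {d : G →* 𝒪ˣ} {t : G → 𝒪} {c : G}

theorem caseB [IsPrincipalIdealRing 𝒪] [Module.IsTorsionFree 𝒪 M] [Module.Finite 𝒪 M]
    (H : IsOddQuad ρ d t c) {s : 𝒪} (hs : s = 1 ∨ s = -1) {v : M} (hv0 : v ≠ 0)
    (hv : ρ c v = s • v) (h2 : (2 : 𝒪) ≠ 0) {g0 h0 : G} (hξ : xi t c s g0 h0 ≠ 0) :
    Concl ρ d t := by
  have hstab : ∀ g, ∀ x ∈ sat 𝒪 v (uvec ρ t c s g0 v), ρ g x ∈ sat 𝒪 v (uvec ρ t c s g0 v) :=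
    fun g x hx => rho_mem_sat H hs hv hξ h2 g hx
  have hu := uvec_eigen H hs g0 hv
  have hu0 : uvec ρ t c s g0 v ≠ 0 := by
    intro h
    have h1 := f_uvec H hs g0 hv h0
    rw [h] at h1
    simp only [map_zero, smul_zero, add_zero] at h1
    exact (smul_ne_zero hξ hv0) h1.symm
  have hli : ∀ α β : 𝒪, α • v + β • uvec ρ t c s g0 v = 0 → α = 0 ∧ β = 0 := by
    intro α β h
    have h1 := congrArg (fun x => x + s • ρ c x) h
    simp only [map_add, map_smul, hv, hu, map_zero, smul_zero, add_zero] at h1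
    have h3 : (2 * α) • v = 0 := by
      rcases hs with rfl | rfl
      · linear_combination (norm := module) h1
      · linear_combination (norm := module) h1
    have hα : α = 0 :=
      (mul_eq_zero.mp ((smul_eq_zero.mp h3).resolve_right hv0)).resolve_left h2
    rw [hα, zero_smul, zero_add] at h
    exact ⟨hα, (smul_eq_zero.mp h).resolve_right hu0⟩
  have hrk := finrank_sat hli
  refine ⟨sat 𝒪 v (uvec ρ t c s g0 v), inferInstance, inferInstance, inferInstance, inferInstance,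
    restrictRep ρ _ hstab, hrk, ?_, ?_⟩
  · intro g
    obtain ⟨h1, h3⟩ := trace_det_of_rank_two H hs _ hstab hrk (left_mem_sat _ _)
      (right_mem_sat _ _) hv0 hu0 hv hu h2 g
    rw [charpoly_of_finrank_two hrk, h1, h3]
  · intro g a hM _ x
    obtain ⟨y, hy⟩ := hM x
    by_cases ha : a = 0
    · subst ha
      refine ⟨0, Subtype.ext ?_⟩
      simpa using hy
    · have hmem : y ∈ sat 𝒪 v (uvec ρ t c s g0 v) := by
        apply mem_sat_of_smul ha
        rw [← hy]
        exact Submodule.sub_mem _ (hstab g x x.2) x.2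
      exact ⟨⟨y, hmem⟩, Subtype.ext hy⟩

/-- In a valuation ring which is a domain, `a² ∣ b²` implies `a ∣ b`. -/
lemma dvd_of_mul_self_dvd_mul_self [ValuationRing 𝒪] {a b : 𝒪} (h : a * a ∣ b * b) : a ∣ b := by
  rcases ValuationRing.dvd_total a b with h1 | ⟨w, hw⟩
  · exact h1
  · by_cases hb : b = 0
    · rw [hb]; exact dvd_zero a
    · obtain ⟨r, hr⟩ := h
      have h3 : b * b * (1 - w * w * r) = 0 := by
        rw [hw] at hr
        linear_combination hr
      have h4 : 1 - w * w * r = 0 := (mul_eq_zero.mp h3).resolve_left (mul_ne_zero hb hb)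
      refine ⟨w * r, ?_⟩
      rw [hw]
      linear_combination b * h4

/-- The diagonal matrix used in the reducible case. -/
def dg (a b : 𝒪) : Matrix (Fin 2) (Fin 2) 𝒪 := !![a, 0; 0, b]

omit [IsDomain 𝒪] in
lemma dg_mul (a b a' b' : 𝒪) : dg a b * dg a' b' = dg (a * a') (b * b') := by
  ext i j
  fin_cases i <;> fin_cases j <;> simp [dg, Matrix.mul_apply, Fin.sum_univ_two]

omit [IsDomain 𝒪] in
lemma dg_one : dg (1 : 𝒪) 1 = 1 := by
  ext i j
  fin_cases i <;> fin_cases j <;> simp [dg]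

lemma dg_charpoly (a b : 𝒪) :
    (Matrix.toLin' (dg a b)).charpoly = X ^ 2 - C (a + b) * X + C (a * b) := by
  rw [Matrix.charpoly_toLin', Matrix.charpoly_fin_two]
  simp [dg, Matrix.trace_fin_two_of, Matrix.det_fin_two_of]

omit [IsDomain 𝒪] in
lemma dg_apply (a b : 𝒪) (x : Fin 2 → 𝒪) :
    Matrix.toLin' (dg a b) x = ![a * x 0, b * x 1] := by
  ext i
  fin_cases i <;> simp [dg, Matrix.mulVec, dotProduct, Fin.sum_univ_two]

theorem caseA [ValuationRing 𝒪] [IsPrincipalIdealRing 𝒪] [Module.Free 𝒪 M] [Module.Finite 𝒪 M]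
    (H : IsOddQuad ρ d t c) {s : 𝒪} (hs : s = 1 ∨ s = -1) {v : M} (hv0 : v ≠ 0)
    (hv : ρ c v = s • v) (h2 : (2 : 𝒪) ≠ 0) (hA : ∀ g0 h0 : G, xi t c s g0 h0 = 0) :
    Concl ρ d t := by
  have : Nontrivial M := nontrivial_of_ne v 0 hv0
  have h4 : (4 : 𝒪) ≠ 0 := by
    have : (4 : 𝒪) = 2 * 2 := by norm_num
    rw [this]; exact mul_ne_zero h2 h2
  have hmul : ∀ g h : G, 2 * mu t c s (h * g) = mu t c s h * mu t c s g :=
    fun g h => sub_eq_zero.mp (hA g h)
  have hmu1 : mu t c s 1 = 2 := mu_one H s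
  -- the quadratic equation for `μ`
  have hquad : ∀ g : G, mu t c s g * mu t c s g
      = 2 * t g * mu t c s g - 4 * ((d g : 𝒪ˣ) : 𝒪) := by
    intro g
    have h1 := congrArg (fun x => x + s • ρ c x) (H.quad g v)
    simp only [map_sub, map_smul, hv] at h1
    have h3 := compress H hs (g * g) hv
    rw [rho_mul_apply] at h3
    have h5 := compress H hs g hv
    have h6 : (mu t c s (g * g) - t g * mu t c s g + 2 * ((d g : 𝒪ˣ) : 𝒪)) • v = 0 := by
      rcases hs with rfl | rfl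
      · linear_combination (norm := module) h1 - h3 + t g • h5
      · linear_combination (norm := module) h1 - h3 + t g • h5
    have h7 := (smul_eq_zero.mp h6).resolve_right hv0
    have h8 := hmul g g
    linear_combination 2 * h7 - h8
  have hne : ∀ g : G, mu t c s g ≠ 0 := by
    intro g h0
    have h1 := hmul g⁻¹ g
    rw [mul_inv_cancel, hmu1, h0, zero_mul] at h1
    exact h4 (by linear_combination h1)
  have hdvd : ∀ g : G, (2 : 𝒪) ∣ mu t c s g := by
    intro g
    rcases ValuationRing.dvd_total (2 : 𝒪) (mu t c s g) with h | ⟨w, hw⟩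
    · exact h
    · have h1 := hquad g
      have h3 : mu t c s g * mu t c s g
          * (1 - w * t g + w * w * ((d g : 𝒪ˣ) : 𝒪)) = 0 := by
        linear_combination h1 + (t g * mu t c s g) * hw
          - (mu t c s g * w + 2) * ((d g : 𝒪ˣ) : 𝒪) * hw
      have h5 := (mul_eq_zero.mp h3).resolve_left (mul_ne_zero (hne g) (hne g))
      refine ⟨t g - w * ((d g : 𝒪ˣ) : 𝒪), ?_⟩
      rw [hw]
      linear_combination mu t c s g * h5
  choose ψ hψ using hdvd
  have hψ1 : ψ 1 = 1 := by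
    have h1 := hψ 1
    rw [hmu1] at h1
    exact (mul_left_cancel₀ h2 (by rw [mul_one]; exact h1)).symm
  have hψmul : ∀ g h : G, ψ (g * h) = ψ g * ψ h := by
    intro g h
    have h1 := hmul h g
    rw [hψ, hψ g, hψ h] at h1
    apply mul_left_cancel₀ h4
    linear_combination h1
  have hrel : ∀ g : G, ψ g * ψ g - t g * ψ g + ((d g : 𝒪ˣ) : 𝒪) = 0 := by
    intro g
    have h1 := hquad g
    rw [hψ g] at h1
    apply mul_left_cancel₀ h4
    linear_combination h1
  have hψinv : ∀ g : G, ψ g * ψ g⁻¹ = 1 := by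
    intro g
    rw [← hψmul, mul_inv_cancel, hψ1]
  -- the representation
  let ρ' : G →* Module.End 𝒪 (Fin 2 → 𝒪) :=
    { toFun := fun g => Matrix.toLin' (dg (ψ g) (((d g : 𝒪ˣ) : 𝒪) * ψ g⁻¹))
      map_one' := by
        simp only [map_one, Units.val_one, inv_one, hψ1, mul_one, dg_one, Matrix.toLin'_one]
        rfl
      map_mul' := fun g h => by
        have e : dg (ψ (g * h)) (((d (g * h) : 𝒪ˣ) : 𝒪) * ψ (g * h)⁻¹)
            = dg (ψ g) (((d g : 𝒪ˣ) : 𝒪) * ψ g⁻¹) * dg (ψ h) (((d h : 𝒪ˣ) : 𝒪) * ψ h⁻¹) := by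
          rw [dg_mul, hψmul, mul_inv_rev, hψmul, map_mul, Units.val_mul]
          congr 1
          ring
        rw [e, Matrix.toLin'_mul]
        rfl }
  refine ⟨Fin 2 → 𝒪, inferInstance, inferInstance, inferInstance, inferInstance, ρ',
    by simp, ?_, ?_⟩
  · intro g
    change (Matrix.toLin' (dg (ψ g) (((d g : 𝒪ˣ) : 𝒪) * ψ g⁻¹))).charpoly = _
    rw [dg_charpoly]
    have e1 : ψ g + ((d g : 𝒪ˣ) : 𝒪) * ψ g⁻¹ = t g := by
      linear_combination ψ g⁻¹ * hrel g - (ψ g - t g) * hψinv g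
    have e2 : ψ g * (((d g : 𝒪ˣ) : 𝒪) * ψ g⁻¹) = ((d g : 𝒪ˣ) : 𝒪) := by
      linear_combination ((d g : 𝒪ˣ) : 𝒪) * hψinv g
    rw [e1, e2]
  · intro g a hM hd x
    -- the submodule on which `f ∘ h = ψ(h) f`, `f = 1 + s C`
    let W : Submodule 𝒪 M :=
      { carrier := {x | ∀ h : G, ρ h x + s • ρ c (ρ h x) = ψ h • (x + s • ρ c x)}
        zero_mem' := by intro h; simp
        add_mem' := by
          intro x y hx hy h
          have h1 := hx h
          have h2 := hy h
          simp only [map_add]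
          linear_combination (norm := module) h1 + h2
        smul_mem' := by
          intro r x hx h
          have h1 := hx h
          simp only [map_smul]
          linear_combination (norm := module) r • h1 }
    have hvW : v ∈ W := by
      intro h
      have h1 := compress H hs h hv
      rw [hψ h] at h1
      rw [hv]
      rcases hs with rfl | rfl
      · linear_combination (norm := module) h1
      · linear_combination (norm := module) h1
    have hWstab : ∀ (g : G) (x : M), x ∈ W → ρ g x ∈ W := by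
      intro g x hx h
      have h1 := hx (h * g)
      have h2 := hx g
      rw [rho_mul_apply, hψmul] at h1
      linear_combination (norm := module) h1 - ψ h • h2
    let b := Module.Free.chooseBasis 𝒪 M
    obtain ⟨i, hi⟩ : ∃ i, b.repr v i ≠ 0 := by
      by_contra hcon
      have hcon' : ∀ i, b.repr v i = 0 := fun i => not_not.mp (fun h => hcon ⟨i, h⟩)
      have : b.repr v = 0 := Finsupp.ext hcon'
      exact hv0 (b.repr.map_eq_zero_iff.mp this)
    let lam : M →ₗ[𝒪] 𝒪 := (b.coord i).comp (LinearMap.id + s • ρ c)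
    have hlam : ∀ y : M, lam y = b.repr (y + s • ρ c y) i := fun y => rfl
    have hlamW : ∀ (g : G) (x : M), x ∈ W → lam (ρ g x) = ψ g * lam x := by
      intro g x hx
      rw [hlam, hlam, hx g, map_smul, Finsupp.smul_apply, smul_eq_mul]
    obtain ⟨j0, hj0⟩ := (IsPrincipalIdealRing.principal (Submodule.map lam W)).principal
    have hlamv : lam v ≠ 0 := by
      rw [hlam, hv]
      have e : v + s • s • v = (2 : 𝒪) • v := by
        rcases hs with rfl | rfl
        · module
        · module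
      rw [e, map_smul, Finsupp.smul_apply, smul_eq_mul]
      exact mul_ne_zero h2 hi
    have hj0ne : j0 ≠ 0 := by
      intro h0
      have hmem : lam v ∈ Submodule.map lam W := Submodule.mem_map_of_mem hvW
      rw [hj0, h0, Submodule.span_singleton_eq_bot.mpr rfl, Submodule.mem_bot] at hmem
      exact hlamv hmem
    obtain ⟨x0, hx0W, hx0⟩ : ∃ x0 ∈ W, lam x0 = j0 := by
      have hmem : j0 ∈ Submodule.map lam W := by
        rw [hj0]; exact Submodule.mem_span_singleton_self j0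
      exact Submodule.mem_map.mp hmem
    have hk1 : a ∣ ψ g - 1 := by
      obtain ⟨y, hy⟩ := hM x0
      have e1 : (ψ g - 1) * j0 = a * lam y := by
        have e2 := congrArg lam hy
        rw [map_sub, hlamW g x0 hx0W, hx0, map_smul, smul_eq_mul] at e2
        linear_combination e2
      by_cases ha : a = 0
      · rw [ha, zero_mul] at e1
        have e3 := (mul_eq_zero.mp e1).resolve_right hj0ne
        rw [e3]
        exact dvd_zero a
      · have hyW : y ∈ W := by
          have h3 : a • y ∈ W := by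
            rw [← hy]
            exact Submodule.sub_mem _ (hWstab g x0 hx0W) hx0W
          intro h
          have h4 := h3 h
          simp only [map_smul] at h4
          have h5 : a • (ρ h y + s • ρ c (ρ h y)) = a • (ψ h • (y + s • ρ c y)) := by
            linear_combination (norm := module) h4
          exact smul_right_injective M ha h5
        have hmem : lam y ∈ Submodule.map lam W := Submodule.mem_map_of_mem hyW
        rw [hj0, Submodule.mem_span_singleton] at hmem
        obtain ⟨r, hr⟩ := hmem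
        refine ⟨r, ?_⟩
        have e4 : (ψ g - 1) * j0 = (a * r) * j0 := by
          rw [e1, ← hr, smul_eq_mul]; ring
        exact mul_right_cancel₀ hj0ne e4
    obtain ⟨k1, hk1⟩ := hk1
    obtain ⟨k0, hk0⟩ := hd
    have hk2 : ((d g : 𝒪ˣ) : 𝒪) * ψ g⁻¹ - 1 = a * (ψ g⁻¹ * (k0 - k1)) := by
      linear_combination ψ g⁻¹ * hk0 - ψ g⁻¹ * hk1 + hψinv g
    refine ⟨![k1 * x 0, (ψ g⁻¹ * (k0 - k1)) * x 1], ?_⟩
    change Matrix.toLin' (dg (ψ g) (((d g : 𝒪ˣ) : 𝒪) * ψ g⁻¹)) x - x = _
    rw [dg_apply]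
    ext i
    fin_cases i
    · simp only [Fin.zero_eta, Fin.isValue, Pi.sub_apply, Matrix.cons_val_zero, Pi.smul_apply,
        smul_eq_mul]
      linear_combination x 0 * hk1
    · simp only [Fin.mk_one, Fin.isValue, Pi.sub_apply, Matrix.cons_val_one,
        Matrix.cons_val_fin_one, Pi.smul_apply, smul_eq_mul]
      linear_combination x 1 * hk2

/-- **The odd quadratic lemma.** -/
theorem oddQuadratic [ValuationRing 𝒪] [IsPrincipalIdealRing 𝒪] [Module.Free 𝒪 M]
    [Module.Finite 𝒪 M] [Nontrivial M] (H : IsOddQuad ρ d t c) (h2 : (2 : 𝒪) ≠ 0) :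
    Concl ρ d t := by
  obtain ⟨s, hs, v, hv0, hv⟩ := exists_eigen H
  by_cases hA : ∀ g0 h0 : G, xi t c s g0 h0 = 0
  · exact caseA H hs hv0 hv h2 hA
  · obtain ⟨g0, hA⟩ := not_forall.mp hA
    obtain ⟨h0, hξ⟩ := not_forall.mp hA
    exact caseB H hs hv0 hv h2 hξ

end Main

end Fermat.Agent.S30.OddQ
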